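import Fermat.Agent.FlatTangent.Unram
import Mathlib.NumberTheory.Padics.PadicVal.Basic
import Mathlib.Data.Nat.Factorization.Basic

/-!
# Rational numbers with divisible valuations
-/

set_option autoImplicit false

noncomputable section

namespace Fermat.Agent.Mazur.Descent

open Fermat.Agent.FlatTangent

theorem exists_nat_pow_of_dvd_factorization {n d : ℕ} (hn : n ≠ 0)
    (h : ∀ q : ℕ, q.Prime → d ∣ n.factorization q) : ∃ b : ℕ, n = b ^ d := by
  refine ⟨n.factorization.prod fun q k => q ^ (k / d), ?_⟩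
  conv_lhs => rw [← Nat.prod_factorization_pow_eq_self hn]
  rw [Finsupp.prod, Finsupp.prod, ← Finset.prod_pow]
  refine Finset.prod_congr rfl fun q hq => ?_
  rw [← pow_mul, Nat.div_mul_cancel (h q ?_)]
  exact Nat.prime_of_mem_primeFactors (by rwa [Nat.support_factorization] at hq)

theorem dvd_factorization_num_den {a : ℚ} {q d : ℕ} (hq : q.Prime)
    (h : (d : ℤ) ∣ padicValRat q a) :
    d ∣ a.num.natAbs.factorization q ∧ d ∣ a.den.factorization q := by
  rw [Nat.factorization_def _ hq, Nat.factorization_def _ hq]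
  have hdef : padicValRat q a = (padicValNat q a.num.natAbs : ℤ) - padicValNat q a.den := rfl
  rw [hdef] at h
  rcases Nat.eq_zero_or_pos (padicValNat q a.num.natAbs) with h0 | h0
  · rw [h0, Nat.cast_zero, zero_sub, dvd_neg, Int.natCast_dvd_natCast] at h
    exact ⟨h0 ▸ dvd_zero _, h⟩
  · have hden : padicValNat q a.den = 0 := by
      refine padicValNat.eq_zero_of_not_dvd fun hd => ?_
      have hnum : q ∣ a.num.natAbs := dvd_of_one_le_padicValNat h0
      exact hq.ne_one (Nat.Coprime.eq_one_of_dvd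
        (Nat.Coprime.coprime_dvd_left hnum a.reduced) hd)
    rw [hden, Nat.cast_zero, sub_zero, Int.natCast_dvd_natCast] at h
    exact ⟨h, hden ▸ dvd_zero _⟩

theorem exists_rat_pow {a : ℚ} (ha : a ≠ 0) {d : ℕ} (hd : Odd d)
    (h : ∀ q : ℕ, q.Prime → (d : ℤ) ∣ padicValRat q a) : ∃ b : ℚ, a = b ^ d := by
  obtain ⟨u, hu⟩ := exists_nat_pow_of_dvd_factorization
    (Int.natAbs_ne_zero.mpr (Rat.num_ne_zero.mpr ha))
    (fun q hq => (dvd_factorization_num_den hq (h q hq)).1)
  obtain ⟨v, hv⟩ := exists_nat_pow_of_dvd_factorization a.den_nz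
    (fun q hq => (dvd_factorization_num_den hq (h q hq)).2)
  rcases Int.natAbs_eq a.num with hs | hs
  · refine ⟨(u : ℚ) / v, ?_⟩
    conv_lhs => rw [← Rat.num_div_den a, hs, hu, hv]
    push_cast
    rw [div_pow]
  · refine ⟨-(u : ℚ) / v, ?_⟩
    conv_lhs => rw [← Rat.num_div_den a, hs, hu, hv]
    push_cast
    rw [div_pow, hd.neg_pow]

theorem exists_rat_zpow_mul_pow {a : ℚ} (ha : a ≠ 0) {ℓ : ℕ} (hℓ : ℓ.Prime) (hodd : Odd ℓ)
    (h : ∀ q : ℕ, q.Prime → q ≠ ℓ → (ℓ : ℤ) ∣ padicValRat q a) :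
    ∃ (v : ℤ) (b : ℚ), a = (ℓ : ℚ) ^ v * b ^ ℓ := by
  haveI := Fact.mk hℓ
  have hℓ0 : (ℓ : ℚ) ≠ 0 := Nat.cast_ne_zero.mpr hℓ.ne_zero
  obtain ⟨b, hb⟩ := exists_rat_pow (a := a / (ℓ : ℚ) ^ padicValRat ℓ a)
    (div_ne_zero ha (zpow_ne_zero _ hℓ0)) hodd (fun q hq => by
      haveI := Fact.mk hq
      rw [padicValRat.div ha (zpow_ne_zero _ hℓ0), padicValRat.zpow]
      by_cases hql : q = ℓ
      · subst hql
        rw [padicValRat.self hq.one_lt, mul_one, sub_self]
        exact dvd_zero _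
      · rw [padicValRat.of_nat, padicValNat_primes hql, Nat.cast_zero, mul_zero, sub_zero]
        exact h q hq hql)
  exact ⟨padicValRat ℓ a, b, by rw [← hb, mul_div_cancel₀ _ (zpow_ne_zero _ hℓ0)]⟩

variable {q : ℕ} [Fact q.Prime]

theorem veq_natCast_padicVal {n : ℕ} (hn : n ≠ 0) :
    VEQ q (padicValNat q n) (n : Qb) := by
  obtain ⟨u, hu⟩ := pow_padicValNat_dvd (p := q) (n := n)
  have hnu : ¬ q ∣ u := fun hd =>
    pow_succ_padicValNat_not_dvd (p := q) hn (by
      rw [pow_succ]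
      conv_rhs => rw [hu]
      exact Nat.mul_dvd_mul_left _ hd)
  have := ((veq_cast_self (p := q)).pow (padicValNat q n)).mul (veq_natCast_of_not_dvd hnu)
  rw [mul_one, add_zero, ← Nat.cast_pow, ← Nat.cast_mul, ← hu] at this
  exact this

/-- The valuation of a rational number at the chosen place. -/
theorem veq_ratCast {a : ℚ} (ha : a ≠ 0) : VEQ q (padicValRat q a) (a : Qb) := by
  have hn := veq_natCast_padicVal (q := q) (Int.natAbs_ne_zero.mpr (Rat.num_ne_zero.mpr ha))
  have hd := veq_natCast_padicVal (q := q) a.den_nz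
  have hnum : VEQ q (padicValNat q a.num.natAbs) ((a.num : ℤ) : Qb) := by
    rcases Int.natAbs_eq a.num with hs | hs
    · have he : ((a.num : ℤ) : Qb) = (a.num.natAbs : Qb) :=
        (congrArg (Int.cast : ℤ → Qb) hs).trans (Int.cast_natCast _)
      rw [he]; exact hn
    · have he : ((a.num : ℤ) : Qb) = -(a.num.natAbs : Qb) :=
        (congrArg (Int.cast : ℤ → Qb) hs).trans (by rw [Int.cast_neg, Int.cast_natCast])
      rw [he]; exact hn.neg
  have := hnum.div hd
  rw [Rat.cast_def]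
  rw [show ((padicValRat q a : ℤ) : ℝ) =
    (padicValNat q a.num.natAbs : ℝ) - (padicValNat q a.den : ℝ) from by
      simp [padicValRat, padicValInt]]
  exact this

end Fermat.Agent.Mazur.Descent
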