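import Fermat.Agent.Mazur.Descent.Conditions
import Fermat.Agent.Mazur.Descent.RatPow
import Fermat.Agent.Galois.Cyclotomic
import Fermat.Agent.Galois.Unramified
import Fermat.Agent.Galois.Decomposition
import Fermat.Agent.TW.LocalKummer
import Fermat.Prelude.Def_ExtCitation_KummerBridge

/-!
# The simple pieces have no Selmer classes

For an odd prime `ℓ`, a module of order `ℓ` on which the Galois group acts trivially or by the
cyclotomic character has no non-trivial class satisfying the local conditions.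
-/

set_option autoImplicit false

noncomputable section

namespace Fermat.Agent.Mazur.Descent

open Fermat.Agent.FlatTangent ExtCitation

/-- The index family of inertia groups over a finite set of primes. -/
def inertS (S : Finset Nat.Primes) : {q : Nat.Primes // q ∈ S} → Subgroup Gal := fun q => inertP q.1

variable (ℓ : ℕ) [hℓ : Fact ℓ.Prime]

theorem apply_eq_pow_cycloChar (σ : Gal) {ζ : Qb} (hζ : ζ ^ ℓ = 1) :
    σ ζ = ζ ^ (cycloChar ℓ σ : ZMod ℓ).val := by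
  haveI : NeZero ℓ := ⟨hℓ.out.ne_zero⟩
  have hu : IsUnit ζ := IsUnit.of_pow_eq_one hζ hℓ.out.ne_zero
  have := modularCyclotomicCharacter.spec Qb (card_rootsOfUnity_eq_self ℓ) (σ : Qb ≃+* Qb)
    (t := hu.unit) (by rw [mem_rootsOfUnity']; exact hζ)
  exact this

theorem cycloChar_inertia (q : ℕ) [Fact q.Prime] (hq : q ≠ ℓ) {σ : Gal} (hσ : σ ∈ inert q) :
    cycloChar ℓ σ = 1 := by
  haveI : NeZero ℓ := ⟨hℓ.out.ne_zero⟩
  exact Galois.modularCyclotomicCharacter_inertia (plc_liesOverPrime q) Fact.out hσ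
    (fun hd => hq ((Nat.prime_dvd_prime_iff_eq Fact.out hℓ.out).mp hd)) _

theorem exists_inert_sq (hℓ2 : ℓ ≠ 2) :
    ∃ τ ∈ inert ℓ, ∀ ζ : Qb, ζ ^ ℓ ^ 1 = 1 → τ ζ = ζ ^ 2 := by
  haveI : NeZero (ℓ ^ 1) := ⟨pow_ne_zero 1 hℓ.out.ne_zero⟩
  have hcard : Nat.card (rootsOfUnity (ℓ ^ 1) Qb) = ℓ ^ 1 :=
    HasEnoughRootsOfUnity.natCard_rootsOfUnity Qb (ℓ ^ 1)
  have hcop : Nat.Coprime 2 (ℓ ^ 1) := Nat.Coprime.pow_right 1
    ((Nat.coprime_primes Nat.prime_two hℓ.out).mpr (Ne.symm hℓ2))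
  obtain ⟨τ, hτ, hτχ⟩ := Galois.exists_inertia_modularCyclotomicCharacter_eq
    (A := plc ℓ) (plc_liesOverPrime ℓ) hℓ.out 1 hcard (ZMod.unitOfCoprime 2 hcop)
  refine ⟨τ, hτ, fun ζ hζ => ?_⟩
  have hu : IsUnit ζ := IsUnit.of_pow_eq_one hζ (NeZero.ne _)
  have hspec := modularCyclotomicCharacter.spec Qb hcard (τ : Qb ≃+* Qb) (t := hu.unit)
    (by rw [mem_rootsOfUnity']; exact hζ)
  rw [hτχ, ZMod.coe_unitOfCoprime, ZMod.val_natCast] at hspec
  refine (show τ ζ = _ from hspec).trans ?_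
  rw [IsUnit.unit_spec]
  conv_rhs => rw [← Nat.mod_add_div 2 (ℓ ^ 1), pow_add, pow_mul, hζ, one_pow, mul_one]

variable {ℓ} {S : Finset Nat.Primes} {M : Type} [AddCommGroup M] {ρ : Gal →* AddMonoid.End M}

theorem rho_inertia_eq_self (hρ : ∀ g, ∀ x : M, ρ g x = (cycloChar ℓ g : ZMod ℓ).val • x)
    {q : Nat.Primes} [Fact (q : ℕ).Prime] (hq : (q : ℕ) ≠ ℓ) {σ : Gal} (hσ : σ ∈ inertP q)
    (x : M) : ρ σ x = x := by
  rw [hρ σ x, cycloChar_inertia ℓ (q : ℕ) hq hσ, Units.val_one, ZMod.val_one, one_nsmul]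

/-- A class on a module with trivial action vanishes. -/
theorem sel_le_B1_of_trivial (hℓ2 : ℓ ≠ 2) (hℓM : ∀ x : M, ℓ • x = 0)
    (hρ : ∀ g, ∀ x : M, ρ g x = x) :
    sel (cond ℓ S) (inertS S) ρ ≤ B1 ρ := by
  intro c hc
  obtain ⟨⟨hZ, ⟨E, hE, hlev⟩, hunr, heig, -⟩, hloc⟩ := mem_sel.mp hc
  have hmul : ∀ g h, c (g * h) = c g + c h := fun g h => by rw [hZ g h, hρ]
  let f : Gal →* Multiplicative M :=
    MonoidHom.mk' (fun g => Multiplicative.ofAdd (c g)) fun g h => by rw [hmul]; rfl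
  have hf1 : f = 1 := by
    refine Galois.monoidHom_eq_one_of_forall_inertia f
      ⟨E, hE, fun σ hσ => MonoidHom.mem_ker.mpr (congrArg Multiplicative.ofAdd (hlev σ hσ))⟩ ?_
    intro q hq A hA σ hσ
    haveI := Fact.mk hq
    obtain ⟨g, hg⟩ := Galois.exists_smul_eq (plc_liesOverPrime q) hA hq
    rw [← hg, Galois.mem_inertia_smul_iff] at hσ
    have hconj : c σ = c (g⁻¹ * σ * g) := by
      have hone : c 1 = 0 := by
        have h11 := hmul 1 1
        rw [mul_one] at h11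
        exact left_eq_add.mp h11
      have hinv : c g⁻¹ + c g = 0 := by rw [← hmul, inv_mul_cancel, hone]
      rw [hmul, hmul, add_right_comm, hinv, zero_add]
    refine congrArg Multiplicative.ofAdd (hconj.trans ?_)
    by_cases hql : q = ℓ
    · subst hql
      obtain ⟨τ, hτ, hτζ⟩ := exists_inert_sq q hℓ2
      have h2 := (heig _ hσ τ hτ).2 1 (by rw [pow_one]; exact hℓM _) 2 hτζ
      rw [hρ, two_nsmul] at h2
      exact left_eq_add.mp h2
    · by_cases hqS : (⟨q, hq⟩ : Nat.Primes) ∈ S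
      · obtain ⟨m, hm⟩ := hloc ⟨⟨q, hq⟩, hqS⟩
        rw [hm _ hσ, hρ, sub_self]
      · exact hunr ⟨q, hq⟩ hql hqS _ hσ
  refine ⟨0, ?_⟩
  rw [map_zero]
  funext g
  exact (congrArg Multiplicative.toAdd (DFunLike.congr_fun hf1 g)).symm

/-- A class on a module of order `ℓ` with cyclotomic action vanishes. -/
theorem sel_le_B1_of_cyclo (hℓ2 : ℓ ≠ 2) (hcard : Nat.card M = ℓ)
    (hρ : ∀ g, ∀ x : M, ρ g x = (cycloChar ℓ g : ZMod ℓ).val • x) :
    sel (cond ℓ S) (inertS S) ρ ≤ B1 ρ := by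
  classical
  haveI : NeZero ℓ := ⟨hℓ.out.ne_zero⟩
  intro c hc
  obtain ⟨⟨hZ, ⟨E, hE, hlev⟩, hunr, -, hker⟩, hloc⟩ := mem_sel.mp hc
  haveI hcyc : IsAddCyclic M := isAddCyclic_of_prime_card (p := ℓ) hcard
  obtain ⟨z, hz⟩ := HasEnoughRootsOfUnity.exists_primitiveRoot Qb ℓ
  have hz0 : z ≠ 0 := hz.ne_zero hℓ.out.ne_zero
  let e : ZMod ℓ ≃+ M :=
    (ZMod.ringEquivCongr hcard.symm).toAddEquiv.trans (zmodAddCyclicAddEquiv hcyc)
  -- the root of unity attached to an element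
  let r : M → Qb := fun x => z ^ (e.symm x).val
  have hr_add : ∀ x y, r (x + y) = r x * r y := fun x y => by
    simp only [r, map_add, ← pow_add]
    rw [ZMod.val_add]
    exact (pow_eq_pow_mod _ hz.pow_eq_one).symm
  have hr_nsmul : ∀ (n : ℕ) x, r (n • x) = r x ^ n := by
    intro n x
    induction n with
    | zero => rw [zero_nsmul, pow_zero]; simp [r]
    | succ n ih => rw [succ_nsmul, hr_add, ih, pow_succ]
  have hrℓ : ∀ x, r x ^ ℓ = 1 := fun x => by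
    rw [← pow_mul, mul_comm, pow_mul, hz.pow_eq_one, one_pow]
  have hr_inj : ∀ x, r x = 1 → x = 0 := fun x hx => by
    have h1 : ℓ ∣ (e.symm x).val := (hz.pow_eq_one_iff_dvd _).mp hx
    have h2 : (e.symm x).val = 0 := Nat.eq_zero_of_dvd_of_lt h1 (ZMod.val_lt _)
    rw [← e.apply_symm_apply x, (ZMod.val_eq_zero _).mp h2, map_zero]
  have hequiv : ∀ g x, g (r x) = r (ρ g x) := fun g x => by
    rw [hρ, hr_nsmul, apply_eq_pow_cycloChar ℓ g (hrℓ x)]
  -- Hilbert 90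
  obtain ⟨β, hβ0, hβ⟩ := Fermat.Agent.TW.exists_eq_div_of_levelConstant_cocycle
    (fun g => r (c g)) (fun g => pow_ne_zero _ hz0)
    (fun g h => by
      show r (c (g * h)) = g (r (c h)) * r (c g)
      rw [hZ g h, hr_add, hequiv, mul_comm]) E
    (fun g s hs => by
      show r (c (g * s)) = r (c g)
      rw [hZ g s, hlev s hs, map_zero, add_zero])
  have hβ' : ∀ g, g β = r (c g) * β := fun g => by rw [hβ g, div_mul_cancel₀ _ hβ0]
  obtain ⟨a, ha⟩ : β ^ ℓ ∈ (⊥ : IntermediateField ℚ Qb) := by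
    rw [← InfiniteGalois.fixedField_bot, IntermediateField.mem_fixedField_iff]
    intro g _
    rw [map_pow, hβ', mul_pow, hrℓ, one_mul]
  have ha' : β ^ ℓ = (a : Qb) := ha.symm
  have ha0 : a ≠ 0 := fun h0 => pow_ne_zero ℓ hβ0 (by rw [ha', h0, Rat.cast_zero])
  -- valuations away from ℓ
  have hval : ∀ q : ℕ, q.Prime → q ≠ ℓ → (ℓ : ℤ) ∣ padicValRat q a := by
    intro q hq hql
    haveI := Fact.mk hq
    have hβU : InU q β := fun σ hσ => by
      have hcσ : c σ = 0 := by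
        by_cases hqS : (⟨q, hq⟩ : Nat.Primes) ∈ S
        · obtain ⟨m, hm⟩ := hloc ⟨⟨q, hq⟩, hqS⟩
          rw [hm σ hσ, rho_inertia_eq_self hρ (q := ⟨q, hq⟩) hql hσ, sub_self]
        · exact hunr ⟨q, hq⟩ hql hqS σ hσ
      rw [hβ', hcσ]
      simp [r]
    obtain ⟨m, hm⟩ := hβU.exists_int hβ0
    have h1 := hm.pow ℓ
    rw [ha'] at h1
    have h2 := h1.unique (veq_ratCast ha0)
    exact ⟨m, by exact_mod_cast h2.symm⟩
  obtain ⟨v, b, hab⟩ := exists_rat_zpow_mul_pow ha0 hℓ.out (hℓ.out.odd_of_ne_two hℓ2) hval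
  have hb0 : (b : Qb) ≠ 0 := Rat.cast_ne_zero.mpr fun h0 =>
    ha0 (by rw [hab, h0, zero_pow hℓ.out.ne_zero, mul_zero])
  obtain ⟨t, ht⟩ := IsAlgClosed.exists_pow_nat_eq (ℓ : Qb) hℓ.out.pos
  have ht0 : t ≠ 0 := fun h0 => Nat.cast_ne_zero.mpr hℓ.out.ne_zero
    (by rw [← ht, h0, zero_pow hℓ.out.ne_zero])
  have hw0 : t ^ v * (b : Qb) ≠ 0 := mul_ne_zero (zpow_ne_zero _ ht0) hb0
  set w := β / (t ^ v * (b : Qb)) with hw
  have hwℓ : w ^ ℓ = 1 := by
    rw [hw, div_pow, mul_pow, ha', hab, Rat.cast_mul, Rat.cast_zpow, Rat.cast_pow,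
      Rat.cast_natCast, ← ht, ← zpow_natCast (t ^ v) ℓ, zpow_comm, zpow_natCast]
    exact div_self (mul_ne_zero (zpow_ne_zero _ (pow_ne_zero _ ht0)) (pow_ne_zero _ hb0))
  have hβw : β = w * (t ^ v * (b : Qb)) := by rw [hw, div_mul_cancel₀ _ hw0]
  -- at ℓ
  have hv : (ℓ : ℤ) ∣ v := by
    obtain ⟨σ, hσ, hσt⟩ := exists_mem_unitKer_apply_ne hℓ2 ht
    have hσw : σ w = w := (mem_unitKer.mp hσ).2 w
      (isUnitRoot_of_pow_eq_one (n := 1) (by rw [pow_one]; exact hwℓ))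
    have hσβ : σ β = β := by
      rw [hβ', hker σ hσ]; simp [r]
    rw [hβw, map_mul, map_mul, map_zpow₀, map_ratCast, hσw] at hσβ
    have htv : (σ t) ^ v = t ^ v :=
      mul_right_cancel₀ hb0 (mul_left_cancel₀ (left_ne_zero_of_mul
        (show w * (t ^ v * (b : Qb)) ≠ 0 from hβw ▸ hβ0)) hσβ)
    have hu : (σ t / t) ^ ℓ = 1 := by
      rw [div_pow, ← map_pow, ht, map_natCast, div_self (Nat.cast_ne_zero.mpr hℓ.out.ne_zero)]
    have hu1 : σ t / t ≠ 1 := fun h => hσt (by rwa [div_eq_one_iff_eq ht0] at h)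
    have hprim : IsPrimitiveRoot (σ t / t) ℓ := by
      rw [IsPrimitiveRoot.iff_orderOf]
      exact orderOf_eq_prime hu hu1
    exact (hprim.zpow_eq_one_iff_dvd v).mp (by
      rw [div_zpow, htv, div_self (zpow_ne_zero _ ht0)])
  obtain ⟨k, hk⟩ := hv
  have hrat : ∀ g : Gal, g (t ^ v * (b : Qb)) = t ^ v * (b : Qb) := fun g => by
    rw [map_mul, map_ratCast, map_zpow₀, hk, zpow_mul, zpow_mul, zpow_natCast, zpow_natCast,
      ← map_pow, ht, map_natCast]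
  obtain ⟨i, -, hi⟩ := hz.eq_pow_of_pow_eq_one hwℓ
  refine ⟨e (i : ZMod ℓ), ?_⟩
  funext g
  have hwr : w = r (e (i : ZMod ℓ)) := by
    simp only [r, AddEquiv.symm_apply_apply, ZMod.val_natCast]
    rw [← hi]
    exact pow_eq_pow_mod _ hz.pow_eq_one
  have h1 := hβ' g
  rw [hβw, map_mul, hrat, ← mul_assoc (r (c g))] at h1
  have h2 : g w = r (c g) * w := mul_right_cancel₀ hw0 h1
  rw [hwr, hequiv, ← hr_add] at h2
  have h3 : r (ρ g (e (i : ZMod ℓ)) - (c g + e (i : ZMod ℓ))) = 1 := by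
    have := hr_add (ρ g (e (i : ZMod ℓ)) - (c g + e (i : ZMod ℓ))) (c g + e (i : ZMod ℓ))
    rw [sub_add_cancel, h2] at this
    exact (mul_eq_right₀ (pow_ne_zero _ hz0)).mp this.symm
  have h4 := hr_inj _ h3
  rw [dB_apply]
  rw [sub_add_eq_sub_sub, sub_right_comm, sub_eq_zero] at h4
  exact h4

end Fermat.Agent.Mazur.Descent
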