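import Fermat.Agent.Mazur.Descent.Basic
import Mathlib.GroupTheory.PGroup
import Mathlib.Algebra.Field.ZMod
import Mathlib.Algebra.GroupWithZero.Units.Basic
import Mathlib.Data.Nat.Choose.Dvd
import Mathlib.Algebra.CharP.Lemmas
import Mathlib.Algebra.CharP.Basic
import Mathlib.GroupTheory.GroupAction.Hom
import Mathlib.Tactic.Group

/-!
# Simple pieces of a module whose operators have eigenvalues in `{1, χ}`
-/

set_option autoImplicit false

namespace Fermat.Agent.Mazur.Descent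

variable {Γ : Type*} [Group Γ] {ℓ : ℕ}

/-- Every operator satisfies a power of `(X - 1)(X - χ)`, and the module is `ℓ`-primary. -/
def Eig (χ : Γ →* (ZMod ℓ)ˣ) {M : Type} [AddCommGroup M] (ρ : Γ →* AddMonoid.End M) : Prop :=
  ∃ r a : ℕ, ∀ m : M, ℓ ^ r • m = 0 ∧
    ∀ g, ((ρ g - 1) ^ a) (((ρ g - ((χ g : ZMod ℓ).val : AddMonoid.End M)) ^ a) m) = 0

theorem natCast_end_apply {M : Type*} [AddCommGroup M] (n : ℕ) (m : M) :
    (n : AddMonoid.End M) m = n • m := rfl

theorem eig_of_hom {χ : Γ →* (ZMod ℓ)ˣ} {M Y : Type} [AddCommGroup M] [AddCommGroup Y]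
    {ρ : Γ →* AddMonoid.End M} {ρ' : Γ →* AddMonoid.End Y} (π : M →+ Y)
    (hπs : Function.Surjective π) (hπ : ∀ g m, π (ρ g m) = ρ' g (π m)) (h : Eig χ ρ) :
    Eig χ ρ' := by
  obtain ⟨r, a, h⟩ := h
  refine ⟨r, a, fun y => ?_⟩
  obtain ⟨m, rfl⟩ := hπs y
  refine ⟨by rw [← map_nsmul, (h m).1, map_zero], fun g => ?_⟩
  rw [← map_pow_apply π (ρ g - ((χ g : ZMod ℓ).val : AddMonoid.End M)) _ (fun x => ?_),
    ← map_pow_apply π (ρ g - 1) _ (fun x => ?_), (h m).2 g, map_zero]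
  · show π (ρ g x - x) = ρ' g (π x) - π x
    rw [map_sub, hπ]
  · show π (ρ g x - (χ g : ZMod ℓ).val • x) = ρ' g (π x) - (χ g : ZMod ℓ).val • π x
    rw [map_sub, map_nsmul, hπ]

theorem eig_quotRep {χ : Γ →* (ZMod ℓ)ˣ} {M : Type} [AddCommGroup M]
    {ρ : Γ →* AddMonoid.End M} (h : Eig χ ρ) (X : AddSubgroup M) (hX : IsStable ρ X) :
    Eig χ (quotRep ρ X hX) :=
  eig_of_hom (QuotientAddGroup.mk' X) (QuotientAddGroup.mk'_surjective X) (fun _ _ => rfl) h

/-- A non-zero kernel of an endomorphism whose iterate kills a non-zero element. -/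
theorem exists_ne_zero_map_eq_zero {M : Type*} [AddCommGroup M] (f : AddMonoid.End M) {n : ℕ}
    {m : M} (hm : m ≠ 0) (h : (f ^ n) m = 0) : ∃ x, x ≠ 0 ∧ f x = 0 := by
  induction n generalizing m with
  | zero => exact absurd h hm
  | succ n ih =>
    rw [end_pow_succ_apply] at h
    by_cases hf : f m = 0
    · exact ⟨m, hm, hf⟩
    · exact ih hf h

theorem end_pow_mem {M : Type*} [AddCommGroup M] (f : AddMonoid.End M) {X : AddSubgroup M}
    (hfX : ∀ y ∈ X, f y ∈ X) : ∀ n, ∀ y ∈ X, (f ^ n) y ∈ X := by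
  intro n
  induction n with
  | zero => intro y hy; exact hy
  | succ n ih => intro y hy; rw [end_pow_succ_apply]; exact ih _ (hfX y hy)

variable [hℓ : Fact ℓ.Prime]

theorem rho_pow_eq_self {M : Type*} [AddCommGroup M] (hℓM : ∀ m : M, ℓ • m = 0)
    (f : AddMonoid.End M) {n : ℕ} (hf : ∀ m, ((f - 1) ^ n) m = 0) (m : M) :
    (f ^ ℓ ^ n) m = m := by
  rcases subsingleton_or_nontrivial M with h | h
  · exact Subsingleton.elim _ _
  haveI : Nontrivial (AddMonoid.End M) := by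
    obtain ⟨x, hx⟩ := exists_ne (0 : M)
    exact ⟨1, 0, fun h => hx (DFunLike.congr_fun h x)⟩
  haveI : CharP (AddMonoid.End M) ℓ :=
    (CharP.charP_iff_prime_eq_zero hℓ.out).mpr (AddMonoidHom.ext fun x => hℓM x)
  have h1 : (f - 1) ^ ℓ ^ n = f ^ ℓ ^ n - 1 := by
    rw [sub_pow_char_pow_of_commute (p := ℓ) (h := Commute.one_right f), one_pow]
  have h2 : ((f - 1) ^ ℓ ^ n) m = 0 :=
    end_pow_apply_eq_zero _ (Nat.lt_pow_self hℓ.out.one_lt).le (hf m)
  rw [h1] at h2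
  exact sub_eq_zero.mp h2

/-- A non-zero module contains a stable subgroup of order `ℓ` on which the group acts either
trivially or through `χ`. -/
theorem exists_piece (χ : Γ →* (ZMod ℓ)ˣ) {M : Type} [AddCommGroup M] [Finite M] [Nontrivial M]
    (ρ : Γ →* AddMonoid.End M) (h : Eig χ ρ) :
    ∃ X : AddSubgroup M, IsStable ρ X ∧ Nat.card X = ℓ ∧
      ((∀ g, ∀ x ∈ X, ρ g x = x) ∨ (∀ g, ∀ x ∈ X, ρ g x = (χ g : ZMod ℓ).val • x)) := by
  obtain ⟨r, a, hra⟩ := h
  -- a minimal non-zero stable subgroup killed by ℓ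
  let S : Set (AddSubgroup M) := {X | X ≠ ⊥ ∧ IsStable ρ X ∧ ∀ x ∈ X, ℓ • x = 0}
  have hS : S.Nonempty := by
    refine ⟨AddMonoidHom.ker (nsmulAddMonoidHom ℓ : M →+ M), ?_, fun g x hx => ?_,
      fun x hx => hx⟩
    · obtain ⟨m, hm⟩ := exists_ne (0 : M)
      have h0 : ((ℓ : AddMonoid.End M) ^ r) m = 0 := by
        rw [← Nat.cast_pow, natCast_end_apply]; exact (hra m).1
      obtain ⟨x, hx, hx0⟩ := exists_ne_zero_map_eq_zero _ hm h0
      exact fun hb => hx ((AddSubgroup.eq_bot_iff_forall _).mp hb x hx0)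
    · show ℓ • ρ g x = 0
      rw [← map_nsmul, show ℓ • x = 0 from hx, map_zero]
  haveI : Finite (AddSubgroup M) :=
    Finite.of_injective (fun K : AddSubgroup M => (K : Set M)) SetLike.coe_injective
  obtain ⟨X, hXmin⟩ := (Set.toFinite S).exists_minimal hS
  obtain ⟨hXne, hXst, hXℓ⟩ := hXmin.prop
  have hmin : ∀ Y : AddSubgroup M, Y ≤ X → IsStable ρ Y → Y ≠ ⊥ → X ≤ Y := fun Y hYX hYst hY =>
    hXmin.le_of_le (show Y ∈ S from ⟨hY, hYst, fun y hy => hXℓ y (hYX hy)⟩) hYX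
  obtain ⟨x₀, hx₀, hx₀0⟩ := (AddSubgroup.bot_or_exists_ne_zero X).resolve_left hXne
  have hker : ∀ g, (χ g : ZMod ℓ) = 1 → ∀ x ∈ X, ((ρ g - 1) ^ (a + a)) x = 0 := by
    intro g hg x _
    have := (hra x).2 g
    rw [hg, ZMod.val_one, Nat.cast_one] at this
    rw [pow_add]; exact this
  -- the kernel of χ fixes X
  have hfix : ∀ g, χ g = 1 → ∀ x ∈ X, ρ g x = x := by
    letI : MulAction χ.ker X :=
      { smul := fun g x => ⟨ρ g.1 x.1, hXst g.1 x.1 x.2⟩
        one_smul := fun x => Subtype.ext (rho_one ρ x.1)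
        mul_smul := fun g h x => Subtype.ext (rho_mul ρ g.1 h.1 x.1) }
    let Q := (MulAction.toPermHom χ.ker X).range
    have hpQ : IsPGroup ℓ Q := by
      rintro ⟨_, g, rfl⟩
      refine ⟨a + a, Subtype.ext ?_⟩
      rw [SubgroupClass.coe_pow]
      show (MulAction.toPermHom χ.ker X g) ^ ℓ ^ (a + a) = 1
      rw [← map_pow]
      refine Equiv.ext fun x => ?_
      show g ^ ℓ ^ (a + a) • x = x
      have hg1 : (χ g.1 : ZMod ℓ) = 1 := by rw [show χ g.1 = 1 from g.2]; rfl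
      let f : AddMonoid.End X := subRep ρ X hXst g.1
      have hf : ∀ y : X, ((f - 1) ^ (a + a)) y = 0 := fun y => Subtype.ext (by
        rw [← AddSubgroup.coe_subtype, map_pow_apply X.subtype (f - 1) (ρ g.1 - 1) (fun _ => rfl)]
        exact (hker g.1 hg1 y.1 y.2).trans rfl)
      have h := rho_pow_eq_self (fun y : X => Subtype.ext (hXℓ y.1 y.2)) f hf x
      rw [show f ^ ℓ ^ (a + a) = subRep ρ X hXst (g.1 ^ ℓ ^ (a + a)) from (map_pow _ _ _).symm] at h
      exact h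
    let F : AddSubgroup M :=
      { carrier := {x | x ∈ X ∧ ∀ g, χ g = 1 → ρ g x = x}
        zero_mem' := ⟨X.zero_mem, fun g _ => map_zero _⟩
        add_mem' := fun {u v} hu hv =>
          ⟨X.add_mem hu.1 hv.1, fun g hg => by rw [map_add, hu.2 g hg, hv.2 g hg]⟩
        neg_mem' := fun {u} hu => ⟨X.neg_mem hu.1, fun g hg => by rw [map_neg, hu.2 g hg]⟩ }
    have hFst : IsStable ρ F := fun g x hx => ⟨hXst g x hx.1, fun k hk => by
      rw [← rho_mul, show k * g = g * (g⁻¹ * k * g) by group, rho_mul, hx.2 _ (by simp [hk])]⟩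
    have hFne : F ≠ ⊥ := by
      obtain ⟨b, hb, hb0⟩ := hpQ.exists_fixed_point_of_prime_dvd_card_of_fixed_point (α := X)
        (by
          have hX1 : Nat.card X ≠ 1 := ne_of_gt ((AddSubgroup.one_lt_card_iff_ne_bot X).mpr hXne)
          obtain ⟨q, hq, hqd⟩ := Nat.exists_prime_and_dvd hX1
          haveI : Fact q.Prime := ⟨hq⟩
          obtain ⟨y, hy⟩ := exists_prime_addOrderOf_dvd_card' q hqd
          have : addOrderOf y ∣ ℓ := addOrderOf_dvd_iff_nsmul_eq_zero.mpr (Subtype.ext (hXℓ y.1 y.2))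
          rw [hy] at this
          rwa [← (Nat.prime_dvd_prime_iff_eq hq hℓ.out).mp this])
        (a := (0 : X)) (by
          rintro ⟨_, g, rfl⟩
          exact Subtype.ext (map_zero (ρ g.1)))
      refine fun hbot => hb0 (Subtype.ext ?_)
      refine ((AddSubgroup.eq_bot_iff_forall _).mp hbot b.1 ⟨b.2, fun g hg => ?_⟩).symm
      exact congrArg Subtype.val (hb ⟨_, ⟨g, hg⟩, rfl⟩)
    exact fun g hg x hx => (hmin F (fun _ hy => hy.1) hFst hFne hx).2 g hg
  -- the operators commute on X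
  have hcomm : ∀ g k, ∀ x ∈ X, ρ g (ρ k x) = ρ k (ρ g x) := by
    intro g k x hx
    rw [← rho_mul, ← rho_mul, show g * k = k * g * ((k * g)⁻¹ * (g * k)) by group,
      rho_mul ρ (k * g), hfix _ (by rw [map_mul, map_inv, map_mul, map_mul, mul_comm (χ k)]; simp) x hx]
  -- each operator is a scalar 1 or χ
  have hone : ∀ g, (∀ x ∈ X, ρ g x = x) ∨ (∀ x ∈ X, ρ g x = (χ g : ZMod ℓ).val • x) := by
    intro g
    have hstab : ∀ n : ℕ, ∀ z ∈ X, (∀ x, ρ g x = n • x → x ∈ X → x = 0) ∨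
        (ρ g z = n • z) := by
      intro n z hz
      let K : AddSubgroup M :=
        { carrier := {x | x ∈ X ∧ ρ g x = n • x}
          zero_mem' := ⟨X.zero_mem, by simp⟩
          add_mem' := fun {u v} hu hv =>
            ⟨X.add_mem hu.1 hv.1, by rw [map_add, hu.2, hv.2, nsmul_add]⟩
          neg_mem' := fun {u} hu => ⟨X.neg_mem hu.1, by rw [map_neg, hu.2, neg_nsmul]⟩ }
      by_cases hK : K = ⊥
      · exact Or.inl fun x h1 h2 => (AddSubgroup.eq_bot_iff_forall _).mp hK x ⟨h2, h1⟩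
      · refine Or.inr (hmin K (fun _ hy => hy.1) (fun k x hx => ?_) hK hz).2
        exact ⟨hXst k x hx.1, by rw [hcomm g k x hx.1, hx.2, map_nsmul]⟩
    by_cases h1 : ∀ x ∈ X, ρ g x = x
    · exact Or.inl h1
    push Not at h1
    obtain ⟨z, hz, hzne⟩ := h1
    rcases hstab 1 z hz with hinj | h'
    swap
    · exact absurd (by simpa using h') hzne
    refine Or.inr fun x hx => ?_
    rcases hstab (χ g : ZMod ℓ).val x hx with hinj' | h'
    swap
    · exact h'
    exfalso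
    have hpow : ∀ (f : AddMonoid.End M), (∀ y ∈ X, f y ∈ X) → (∀ y ∈ X, f y = 0 → y = 0) →
        ∀ n, ∀ y ∈ X, (f ^ n) y = 0 → y = 0 := by
      intro f hfX hfi n
      induction n with
      | zero => intro y _ hy; exact hy
      | succ n ih =>
        intro y hy hy0
        rw [end_pow_succ_apply] at hy0
        exact hfi y hy (ih _ (hfX y hy) hy0)
    have hmemn : ∀ (n : ℕ), ∀ y ∈ X, ρ g y - n • y ∈ X := fun n y hy =>
      X.sub_mem (hXst g y hy) (X.nsmul_mem hy n)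
    refine hx₀0 (hpow (ρ g - ((χ g : ZMod ℓ).val : AddMonoid.End M)) (hmemn _)
      (fun y hy hy0 => hinj' y (sub_eq_zero.mp hy0) hy) a x₀ hx₀ ?_)
    refine hpow (ρ g - 1) (fun y hy => X.sub_mem (hXst g y hy) hy)
      (fun y hy hy0 => hinj y (by rw [one_nsmul]; exact sub_eq_zero.mp hy0) hy) a _ ?_ ((hra x₀).2 g)
    exact end_pow_mem _ (hmemn _) a _ hx₀
  have hdich : (∀ g, ∀ x ∈ X, ρ g x = x) ∨ (∀ g, ∀ x ∈ X, ρ g x = (χ g : ZMod ℓ).val • x) := by
    by_contra hno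
    push Not at hno
    obtain ⟨⟨g, xg, hxg, hg⟩, ⟨k, xk, hxk, hk⟩⟩ := hno
    have hg' := (hone g).resolve_left fun h => hg (h xg hxg)
    have hk' := (hone k).resolve_right fun h => hk (h xk hxk)
    rcases hone (g * k) with h | h
    · refine hg ?_
      have := h xg hxg
      rwa [rho_mul, hk' xg hxg] at this
    · refine hk ?_
      have hxk0 : xk ≠ 0 := fun h0 => hk (by rw [h0, map_zero, nsmul_zero])
      have := h xk hxk
      rw [rho_mul, hk' xk hxk, hg' _ hxk, map_mul] at this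
      have ho : addOrderOf xk = ℓ := addOrderOf_eq_prime (hXℓ xk hxk) hxk0
      rw [nsmul_eq_nsmul_iff_modEq, ho, ← ZMod.natCast_eq_natCast_iff, ZMod.natCast_zmod_val,
        ZMod.natCast_zmod_val, Units.val_mul] at this
      have hk1 : (χ k : ZMod ℓ) = 1 :=
        (mul_left_cancel₀ (χ g).ne_zero (this.symm.trans (mul_one _).symm))
      rw [hk' xk hxk, hk1, ZMod.val_one, one_nsmul]
  refine ⟨X, hXst, ?_, hdich⟩
  have hle : X ≤ AddSubgroup.zmultiples x₀ := by
    refine hmin _ (AddSubgroup.zmultiples_le.mpr hx₀) (fun g x hx => ?_) (by simpa using hx₀0)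
    have hxX := (AddSubgroup.zmultiples_le.mpr hx₀) hx
    rcases hdich with h | h
    · rw [h g x hxX]; exact hx
    · rw [h g x hxX]; exact AddSubgroup.nsmul_mem _ hx _
  rw [le_antisymm hle (AddSubgroup.zmultiples_le.mpr hx₀), Nat.card_zmultiples]
  exact addOrderOf_eq_prime (hXℓ x₀ hx₀) hx₀0

end Fermat.Agent.Mazur.Descent
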