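import Fermat.Agent.Mazur.Descent.Count
import Fermat.Agent.Mazur.Descent.Piece
import Fermat.Agent.Mazur.Descent.SelPiece
import Fermat.Prelude.Def_GaloisRep_ComplexConjugation

/-!
# The counting inequality for the Eisenstein descent
-/

set_option autoImplicit false

noncomputable section

namespace Fermat.Agent.Mazur.Descent

open Fermat.Agent.FlatTangent ExtCitation

/-- A Frobenius element at the chosen place over a prime. -/
def frobP (q : Nat.Primes) : Gal :=
  haveI : Fact (q : ℕ).Prime := ⟨q.2⟩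
  (exists_frobenius (p := (q : ℕ))).choose

theorem isFrobeniusAt_frobP (q : Nat.Primes) [Fact (q : ℕ).Prime] :
    (plc (q : ℕ)).IsFrobeniusAt (frobP q) (q : ℕ) :=
  (exists_frobenius (p := (q : ℕ))).choose_spec

/-- The Frobenius elements over a finite set of primes. -/
def frobS (S : Finset Nat.Primes) : {q : Nat.Primes // q ∈ S} → Gal := fun q => frobP q.1

theorem frobS_normalizes (S : Finset Nat.Primes) (i : {q : Nat.Primes // q ∈ S}) :
    ∀ σ ∈ inertS S i, (frobS S i)⁻¹ * σ * frobS S i ∈ inertS S i := by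
  intro σ hσ
  haveI : Fact (i.1 : ℕ).Prime := ⟨i.1.2⟩
  have hdec : (frobS S i)⁻¹ ∈ dec (i.1 : ℕ) :=
    inv_mem (isFrobeniusAt_frobP i.1).mem_decompositionSubgroup
  have := Galois.inertia_normal_in_decomposition (A := plc (i.1 : ℕ)) hσ hdec
  rwa [inv_inv] at this

variable (ℓ : ℕ) [hℓ : Fact ℓ.Prime]

theorem cycloChar_complexConjugation :
    (cycloChar ℓ complexConjugation : ZMod ℓ) = -1 := by
  haveI : NeZero ℓ := ⟨hℓ.out.ne_zero⟩
  obtain ⟨ζ, hζ⟩ := HasEnoughRootsOfUnity.exists_primitiveRoot Qb ℓ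
  have h1 : complexConjugation ζ = ζ⁻¹ := by
    refine complexEmbedding.injective (?_ : complexEmbedding (complexConjugation ζ) = complexEmbedding ζ⁻¹)
    rw [complexEmbedding_complexConjugation, map_inv₀, Complex.inv_eq_conj]
    exact Complex.norm_eq_one_of_pow_eq_one (by rw [← map_pow, hζ.pow_eq_one, map_one])
      hℓ.out.ne_zero
  rw [apply_eq_pow_cycloChar ℓ _ hζ.pow_eq_one] at h1
  have h2 : ζ ^ ((cycloChar ℓ complexConjugation : ZMod ℓ).val + 1) = 1 := by
    rw [pow_succ, h1, inv_mul_cancel₀ (hζ.ne_zero hℓ.out.ne_zero)]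
  have h3 := (hζ.pow_eq_one_iff_dvd _).mp h2
  rw [← ZMod.natCast_eq_zero_iff, Nat.cast_add, Nat.cast_one, ZMod.natCast_zmod_val] at h3
  exact eq_neg_of_add_eq_zero_left h3

variable {ℓ}

/-- The inequality for every module of the descent, with any `c₀` of cyclotomic character `-1`. -/
theorem descent_bound_of_conj (hℓ2 : ℓ ≠ 2) (S : Finset Nat.Primes) {c₀ : Gal}
    (hc₀ : (cycloChar ℓ c₀ : ZMod ℓ) = -1) {M : Type} [AddCommGroup M] [Finite M]
    (ρ : Gal →* AddMonoid.End M) (hdom : LocDom ℓ S ρ) (heig : Eig (cycloChar ℓ) ρ) :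
    Bound (cond ℓ S) (inertS S) (frobS S) c₀ ρ := by
  refine bound_of_adm (cond ℓ S) (inertS S) (frobS S) c₀ (frobS_normalizes S)
    (fun {M} _ ρ => LocDom ℓ S ρ ∧ Eig (cycloChar ℓ) ρ)
    (fun ρ h X hX => ⟨(cond ℓ S).dom_quot ρ h.1 X hX, eig_quotRep h.2 X hX⟩)
    (fun ρ h => h.1) ?_ ρ ⟨hdom, heig⟩
  intro M _ _ _ ρ h
  obtain ⟨X, hX, hcard, hdich⟩ := exists_piece (cycloChar ℓ) ρ h.2
  refine ⟨X, hX, ?_, ?_, ?_⟩
  · intro hb
    rw [hb, AddSubgroup.card_bot] at hcard
    exact hℓ.out.ne_one hcard.symm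
  · have hℓX : ∀ x : X, ℓ • x = 0 := fun x => by
      rw [← hcard]; exact card_nsmul_eq_zero'
    rcases hdich with htriv | hcyc
    · exact sel_le_B1_of_trivial hℓ2 hℓX fun g x => Subtype.ext (htriv g x.1 x.2)
    · exact sel_le_B1_of_cyclo hℓ2 hcard fun g x => Subtype.ext (by
        rw [subRep_apply, hcyc g x.1 x.2, AddSubgroup.coe_nsmul])
  · refine Nat.card_mono (Set.toFinite _) ?_
    rcases hdich with htriv | hcyc
    · exact fun x _ g _ => Subtype.ext (htriv g x.1 x.2)
    · intro x hx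
      suffices hx0 : x = 0 by rw [hx0]; exact zero_mem _
      have h1 : subRep ρ X hX c₀ x = x := hx
      have h2 : (cycloChar ℓ c₀ : ZMod ℓ).val • x = x := by
        refine Subtype.ext ?_
        have h1' := congrArg Subtype.val h1
        rw [subRep_apply, hcyc _ _ x.2] at h1'
        rw [AddSubgroup.coe_nsmul]; exact h1'
      have hord : addOrderOf x ∣ ℓ := by
        rw [← hcard]; exact addOrderOf_dvd_natCard x
      rcases (Nat.dvd_prime hℓ.out).mp hord with ho | ho
      · exact AddMonoid.addOrderOf_eq_one_iff.mp ho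
      · exfalso
        conv_rhs at h2 => rw [← one_nsmul x]
        rw [nsmul_eq_nsmul_iff_modEq, ho, ← ZMod.natCast_eq_natCast_iff, ZMod.natCast_zmod_val,
          hc₀, Nat.cast_one] at h2
        haveI : Fact (2 < ℓ) := ⟨lt_of_le_of_ne hℓ.out.two_le (Ne.symm hℓ2)⟩
        exact ZMod.neg_one_ne_one h2

/-- The inequality at complex conjugation. -/
theorem descent_bound (hℓ2 : ℓ ≠ 2) (S : Finset Nat.Primes) {M : Type} [AddCommGroup M] [Finite M]
    (ρ : Gal →* AddMonoid.End M) (hdom : LocDom ℓ S ρ) (heig : Eig (cycloChar ℓ) ρ) :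
    Bound (cond ℓ S) (inertS S) (frobS S) complexConjugation ρ :=
  descent_bound_of_conj hℓ2 S (cycloChar_complexConjugation ℓ) ρ hdom heig

end Fermat.Agent.Mazur.Descent
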