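import Mathlib.Algebra.Module.Torsion.Free
import Mathlib.Algebra.Module.Torsion.Basic
import Mathlib.GroupTheory.FiniteAbelian.Basic
import Mathlib.NumberTheory.Padics.PadicVal.Basic
import Mathlib.LinearAlgebra.FreeModule.PID
import Mathlib.LinearAlgebra.FreeModule.Finite.Basic
import Mathlib.LinearAlgebra.Matrix.ToLin
import Mathlib.GroupTheory.Finiteness
import Mathlib.RingTheory.Finiteness.Finsupp
import Mathlib.NumberTheory.Multiplicity

/-!
# From congruences to an operator killing a group modulo torsion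

If the operators `e r` are non-zero in a lattice `T` in a bounded way and `C • e r • x` is divisible by
`ℓ ^ r` for all `x`, some operator non-zero in `T` kills the group modulo torsion.
-/

set_option autoImplicit false

namespace Fermat.Agent.Mazur.Descent

theorem exists_smul_torsion_of_approx {R T M : Type*} [Ring R] [AddCommGroup T] [Module.Free ℤ T]
    [AddCommGroup M] [Module R M] [Module.Finite ℤ M] (ψ : R →+ T) {ℓ : ℕ} (hℓ : ℓ.Prime)
    (e : ℕ → R) {C : ℕ} (hC : 0 < C)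
    (hdiv : ∀ r, ∀ x : M, ∃ z : M, C • (e r • x) = ℓ ^ r • z)
    (hne : ∃ b, ∀ r, b ≤ r → ¬ ∃ s : T, ψ (e r) = ℓ ^ b • s) :
    ∃ t, ψ t ≠ 0 ∧ ∀ x : M, ∃ m : ℕ, 0 < m ∧ m • (t • x) = 0 := by
  classical
  let q := Submodule.torsion ℤ M
  haveI : Module.Free ℤ (M ⧸ q) := Module.free_of_finite_type_torsion_free'
  -- the action on the group modulo torsion
  have hq : ∀ t : R, ∀ x ∈ q, t • x ∈ q := by
    intro t x hx
    obtain ⟨⟨a, ha⟩, hax⟩ := (Submodule.mem_torsion_iff (R := ℤ) x).mp hx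
    refine (Submodule.mem_torsion_iff (R := ℤ) _).mpr ⟨⟨a, ha⟩, ?_⟩
    show a • t • x = 0
    exact ((map_zsmul (DistribSMul.toAddMonoidHom M t) a x).symm.trans (congrArg (t • ·) hax)).trans (smul_zero t)
  let act : R → M →ₗ[ℤ] M := fun t => (DistribSMul.toAddMonoidHom M t).toIntLinearMap
  let Φ : R →+ Module.End ℤ (M ⧸ q) :=
    AddMonoidHom.mk' (fun t => q.mapQ q (act t) fun x hx => hq t x hx) fun a b =>
      Submodule.linearMap_qext _ (LinearMap.ext fun x => by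
        show Submodule.Quotient.mk (p := q) ((a + b) • x) =
          Submodule.Quotient.mk (p := q) (a • x) + Submodule.Quotient.mk (p := q) (b • x)
        rw [add_smul, Submodule.Quotient.mk_add])
  by_cases hker : ∃ t, Φ t = 0 ∧ ψ t ≠ 0
  · obtain ⟨t, ht, hψ⟩ := hker
    refine ⟨t, hψ, fun x => ?_⟩
    have h0 : Submodule.Quotient.mk (p := q) (t • x) = 0 := LinearMap.congr_fun ht (q.mkQ x)
    obtain ⟨⟨a, ha⟩, hax⟩ :=
      (Submodule.mem_torsion_iff _).mp ((Submodule.Quotient.mk_eq_zero _).mp h0)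
    have ha0 : a ≠ 0 := nonZeroDivisors.ne_zero ha
    refine ⟨a.natAbs, Int.natAbs_pos.mpr ha0, ?_⟩
    rw [← natCast_zsmul]
    rcases Int.natAbs_eq a with h | h
    · rw [← h]; exact hax
    · rw [show ((a.natAbs : ℕ) : ℤ) = -a by omega, neg_smul, show a • t • x = 0 from hax, neg_zero]
  push Not at hker
  exfalso
  -- the saturation of the image
  let A : Submodule ℤ (Module.End ℤ (M ⧸ q)) := AddSubgroup.toIntSubmodule Φ.range
  have hAmem : ∀ g, g ∈ A ↔ ∃ s, Φ s = g := fun g => Iff.rfl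
  let tA := Submodule.torsion ℤ (Module.End ℤ (M ⧸ q) ⧸ A)
  haveI : Module.Finite ℤ tA := Module.Finite.iff_fg.mpr (IsNoetherian.noetherian _)
  haveI : Finite tA := Module.finite_of_fg_torsion tA (Submodule.torsion_isTorsion)
  set D := Nat.card tA with hD
  have hD0 : 0 < D := Nat.card_pos
  obtain ⟨b, hb⟩ := hne
  set v := padicValNat ℓ (D * C) with hv
  set r := b + v with hr
  -- divide the operator
  let B := Module.Free.chooseBasis ℤ (M ⧸ q)
  have hz : ∀ i, ∃ z : M ⧸ q, C • Φ (e r) (B i) = ℓ ^ r • z := fun i => by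
    obtain ⟨x, hx⟩ := q.mkQ_surjective (B i)
    obtain ⟨z, hz⟩ := hdiv r x
    refine ⟨q.mkQ z, ?_⟩
    rw [← hx, ← map_nsmul q.mkQ (ℓ ^ r) z, ← hz, map_nsmul]
    rfl
  choose z hz using hz
  let f : Module.End ℤ (M ⧸ q) := B.constr ℤ z
  have hf : C • Φ (e r) = ℓ ^ r • f := B.ext fun i => by
    rw [LinearMap.smul_apply, LinearMap.smul_apply, hz, Module.Basis.constr_basis]
  have hℓr : (ℓ ^ r : ℕ) ≠ 0 := pow_ne_zero _ hℓ.ne_zero
  have hfA : Submodule.Quotient.mk (p := A) f ∈ tA := by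
    refine (Submodule.mem_torsion_iff _).mpr ⟨⟨((ℓ ^ r : ℕ) : ℤ),
      mem_nonZeroDivisors_of_ne_zero (Int.natCast_ne_zero.mpr hℓr)⟩, ?_⟩
    show ((ℓ ^ r : ℕ) : ℤ) • Submodule.Quotient.mk (p := A) f = 0
    rw [natCast_zsmul, ← Submodule.Quotient.mk_smul, Submodule.Quotient.mk_eq_zero, ← hf]
    exact A.nsmul_mem ((hAmem _).mpr ⟨_, rfl⟩) C
  have hDf : D • f ∈ A := by
    have h1 : D • (⟨_, hfA⟩ : tA) = 0 := card_nsmul_eq_zero'
    have h2 := congrArg Subtype.val h1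
    rw [Submodule.coe_smul_of_tower, Submodule.coe_zero, ← Submodule.Quotient.mk_smul,
      Submodule.Quotient.mk_eq_zero] at h2
    exact h2
  obtain ⟨s, hs⟩ := (hAmem _).mp hDf
  have hΦ : Φ ((D * C) • e r - ℓ ^ r • s) = 0 := by
    rw [map_sub, map_nsmul, map_nsmul, hs, mul_nsmul', hf, smul_comm, sub_self]
  have hψ := hker _ hΦ
  rw [map_sub, map_nsmul, map_nsmul, sub_eq_zero] at hψ
  -- read in a basis of the lattice
  have hDC : D * C ≠ 0 := Nat.mul_ne_zero hD0.ne' hC.ne'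
  let bT := Module.Free.chooseBasis ℤ T
  haveI := Fact.mk hℓ
  obtain ⟨u, hu⟩ := pow_padicValNat_dvd (p := ℓ) (n := D * C)
  have hcop : IsCoprime ((ℓ : ℤ) ^ b) (u : ℤ) := by
    refine IsCoprime.pow_left ?_
    rw [Int.isCoprime_iff_nat_coprime, Int.natAbs_natCast, Int.natAbs_natCast,
      hℓ.coprime_iff_not_dvd]
    intro hd
    refine pow_succ_padicValNat_not_dvd (p := ℓ) hDC ?_
    rw [pow_succ]
    conv_rhs => rw [hu]
    exact Nat.mul_dvd_mul_left _ hd
  have hdvd : ∀ i, (ℓ : ℤ) ^ b ∣ bT.repr (ψ (e r)) i := by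
    intro i
    refine hcop.dvd_of_dvd_mul_left ⟨bT.repr (ψ s) i, ?_⟩
    have h := congrArg (fun w => bT.repr w i) hψ
    simp only [map_nsmul, Finsupp.smul_apply, nsmul_eq_mul] at h
    rw [hu, ← hv] at h
    push_cast [hr, pow_add] at h
    have hℓv : ((ℓ : ℤ) ^ v) ≠ 0 := pow_ne_zero _ (Int.natCast_ne_zero.mpr hℓ.ne_zero)
    refine mul_left_cancel₀ hℓv ?_
    calc (ℓ : ℤ) ^ v * ((u : ℤ) * bT.repr (ψ (e r)) i)
        = (ℓ : ℤ) ^ v * (u : ℤ) * bT.repr (ψ (e r)) i := by ring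
      _ = (ℓ : ℤ) ^ b * (ℓ : ℤ) ^ v * bT.repr (ψ s) i := by
          simpa [hr] using h
      _ = (ℓ : ℤ) ^ v * ((ℓ : ℤ) ^ b * bT.repr (ψ s) i) := by ring
  choose c hc using hdvd
  refine hb r (Nat.le_add_right b v) ⟨bT.repr.symm (Finsupp.onFinset (bT.repr (ψ (e r))).support c
    fun i hi => ?_), ?_⟩
  · rw [Finsupp.mem_support_iff, hc]
    exact mul_ne_zero (pow_ne_zero _ (Int.natCast_ne_zero.mpr hℓ.ne_zero)) hi
  · refine bT.repr.injective (Finsupp.ext fun i => ?_)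
    rw [map_nsmul, LinearEquiv.apply_symm_apply, Finsupp.smul_apply, Finsupp.onFinset_apply,
      nsmul_eq_mul, hc, Nat.cast_pow]

end Fermat.Agent.Mazur.Descent
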