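import Mathlib.GroupTheory.Index
import Mathlib.Algebra.Group.Subgroup.Finite
import Mathlib.GroupTheory.QuotientGroup.Basic
import Mathlib.Data.Fintype.Pigeonhole
import Mathlib.Tactic.Abel
import Mathlib.Tactic.Linarith
import Mathlib.Tactic.Ring

/-!
# Descent: finite modules, cocycles, the nilpotent part of an endomorphism

Auxiliary definitions for the counting inequality of the Eisenstein descent.
-/

set_option autoImplicit false

namespace Fermat.Agent.Mazur.Descent

section End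

variable {M Y : Type*} [AddCommGroup M] [AddCommGroup Y]

theorem exists_idem_pow {G : Type*} [Monoid G] [Finite G] (a : G) :
    ∃ N, 0 < N ∧ a ^ N * a ^ N = a ^ N := by
  obtain ⟨i, j, hne, he⟩ := Finite.exists_ne_map_eq_of_infinite fun n : ℕ => a ^ n
  wlog hlt : i < j generalizing i j
  · exact this j i hne.symm he.symm (by omega)
  obtain ⟨d, rfl⟩ := Nat.exists_eq_add_of_lt hlt
  have hper : ∀ k n, i ≤ n → a ^ (n + k * (d + 1)) = a ^ n := by
    intro k
    induction k with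
    | zero => intro n _; rw [Nat.zero_mul, Nat.add_zero]
    | succ k ih =>
      intro n hn
      obtain ⟨e, rfl⟩ := Nat.exists_eq_add_of_le hn
      have h1 : a ^ (i + e + (d + 1)) = a ^ (i + e) := by
        rw [show i + e + (d + 1) = (i + d + 1) + e by ring, pow_add _ (i + d + 1) e,
          show a ^ (i + d + 1) = a ^ i from he.symm, ← pow_add]
      rw [show i + e + (k + 1) * (d + 1) = (i + e + (d + 1)) + k * (d + 1) by ring,
        ih _ (by omega), h1]
  refine ⟨(i + 1) * (d + 1), by positivity, ?_⟩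
  rw [← pow_add]
  exact hper (i + 1) _ (le_trans (by omega) (Nat.le_mul_of_pos_right (i + 1) (by omega)))

theorem finite_end [Finite M] : Finite (AddMonoid.End M) :=
  Finite.of_injective (fun f : AddMonoid.End M => (f : M → M)) DFunLike.coe_injective

theorem end_pow_succ_apply (f : AddMonoid.End M) (n : ℕ) (m : M) :
    (f ^ (n + 1)) m = (f ^ n) (f m) := by
  rw [pow_succ]; rfl

theorem end_pow_apply_eq_zero (f : AddMonoid.End M) {n k : ℕ} (h : n ≤ k) {m : M}
    (hm : (f ^ n) m = 0) : (f ^ k) m = 0 := by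
  obtain ⟨e, rfl⟩ := Nat.exists_eq_add_of_le h
  rw [add_comm, pow_add]
  show (f ^ e) ((f ^ n) m) = 0
  rw [hm, map_zero]

/-- The elements killed by a power of `f`. -/
def nilPart (f : AddMonoid.End M) : AddSubgroup M where
  carrier := {m | ∃ n, (f ^ n) m = 0}
  zero_mem' := ⟨0, map_zero _⟩
  add_mem' := by
    rintro a b ⟨n, hn⟩ ⟨k, hk⟩
    exact ⟨max n k, by rw [map_add, end_pow_apply_eq_zero f (le_max_left _ _) hn,
      end_pow_apply_eq_zero f (le_max_right _ _) hk, add_zero]⟩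
  neg_mem' := by
    rintro a ⟨n, hn⟩
    exact ⟨n, by rw [map_neg, hn, neg_zero]⟩

theorem mem_nilPart (f : AddMonoid.End M) {m : M} : m ∈ nilPart f ↔ ∃ n, (f ^ n) m = 0 :=
  Iff.rfl

theorem map_pow_apply (π : M →+ Y) (f : AddMonoid.End M) (g : AddMonoid.End Y)
    (h : ∀ m, π (f m) = g (π m)) (n : ℕ) : ∀ m, π ((f ^ n) m) = (g ^ n) (π m) := by
  induction n with
  | zero => intro m; rfl
  | succ n ih => intro m; rw [end_pow_succ_apply, end_pow_succ_apply, ih, h]

theorem map_mem_nilPart (π : M →+ Y) (f : AddMonoid.End M) (g : AddMonoid.End Y)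
    (h : ∀ m, π (f m) = g (π m)) {m : M} (hm : m ∈ nilPart f) : π m ∈ nilPart g := by
  obtain ⟨n, hn⟩ := hm
  exact ⟨n, by rw [← map_pow_apply π f g h, hn, map_zero]⟩

/-- The nilpotent part surjects onto the nilpotent part of a quotient. -/
theorem exists_mem_nilPart [Finite M] (π : M →+ Y) (hπ : Function.Surjective π)
    (f : AddMonoid.End M) (g : AddMonoid.End Y) (h : ∀ m, π (f m) = g (π m))
    {y : Y} (hy : y ∈ nilPart g) : ∃ m ∈ nilPart f, π m = y := by
  have := finite_end (M := M)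
  obtain ⟨m, rfl⟩ := hπ y
  obtain ⟨k, hk⟩ := hy
  obtain ⟨N, hN, hNN⟩ := exists_idem_pow f
  have hidem : ∀ j, (f ^ N) ^ (j + 1) = f ^ N := by
    intro j
    induction j with
    | zero => rw [pow_one]
    | succ j ih => rw [pow_succ, ih, hNN]
  refine ⟨m - (f ^ N) m, ⟨N, ?_⟩, ?_⟩
  · rw [map_sub]
    show (f ^ N) m - (f ^ N * f ^ N) m = 0
    rw [hNN, sub_self]
  · rw [map_sub, ← hidem k, ← pow_mul, map_pow_apply π f g h,
      end_pow_apply_eq_zero g (le_trans (by omega) (Nat.le_mul_of_pos_left (k + 1) hN)) hk,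
      sub_zero]

/-- An element mapped by `f` into a stable subgroup differs from it by a nilpotent one. -/
theorem exists_sub_mem_nilPart [Finite M] (f : AddMonoid.End M) (V : AddSubgroup M)
    (hV : ∀ v ∈ V, f v ∈ V) {y : M} (hy : f y ∈ V) : ∃ v ∈ V, y - v ∈ nilPart f := by
  have := finite_end (M := M)
  obtain ⟨N, hN, hNN⟩ := exists_idem_pow f
  have hpow : ∀ n, ∀ v ∈ V, (f ^ n) v ∈ V := by
    intro n
    induction n with
    | zero => intro v hv; exact hv
    | succ n ih => intro v hv; rw [end_pow_succ_apply]; exact ih _ (hV v hv)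
  obtain ⟨N', rfl⟩ := Nat.exists_eq_add_of_le' hN
  refine ⟨(f ^ (N' + 1)) y, by rw [end_pow_succ_apply]; exact hpow _ _ hy, N' + 1, ?_⟩
  rw [map_sub]
  show (f ^ (N' + 1)) y - (f ^ (N' + 1) * f ^ (N' + 1)) y = 0
  rw [hNN, sub_self]

/-- Counting along a homomorphism restricted to a subgroup. -/
theorem card_inf_ker_mul_card_map (φ : M →+ Y) (S : AddSubgroup M) :
    Nat.card ↥(S ⊓ φ.ker) * Nat.card ↥(S.map φ) = Nat.card S := by
  rw [← AddSubgroup.relIndex_ker, ← AddSubgroup.inf_relIndex_left S φ.ker,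
    AddSubgroup.relIndex,
    ← Nat.card_congr (AddSubgroup.addSubgroupOfEquivOfLe (inf_le_left : S ⊓ φ.ker ≤ S)).toEquiv]
  exact AddSubgroup.card_mul_index _

theorem card_sup_mul_card_inf [Finite M] (S T : AddSubgroup M) :
    Nat.card ↥(S ⊔ T) * Nat.card ↥(S ⊓ T) = Nat.card S * Nat.card T := by
  have key : ∀ U : AddSubgroup M,
      Nat.card ↥(U ⊓ T) * Nat.card ↥(U.map (QuotientAddGroup.mk' T)) = Nat.card U := fun U => by
    simpa using card_inf_ker_mul_card_map (QuotientAddGroup.mk' T) U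
  have h1 := key (S ⊔ T)
  rw [inf_eq_right.mpr le_sup_right, AddSubgroup.map_sup,
    (AddSubgroup.map_eq_bot_iff T).mpr (by simp), sup_bot_eq] at h1
  rw [← h1, ← key S]
  ring

end End

section Rep

variable {Γ : Type*} [Group Γ] {M : Type} [AddCommGroup M] (ρ : Γ →* AddMonoid.End M)

theorem rho_mul (g h : Γ) (m : M) : ρ (g * h) m = ρ g (ρ h m) := by
  rw [map_mul]; rfl

theorem rho_one (m : M) : ρ 1 m = m := by
  rw [map_one]; rfl

/-- The fixed points of a subgroup. -/
def fix (I : Subgroup Γ) : AddSubgroup M where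
  carrier := {m | ∀ σ ∈ I, ρ σ m = m}
  zero_mem' := fun σ _ => map_zero _
  add_mem' := fun {a b} ha hb σ hσ => by rw [map_add, ha σ hσ, hb σ hσ]
  neg_mem' := fun {a} ha σ hσ => by rw [map_neg, ha σ hσ]

theorem mem_fix {I : Subgroup Γ} {m : M} : m ∈ fix ρ I ↔ ∀ σ ∈ I, ρ σ m = m := Iff.rfl

/-- The fixed points of one element. -/
def fixOne (g : Γ) : AddSubgroup M where
  carrier := {m | ρ g m = m}
  zero_mem' := map_zero _
  add_mem' := fun {a b} ha hb => by
    show ρ g (a + b) = a + b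
    rw [map_add, show ρ g a = a from ha, show ρ g b = b from hb]
  neg_mem' := fun {a} ha => by
    show ρ g (-a) = -a
    rw [map_neg, show ρ g a = a from ha]

theorem mem_fixOne {g : Γ} {m : M} : m ∈ fixOne ρ g ↔ ρ g m = m := Iff.rfl

/-- Coboundary map `m ↦ (σ ↦ σ m - m)`. -/
def dB : M →+ (Γ → M) where
  toFun m σ := ρ σ m - m
  map_zero' := funext fun σ => by simp
  map_add' a b := funext fun σ => by simp only [map_add, Pi.add_apply]; abel

@[simp] theorem dB_apply (m : M) (σ : Γ) : dB ρ m σ = ρ σ m - m := rfl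

theorem ker_dB : (dB ρ).ker = fix ρ ⊤ := by
  ext m
  simp [AddMonoidHom.mem_ker, funext_iff, mem_fix, sub_eq_zero]

/-- One-cocycles. -/
def Z1 : AddSubgroup (Γ → M) where
  carrier := {c | ∀ g h, c (g * h) = c g + ρ g (c h)}
  zero_mem' := fun g h => by simp
  add_mem' := fun {a b} ha hb g h => by
    simp only [Pi.add_apply, ha g h, hb g h, map_add]; abel
  neg_mem' := fun {a} ha g h => by
    simp only [Pi.neg_apply, ha g h, map_neg]; abel

/-- One-coboundaries. -/
def B1 : AddSubgroup (Γ → M) := (dB ρ).range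

theorem dB_mem_Z1 (m : M) : dB ρ m ∈ Z1 ρ := by
  intro g h
  simp only [dB_apply, rho_mul, map_sub]; abel

/-- A subgroup stable under the action. -/
def IsStable (X : AddSubgroup M) : Prop := ∀ σ, ∀ x ∈ X, ρ σ x ∈ X

/-- The action on a stable subgroup. -/
def subRep (X : AddSubgroup M) (hX : IsStable ρ X) : Γ →* AddMonoid.End X where
  toFun σ :=
    { toFun := fun x => ⟨ρ σ x.1, hX σ x.1 x.2⟩
      map_zero' := Subtype.ext (by simp)
      map_add' := fun a b => Subtype.ext (by simp) }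
  map_one' := AddMonoidHom.ext fun x => Subtype.ext (rho_one ρ x.1)
  map_mul' g h := AddMonoidHom.ext fun x => Subtype.ext (rho_mul ρ g h x.1)

@[simp] theorem subRep_apply (X : AddSubgroup M) (hX : IsStable ρ X) (σ : Γ) (x : X) :
    ((subRep ρ X hX σ x : X) : M) = ρ σ x.1 := rfl

/-- The action on the quotient by a stable subgroup. -/
def quotRep (X : AddSubgroup M) (hX : IsStable ρ X) : Γ →* AddMonoid.End (M ⧸ X) where
  toFun σ := QuotientAddGroup.map X X (ρ σ) fun x hx => hX σ x hx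
  map_one' := AddMonoidHom.ext fun y => by
    induction y using QuotientAddGroup.induction_on with
    | _ m => exact congrArg (QuotientAddGroup.mk' X) (rho_one ρ m)
  map_mul' g h := AddMonoidHom.ext fun y => by
    induction y using QuotientAddGroup.induction_on with
    | _ m => exact congrArg (QuotientAddGroup.mk' X) (rho_mul ρ g h m)

@[simp] theorem quotRep_mk (X : AddSubgroup M) (hX : IsStable ρ X) (σ : Γ) (m : M) :
    quotRep ρ X hX σ (QuotientAddGroup.mk' X m) = QuotientAddGroup.mk' X (ρ σ m) := rfl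

/-- The nilpotent part of `F - 1`. -/
abbrev unitPart (F : Γ) : AddSubgroup M := nilPart (ρ F - 1)

end Rep

/-- Local conditions on cocycles, functorial and reflected by injections, for the modules of a
class `Dom`. -/
structure Cond (Γ : Type*) [Group Γ] where
  Dom : ∀ {M : Type} [AddCommGroup M], (Γ →* AddMonoid.End M) → Prop
  dom_sub : ∀ {M : Type} [AddCommGroup M] (ρ : Γ →* AddMonoid.End M), Dom ρ →
    ∀ (X : AddSubgroup M) (hX : IsStable ρ X), Dom (subRep ρ X hX)
  dom_quot : ∀ {M : Type} [AddCommGroup M] (ρ : Γ →* AddMonoid.End M), Dom ρ →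
    ∀ (X : AddSubgroup M) (hX : IsStable ρ X), Dom (quotRep ρ X hX)
  P : ∀ {M : Type} [AddCommGroup M], (Γ →* AddMonoid.End M) → AddSubgroup (Γ → M)
  le_Z1 : ∀ {M : Type} [AddCommGroup M] (ρ : Γ →* AddMonoid.End M), P ρ ≤ Z1 ρ
  B1_le : ∀ {M : Type} [AddCommGroup M] (ρ : Γ →* AddMonoid.End M), Dom ρ → B1 ρ ≤ P ρ
  map : ∀ {M Y : Type} [AddCommGroup M] [AddCommGroup Y] (ρ : Γ →* AddMonoid.End M)
    (ρ' : Γ →* AddMonoid.End Y) (f : M →+ Y), Dom ρ → Dom ρ' →
    (∀ σ m, f (ρ σ m) = ρ' σ (f m)) →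
    ∀ c ∈ P ρ, (fun σ => f (c σ)) ∈ P ρ'
  comap : ∀ {M Y : Type} [AddCommGroup M] [AddCommGroup Y] (ρ : Γ →* AddMonoid.End M)
    (ρ' : Γ →* AddMonoid.End Y) (f : M →+ Y), Dom ρ → Dom ρ' → Function.Injective f →
    (∀ σ m, f (ρ σ m) = ρ' σ (f m)) →
    ∀ d ∈ Z1 ρ, (fun σ => f (d σ)) ∈ P ρ' → d ∈ P ρ

variable {Γ : Type*} [Group Γ] {ι : Type*}

/-- Cocycles trivial on `J`. -/
def locTriv {M : Type} [AddCommGroup M] (ρ : Γ →* AddMonoid.End M) (J : Subgroup Γ) :
    AddSubgroup (Γ → M) where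
  carrier := {c | ∃ m, ∀ σ ∈ J, c σ = ρ σ m - m}
  zero_mem' := ⟨0, fun σ _ => by simp⟩
  add_mem' := by
    rintro a b ⟨m, hm⟩ ⟨n, hn⟩
    exact ⟨m + n, fun σ hσ => by
      simp only [Pi.add_apply, hm σ hσ, hn σ hσ, map_add]; abel⟩
  neg_mem' := by
    rintro a ⟨m, hm⟩
    exact ⟨-m, fun σ hσ => by simp only [Pi.neg_apply, hm σ hσ, map_neg]; abel⟩

/-- The Selmer group, as a group of cocycles. -/
def sel (C : Cond Γ) (I : ι → Subgroup Γ) {M : Type} [AddCommGroup M]
    (ρ : Γ →* AddMonoid.End M) : AddSubgroup (Γ → M) :=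
  C.P ρ ⊓ ⨅ i, locTriv ρ (I i)

theorem mem_sel {C : Cond Γ} {I : ι → Subgroup Γ} {M : Type} [AddCommGroup M]
    {ρ : Γ →* AddMonoid.End M} {c : Γ → M} :
    c ∈ sel C I ρ ↔ c ∈ C.P ρ ∧ ∀ i, ∃ m, ∀ σ ∈ I i, c σ = ρ σ m - m := by
  rw [sel, AddSubgroup.mem_inf, AddSubgroup.mem_iInf]; rfl

theorem B1_le_sel (C : Cond Γ) (I : ι → Subgroup Γ) {M : Type} [AddCommGroup M]
    (ρ : Γ →* AddMonoid.End M) (hρ : C.Dom ρ) : B1 ρ ≤ sel C I ρ := by
  rintro _ ⟨m, rfl⟩
  exact mem_sel.mpr ⟨C.B1_le ρ hρ ⟨m, rfl⟩, fun i => ⟨m, fun σ _ => rfl⟩⟩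

end Fermat.Agent.Mazur.Descent
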