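import Fermat.Agent.FlatTangent.Unram
import Fermat.Agent.Galois.Cyclotomic
import Mathlib.FieldTheory.KrullTopology
import Mathlib.FieldTheory.Galois.Profinite

/-!
# The inertia elements fixing the roots of units

`unitKer ℓ` is the group of inertia elements at the chosen place over `ℓ` fixing every `ℓ`-power
root of an inertia invariant unit; for odd `ℓ` it moves the `ℓ`-th roots of `ℓ`.
-/

set_option autoImplicit false

noncomputable section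

namespace Fermat.Agent.Mazur.Descent

open Fermat.Agent.FlatTangent

variable (ℓ : ℕ) [Fact ℓ.Prime]

/-- An `ℓ`-power root of an inertia invariant unit. -/
def IsUnitRoot (z : Qb) : Prop := ∃ n : ℕ, InU ℓ (z ^ ℓ ^ n) ∧ VEQ ℓ 0 z

/-- Inertia elements fixing all roots of units. -/
def unitKer : Subgroup Gal where
  carrier := {σ | σ ∈ inert ℓ ∧ ∀ z, IsUnitRoot ℓ z → σ z = z}
  one_mem' := ⟨one_mem _, fun z _ => rfl⟩
  mul_mem' := fun {a b} ha hb => ⟨mul_mem ha.1 hb.1, fun z hz => by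
    rw [AlgEquiv.mul_apply, hb.2 z hz, ha.2 z hz]⟩
  inv_mem' := fun {a} ha => ⟨inv_mem ha.1, fun z hz => by
    conv_lhs => rw [← ha.2 z hz]
    exact Galois.galQ_inv_apply a z⟩

variable {ℓ}

theorem mem_unitKer {σ : Gal} :
    σ ∈ unitKer ℓ ↔ σ ∈ inert ℓ ∧ ∀ z, IsUnitRoot ℓ z → σ z = z := Iff.rfl

theorem isUnitRoot_of_pow_eq_one {z : Qb} {n : ℕ} (h : z ^ ℓ ^ n = 1) : IsUnitRoot ℓ z :=
  ⟨n, by rw [h]; exact inU_one, veq_zero_of_pow_eq_one (pow_ne_zero n (Fact.out : ℓ.Prime).ne_zero) h⟩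

theorem isOpen_stabilizer_apply (z : Qb) :
    IsOpen ((MulAction.stabilizer Gal z : Subgroup Gal) : Set Gal) := by
  haveI : FiniteDimensional ℚ (IntermediateField.adjoin ℚ {z}) :=
    IntermediateField.adjoin.finiteDimensional (Algebra.IsAlgebraic.isAlgebraic z).isIntegral
  refine Subgroup.isOpen_mono (fun σ hσ => ?_)
    (IntermediateField.adjoin ℚ {z}).fixingSubgroup_isOpen
  exact ((IntermediateField.mem_fixingSubgroup_iff _ _).mp hσ) z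
    (IntermediateField.subset_adjoin ℚ _ rfl)

theorem apply_eq_zpow_mul {N : ℕ} [NeZero N] {ζ : Qb} (hζ : IsPrimitiveRoot ζ N) {σ : Gal}
    {y : Qb} (hy0 : y ≠ 0) (hy : σ (y ^ N) = y ^ N) : ∃ i : ℤ, σ y = ζ ^ i * y := by
  have h1 : (σ y / y) ^ N = 1 := by
    rw [div_pow, ← map_pow, hy, div_self (pow_ne_zero _ hy0)]
  obtain ⟨i, -, hi⟩ := hζ.eq_pow_of_pow_eq_one h1
  exact ⟨i, by rw [zpow_natCast, hi, div_mul_cancel₀ _ hy0]⟩

/-- Kummer duality for one root. -/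
theorem exists_mul_zpow_fixed {N : ℕ} [NeZero N] {ζ : Qb} (hζ : IsPrimitiveRoot ζ N)
    (J : Subgroup Gal) (hJ : ∀ σ ∈ J, σ ζ = ζ) {z y : Qb} (hz0 : z ≠ 0) (hy0 : y ≠ 0)
    (hz : ∀ σ ∈ J, σ (z ^ N) = z ^ N) (hy : ∀ σ ∈ J, σ (y ^ N) = y ^ N)
    (h : ∀ σ ∈ J, σ z = z → σ y = y) :
    ∃ e : ℤ, ∀ σ ∈ J, σ (y * z ^ e) = y * z ^ e := by
  have hζ0 : ζ ≠ 0 := hζ.ne_zero (NeZero.ne N)
  have hfixpow : ∀ σ ∈ J, ∀ i : ℤ, σ (ζ ^ i) = ζ ^ i := fun σ hσ i => by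
    rw [map_zpow₀, hJ σ hσ]
  let H : AddSubgroup (ℤ × ℤ) :=
    { carrier := {ab | ∃ σ ∈ J, σ z = ζ ^ ab.1 * z ∧ σ y = ζ ^ ab.2 * y}
      zero_mem' := ⟨1, one_mem _, by simp, by simp⟩
      add_mem' := by
        rintro ⟨a, b⟩ ⟨a', b'⟩ ⟨σ, hσ, h1, h2⟩ ⟨τ, hτ, h3, h4⟩
        refine ⟨σ * τ, mul_mem hσ hτ, ?_, ?_⟩
        · rw [AlgEquiv.mul_apply, h3, map_mul, hfixpow σ hσ, h1, Prod.fst_add, zpow_add₀ hζ0]
          ring
        · rw [AlgEquiv.mul_apply, h4, map_mul, hfixpow σ hσ, h2, Prod.snd_add, zpow_add₀ hζ0]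
          ring
      neg_mem' := by
        rintro ⟨a, b⟩ ⟨σ, hσ, h1, h2⟩
        refine ⟨σ⁻¹, inv_mem hσ, ?_, ?_⟩ <;> apply σ.injective <;>
          rw [Galois.galQ_apply_inv, map_mul, hfixpow σ hσ]
        · rw [h1, Prod.fst_neg, zpow_neg, inv_mul_cancel_left₀ (zpow_ne_zero _ hζ0)]
        · rw [h2, Prod.snd_neg, zpow_neg, inv_mul_cancel_left₀ (zpow_ne_zero _ hζ0)] }
  have hN0 : ((N : ℤ), (0 : ℤ)) ∈ H :=
    ⟨1, one_mem _, by simp [hζ.pow_eq_one], by simp⟩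
  have hker : ∀ b : ℤ, ((0 : ℤ), b) ∈ H → (N : ℤ) ∣ b := by
    rintro b ⟨σ, hσ, h1, h2⟩
    have hzz : σ z = z := by simpa using h1
    rw [h σ hσ hzz] at h2
    exact (hζ.zpow_eq_one_iff_dvd b).mp (mul_eq_right₀ hy0 |>.mp h2.symm)
  obtain ⟨d, hd⟩ := Int.subgroup_cyclic (H.map (AddMonoidHom.fst ℤ ℤ))
  rw [← AddSubgroup.zmultiples_eq_closure] at hd
  obtain ⟨c, hc⟩ : d ∣ (N : ℤ) :=
    Int.mem_zmultiples_iff.mp (hd ▸ ⟨_, hN0, rfl⟩)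
  obtain ⟨⟨d', b₀⟩, hb₀, hd'⟩ : d ∈ H.map (AddMonoidHom.fst ℤ ℤ) :=
    hd ▸ AddSubgroup.mem_zmultiples d
  obtain rfl : d' = d := hd'
  have hd0 : d' ≠ 0 := fun h0 => NeZero.ne N (by exact_mod_cast (by rw [hc, h0, zero_mul] : (N : ℤ) = 0))
  have hc0 : c ≠ 0 := fun h0 => NeZero.ne N (by exact_mod_cast (by rw [hc, h0, mul_zero] : (N : ℤ) = 0))
  obtain ⟨e, he⟩ : d' ∣ b₀ := by
    have h1 := hker (c * b₀) (by
      have := H.sub_mem (H.zsmul_mem hb₀ c) hN0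
      rwa [show c • (d', b₀) - ((N : ℤ), (0 : ℤ)) = ((0 : ℤ), c * b₀) by
        simp [hc, mul_comm]] at this)
    rw [hc, mul_comm c b₀] at h1
    exact (mul_dvd_mul_iff_right hc0).mp h1
  refine ⟨-e, fun σ hσ => ?_⟩
  obtain ⟨a, ha⟩ := apply_eq_zpow_mul hζ hz0 (hz σ hσ)
  obtain ⟨b, hb⟩ := apply_eq_zpow_mul hζ hy0 (hy σ hσ)
  have hab : (a, b) ∈ H := ⟨σ, hσ, ha, hb⟩
  obtain ⟨k, hk⟩ : d' ∣ a := Int.mem_zmultiples_iff.mp (hd ▸ ⟨_, hab, rfl⟩)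
  obtain ⟨m, hm⟩ : (N : ℤ) ∣ b - e * a := by
    refine hker _ ?_
    have := H.sub_mem hab (H.zsmul_mem hb₀ k)
    rwa [show (a, b) - k • (d', b₀) = ((0 : ℤ), b - e * a) by
      simp only [Prod.smul_mk, Prod.mk_sub_mk, smul_eq_mul, hk, he]; congr 1 <;> ring] at this
  have hone : ζ ^ (b - e * a) = 1 := (hζ.zpow_eq_one_iff_dvd _).mpr ⟨m, hm⟩
  rw [map_mul, map_zpow₀, ha, hb, mul_zpow, ← zpow_mul, show a * -e = -(e * a) by ring]
  rw [show ζ ^ b * y * (ζ ^ (-(e * a)) * z ^ (-e)) = ζ ^ b * ζ ^ (-(e * a)) * (y * z ^ (-e)) by ring,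
    ← zpow_add₀ hζ0, ← sub_eq_add_neg, hone, one_mul]

/-- Kummer duality for finitely many roots. -/
theorem exists_mul_fixed {N : ℕ} [NeZero N] {ζ : Qb} (hζ : IsPrimitiveRoot ζ N) {y : Qb}
    (hy0 : y ≠ 0) (L : List Qb) :
    ∀ J : Subgroup Gal, J ≤ inert ℓ → (∀ σ ∈ J, σ ζ = ζ) →
      (∀ z ∈ L, InU ℓ (z ^ N) ∧ VEQ ℓ 0 z) → InU ℓ (y ^ N) →
      (∀ σ ∈ J, (∀ z ∈ L, σ z = z) → σ y = y) →
      ∃ w : Qb, InU ℓ (w ^ N) ∧ VEQ ℓ 0 w ∧ ∀ σ ∈ J, σ (y * w) = y * w := by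
  induction L with
  | nil =>
    intro J _ _ _ _ h
    exact ⟨1, by rw [one_pow]; exact inU_one, veq_one, fun σ hσ => by
      rw [mul_one, h σ hσ (by simp)]⟩
  | cons z L ih =>
    intro J hJ hJζ hL hy h
    obtain ⟨w, hwU, hwv, hw⟩ := ih (J ⊓ MulAction.stabilizer Gal z) (inf_le_left.trans hJ)
      (fun σ hσ => hJζ σ hσ.1) (fun z' hz' => hL z' (List.mem_cons_of_mem z hz')) hy
      (fun σ hσ hfix => h σ hσ.1 (by
        intro z' hz'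
        rcases List.mem_cons.mp hz' with rfl | hz'
        · exact hσ.2
        · exact hfix z' hz'))
    obtain ⟨hzU, hzv⟩ := hL z (List.mem_cons_self ..)
    obtain ⟨e, he⟩ := exists_mul_zpow_fixed hζ J hJζ hzv.ne_zero (mul_ne_zero hy0 hwv.ne_zero)
      (fun σ hσ => hzU σ (hJ hσ))
      (fun σ hσ => by rw [mul_pow]; exact (hy.mul hwU) σ (hJ hσ))
      (fun σ hσ hz => hw σ ⟨hσ, hz⟩)
    refine ⟨w * z ^ e, ?_, by simpa using hwv.mul (hzv.zpow e), fun σ hσ => ?_⟩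
    · rw [mul_pow, ← zpow_natCast (z ^ e) N, zpow_comm, zpow_natCast]
      exact hwU.mul (hzU.zpow e)
    · rw [← mul_assoc]; exact he σ hσ

/-- The unit kernel moves every `ℓ`-th root of `ℓ`. -/
theorem exists_mem_unitKer_apply_ne (hℓ2 : ℓ ≠ 2) {t : Qb} (ht : t ^ ℓ = (ℓ : Qb)) :
    ∃ σ ∈ unitKer ℓ, σ t ≠ t := by
  classical
  by_contra hno
  push Not at hno
  have hℓ : ℓ.Prime := Fact.out
  have hclosed : IsClosed ((inert ℓ : Subgroup Gal) : Set Gal) := Galois.isClosed_inertia _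
  let K : Set Gal := (inert ℓ : Set Gal) \ {σ | σ t = t}
  have hK : IsCompact K := by
    refine (IsClosed.isCompact ?_)
    exact hclosed.sdiff (isOpen_stabilizer_apply t)
  obtain ⟨s, hs⟩ := hK.elim_finite_subfamily_closed
    (fun z : {z : Qb // IsUnitRoot ℓ z} => ((MulAction.stabilizer Gal z.1 : Subgroup Gal) : Set Gal))
    (fun z => Subgroup.isClosed_of_isOpen _ (isOpen_stabilizer_apply z.1))
    (by
      rw [Set.eq_empty_iff_forall_notMem]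
      rintro σ ⟨⟨hσI, hσt⟩, hσz⟩
      exact hσt (hno σ ⟨hσI, fun z hz => Set.mem_iInter.mp hσz ⟨z, hz⟩⟩))
  choose nz hnz using fun z : {z : Qb // IsUnitRoot ℓ z} => z.2
  set n := s.sup nz + 1 with hn
  set N := ℓ ^ n with hN
  haveI : NeZero N := ⟨pow_ne_zero n hℓ.ne_zero⟩
  obtain ⟨ζ, hζ⟩ := HasEnoughRootsOfUnity.exists_primitiveRoot Qb N
  have hζ0 : ζ ≠ 0 := hζ.ne_zero (NeZero.ne N)
  have ht0 : t ≠ 0 := fun h0 => Nat.cast_ne_zero.mpr hℓ.ne_zero (by rw [← ht, h0, zero_pow hℓ.ne_zero])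
  have htN : InU ℓ (t ^ N) := by
    rw [hN, hn, pow_succ' ℓ, pow_mul, ht]; exact (inU_natCast ℓ).pow _
  set J : Subgroup Gal := inert ℓ ⊓ MulAction.stabilizer Gal ζ with hJ
  obtain ⟨w, hwU, hwv, hw⟩ := exists_mul_fixed (ℓ := ℓ) hζ ht0 (s.toList.map (·.1)) J inf_le_left
    (fun σ hσ => hσ.2)
    (fun z hz => by
      obtain ⟨z', hz', rfl⟩ := List.mem_map.mp hz
      obtain ⟨h1, h2⟩ := hnz z'
      refine ⟨?_, h2⟩
      have hle : nz z' ≤ n := (Finset.le_sup (Finset.mem_toList.mp hz')).trans (Nat.le_succ _)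
      obtain ⟨j, hj⟩ := Nat.exists_eq_add_of_le hle
      rw [hN, hj, pow_add, pow_mul]; exact h1.pow _)
    htN
    (fun σ hσ hfix => by
      by_contra hne
      have : σ ∈ K ∩ ⋂ i ∈ s, ((MulAction.stabilizer Gal i.1 : Subgroup Gal) : Set Gal) :=
        ⟨⟨hσ.1, hne⟩, Set.mem_iInter₂.mpr fun i hi =>
          hfix i.1 (List.mem_map.mpr ⟨i, Finset.mem_toList.mpr hi, rfl⟩)⟩
      rw [hs] at this
      exact this)
  -- an element of inertia acting on the roots of unity by squaring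
  have hcard : Nat.card (rootsOfUnity N Qb) = N := HasEnoughRootsOfUnity.natCard_rootsOfUnity Qb N
  have h2cop : Nat.Coprime 2 N := Nat.Coprime.pow_right n
    ((Nat.coprime_primes Nat.prime_two hℓ).mpr (Ne.symm hℓ2))
  obtain ⟨τ₀, hτ₀, hτ₀χ⟩ := Galois.exists_inertia_modularCyclotomicCharacter_eq
    (A := plc ℓ) (plc_liesOverPrime ℓ) hℓ n hcard (ZMod.unitOfCoprime 2 h2cop)
  have hτ₀ζ : τ₀ ζ = ζ ^ 2 := by
    have hspec := modularCyclotomicCharacter.spec Qb hcard (τ₀ : Qb ≃+* Qb)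
      (t := (hζ.isUnit (NeZero.ne N)).unit)
      (by rw [mem_rootsOfUnity']; exact hζ.pow_eq_one)
    rw [hτ₀χ, ZMod.coe_unitOfCoprime, ZMod.val_natCast] at hspec
    rw [show τ₀ ζ = (τ₀ : Qb ≃+* Qb) ((hζ.isUnit (NeZero.ne N)).unit : Qb) from rfl, hspec,
      IsUnit.unit_spec]
    conv_rhs => rw [← Nat.mod_add_div 2 N, pow_add, pow_mul, hζ.pow_eq_one, one_pow, mul_one]
  have hyU : InU ℓ ((t * w) ^ N) := by rw [mul_pow]; exact htN.mul hwU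
  have hy0 : t * w ≠ 0 := mul_ne_zero ht0 hwv.ne_zero
  obtain ⟨i, hi⟩ := apply_eq_zpow_mul hζ hy0 (hyU τ₀ hτ₀)
  set y := ζ ^ (-i) * (t * w) with hy
  have hy0' : y ≠ 0 := mul_ne_zero (zpow_ne_zero _ hζ0) hy0
  have hτ₀y : τ₀ y = y := by
    rw [hy, map_mul, map_zpow₀, hτ₀ζ, hi, ← mul_assoc, ← zpow_natCast ζ 2, ← zpow_mul,
      ← zpow_add₀ hζ0]
    congr 2
    push_cast; ring
  have hJy : ∀ σ ∈ J, σ y = y := fun σ hσ => by
    rw [hy, map_mul, map_zpow₀, show σ ζ = ζ from hσ.2, hw σ hσ]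
  have hyN : InU ℓ (y ^ N) := by
    rw [hy, mul_pow]
    refine InU.mul ?_ hyU
    rw [← zpow_natCast (ζ ^ (-i)) N, zpow_comm, zpow_natCast, hζ.pow_eq_one, one_zpow]
    exact inU_one
  have hyI : InU ℓ y := by
    intro τ hτ
    obtain ⟨j, hj⟩ := apply_eq_zpow_mul hζ hy0' (hyN τ hτ)
    obtain ⟨k, hk⟩ : ∃ k : ℕ, τ ζ = ζ ^ k := by
      obtain ⟨k, -, hk⟩ := hζ.eq_pow_of_pow_eq_one (ξ := τ ζ)
        (by rw [← map_pow, hζ.pow_eq_one, map_one])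
      exact ⟨k, hk.symm⟩
    have hcJ : (τ * τ₀)⁻¹ * (τ₀ * τ) ∈ J := by
      refine ⟨(inert ℓ).mul_mem ((inert ℓ).inv_mem ((inert ℓ).mul_mem hτ hτ₀))
        ((inert ℓ).mul_mem hτ₀ hτ), ?_⟩
      show ((τ * τ₀)⁻¹ * (τ₀ * τ)) ζ = ζ
      rw [AlgEquiv.mul_apply]
      conv_rhs => rw [← Galois.galQ_inv_apply (τ * τ₀) ζ]
      congr 1
      rw [AlgEquiv.mul_apply, AlgEquiv.mul_apply, hk, map_pow, hτ₀ζ, map_pow, hk, ← pow_mul,
        ← pow_mul, mul_comm]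
    have h1 : (τ₀ * τ) y = (τ * τ₀) y := by
      conv_rhs => rw [← hJy _ hcJ]
      rw [← AlgEquiv.mul_apply, mul_inv_cancel_left]
    rw [AlgEquiv.mul_apply, AlgEquiv.mul_apply, hτ₀y, hj, map_mul, map_zpow₀, hτ₀ζ, hτ₀y] at h1
    have h2 : (ζ ^ (2 : ℕ)) ^ j = ζ ^ j := mul_right_cancel₀ hy0' h1
    rw [← zpow_natCast ζ 2, ← zpow_mul, show ((2 : ℕ) : ℤ) * j = j + j by push_cast; ring,
      zpow_add₀ hζ0] at h2
    rw [hj, (mul_eq_right₀ (zpow_ne_zero _ hζ0)).mp h2, one_mul]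
  obtain ⟨m, hm⟩ := hyI.exists_int hy0'
  have htv : VEQ ℓ (ℓ : ℝ)⁻¹ t := by
    refine VEQ.of_pow hℓ.ne_zero ?_
    rw [mul_inv_cancel₀ (Nat.cast_ne_zero.mpr hℓ.ne_zero), ht]
    exact veq_cast_self
  have hζv : VEQ ℓ 0 ζ := veq_zero_of_pow_eq_one (NeZero.ne N) hζ.pow_eq_one
  have hyv : VEQ ℓ (ℓ : ℝ)⁻¹ y := by
    rw [hy]; simpa using (hζv.zpow (-i)).mul (htv.mul hwv)
  have h3 : (m : ℝ) * ℓ = 1 := by
    rw [hm.unique hyv, inv_mul_cancel₀ (Nat.cast_ne_zero.mpr hℓ.ne_zero)]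
  have h4 : m * (ℓ : ℤ) = 1 := by exact_mod_cast h3
  have h5 : (ℓ : ℤ) = 1 ∨ (ℓ : ℤ) = -1 := Int.isUnit_iff.mp (IsUnit.of_mul_eq_one_right m h4)
  have := hℓ.two_le
  omega

end Fermat.Agent.Mazur.Descent
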