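import Fermat.Agent.Mazur.Descent.Basic
import Fermat.Agent.Mazur.Descent.Unit

/-!
# The local conditions of the Eisenstein descent

`LocDom` is the class of modules: finite level, unramified outside `S ∪ {ℓ}`, `ℓ`-primary, inertia at
`ℓ` acts by the cyclotomic character on the image of `σ - 1`, and the unit kernel acts trivially.
`cond` imposes the same conditions on cocycles.
-/

set_option autoImplicit false

noncomputable section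

namespace Fermat.Agent.Mazur.Descent

open Fermat.Agent.FlatTangent

/-- Inertia at the chosen place over a prime. -/
def inertP (q : Nat.Primes) : Subgroup Gal :=
  haveI : Fact (q : ℕ).Prime := ⟨q.2⟩
  inert (q : ℕ)

theorem mem_inertP_iff (q : Nat.Primes) [Fact (q : ℕ).Prime] {σ : Gal} :
    σ ∈ inertP q ↔ σ ∈ inert (q : ℕ) := Iff.rfl

variable (ℓ : ℕ) [hℓ : Fact ℓ.Prime]

theorem exists_cycExp (R : ℕ) (τ : Gal) :
    ∃ k : ℕ, ∀ ζ : Qb, ζ ^ ℓ ^ R = 1 → τ ζ = ζ ^ k := by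
  haveI : NeZero (ℓ ^ R) := ⟨pow_ne_zero R hℓ.out.ne_zero⟩
  obtain ⟨z, hz⟩ := HasEnoughRootsOfUnity.exists_primitiveRoot Qb (ℓ ^ R)
  obtain ⟨k, -, hk⟩ := hz.eq_pow_of_pow_eq_one (ξ := τ z)
    (by rw [← map_pow, hz.pow_eq_one, map_one])
  refine ⟨k, fun ζ hζ => ?_⟩
  obtain ⟨i, -, rfl⟩ := hz.eq_pow_of_pow_eq_one hζ
  rw [map_pow, ← hk, ← pow_mul, ← pow_mul, mul_comm]

variable {ℓ}

theorem cycExp_smul_congr {M : Type} [AddCommGroup M] {R R' : ℕ} (hR : R ≤ R') {τ : Gal}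
    {k k' : ℕ} (hk : ∀ ζ : Qb, ζ ^ ℓ ^ R = 1 → τ ζ = ζ ^ k)
    (hk' : ∀ ζ : Qb, ζ ^ ℓ ^ R' = 1 → τ ζ = ζ ^ k') {x : M} (hx : ℓ ^ R • x = 0) :
    k' • x = k • x := by
  haveI : NeZero (ℓ ^ R) := ⟨pow_ne_zero R hℓ.out.ne_zero⟩
  obtain ⟨z, hz⟩ := HasEnoughRootsOfUnity.exists_primitiveRoot Qb (ℓ ^ R)
  have h1 : z ^ ℓ ^ R' = 1 := by
    obtain ⟨j, rfl⟩ := Nat.exists_eq_add_of_le hR
    rw [pow_add, pow_mul, hz.pow_eq_one, one_pow]
  have h2 : z ^ k' = z ^ k := by rw [← hk' z h1, hk z hz.pow_eq_one]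
  rw [← pow_mod_orderOf, ← hz.eq_orderOf, eq_comm, ← pow_mod_orderOf, ← hz.eq_orderOf,
    eq_comm] at h2
  have h3 := hz.pow_inj (Nat.mod_lt _ (Nat.pos_of_neZero _)) (Nat.mod_lt _ (Nat.pos_of_neZero _)) h2
  rw [nsmul_eq_nsmul_iff_modEq]
  exact (Nat.ModEq.of_dvd (addOrderOf_dvd_iff_nsmul_eq_zero.mpr hx) h3)

variable (ℓ)

/-- `x` is `ℓ`-primary and `τ` acts on it by the cyclotomic character. -/
def CycEig {M : Type} [AddCommGroup M] (ρ : Gal →* AddMonoid.End M) (τ : Gal) (x : M) : Prop :=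
  (∃ R, ℓ ^ R • x = 0) ∧
    ∀ R : ℕ, ℓ ^ R • x = 0 → ∀ k : ℕ, (∀ ζ : Qb, ζ ^ ℓ ^ R = 1 → τ ζ = ζ ^ k) → ρ τ x = k • x

variable {ℓ}

theorem nsmul_pow_eq_zero_of_le {M : Type} [AddCommGroup M] {R R' : ℕ} (hR : R ≤ R') {x : M}
    (hx : ℓ ^ R • x = 0) : ℓ ^ R' • x = 0 := by
  obtain ⟨j, rfl⟩ := Nat.exists_eq_add_of_le hR
  rw [pow_add, mul_nsmul, hx, nsmul_zero]

section

variable {M Y : Type} [AddCommGroup M] [AddCommGroup Y] {ρ : Gal →* AddMonoid.End M}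
  {ρ' : Gal →* AddMonoid.End Y} {τ : Gal}

theorem cycEig_zero : CycEig ℓ ρ τ (0 : M) :=
  ⟨⟨0, smul_zero _⟩, fun R _ k _ => by rw [map_zero, nsmul_zero]⟩

theorem CycEig.add {x y : M} (hx : CycEig ℓ ρ τ x) (hy : CycEig ℓ ρ τ y) :
    CycEig ℓ ρ τ (x + y) := by
  obtain ⟨⟨a, ha⟩, hx'⟩ := hx
  obtain ⟨⟨b, hb⟩, hy'⟩ := hy
  refine ⟨⟨max a b, by rw [nsmul_add, nsmul_pow_eq_zero_of_le (le_max_left a b) ha,
    nsmul_pow_eq_zero_of_le (le_max_right a b) hb, add_zero]⟩, fun R hR k hk => ?_⟩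
  obtain ⟨k', hk'⟩ := exists_cycExp ℓ (max R (max a b)) τ
  rw [map_add, hx' _ (nsmul_pow_eq_zero_of_le (by omega) ha) k' hk',
    hy' _ (nsmul_pow_eq_zero_of_le (by omega) hb) k' hk', ← nsmul_add]
  exact cycExp_smul_congr (le_max_left _ _) hk hk' hR

theorem CycEig.neg {x : M} (hx : CycEig ℓ ρ τ x) : CycEig ℓ ρ τ (-x) := by
  obtain ⟨⟨a, ha⟩, hx'⟩ := hx
  refine ⟨⟨a, by rw [neg_nsmul, ha, neg_zero]⟩, fun R hR k hk => ?_⟩
  rw [neg_nsmul, neg_eq_zero] at hR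
  rw [map_neg, hx' R hR k hk, neg_nsmul]

theorem CycEig.map (f : M →+ Y) (hf : ∀ m, f (ρ τ m) = ρ' τ (f m)) {x : M}
    (hx : CycEig ℓ ρ τ x) : CycEig ℓ ρ' τ (f x) := by
  obtain ⟨⟨a, ha⟩, hx'⟩ := hx
  refine ⟨⟨a, by rw [← map_nsmul, ha, map_zero]⟩, fun R hR k hk => ?_⟩
  obtain ⟨k', hk'⟩ := exists_cycExp ℓ (max R a) τ
  rw [← hf, hx' _ (nsmul_pow_eq_zero_of_le (le_max_right _ _) ha) k' hk', map_nsmul]
  exact cycExp_smul_congr (le_max_left _ _) hk hk' hR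

theorem CycEig.comap (f : M →+ Y) (hinj : Function.Injective f)
    (hf : ∀ m, f (ρ τ m) = ρ' τ (f m)) {x : M} (hx : CycEig ℓ ρ' τ (f x)) : CycEig ℓ ρ τ x := by
  obtain ⟨⟨a, ha⟩, hx'⟩ := hx
  refine ⟨⟨a, hinj (by rw [map_nsmul, ha, map_zero])⟩, fun R hR k hk => hinj ?_⟩
  rw [hf, hx' R (by rw [← map_nsmul, hR, map_zero]) k hk, map_nsmul]

end

variable (ℓ)

/-- The modules of the descent. -/
structure LocDom (S : Finset Nat.Primes) {M : Type} [AddCommGroup M]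
    (ρ : Gal →* AddMonoid.End M) : Prop where
  fin : ∃ E : IntermediateField ℚ Qb, FiniteDimensional ℚ E ∧ ∀ σ ∈ E.fixingSubgroup, ρ σ = 1
  unr : ∀ q : Nat.Primes, (q : ℕ) ≠ ℓ → q ∉ S → ∀ σ ∈ inertP q, ρ σ = 1
  prim : ∃ R, ∀ m : M, ℓ ^ R • m = 0
  eig : ∀ σ ∈ inert ℓ, ∀ τ ∈ inert ℓ, ∀ m : M, CycEig ℓ ρ τ (ρ σ m - m)
  ker : ∀ σ ∈ unitKer ℓ, ρ σ = 1

/-- Cocycles satisfying the local conditions. -/
def locP (S : Finset Nat.Primes) {M : Type} [AddCommGroup M] (ρ : Gal →* AddMonoid.End M) :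
    AddSubgroup (Gal → M) where
  carrier := {c | c ∈ Z1 ρ ∧
    (∃ E : IntermediateField ℚ Qb, FiniteDimensional ℚ E ∧ ∀ σ ∈ E.fixingSubgroup, c σ = 0) ∧
    (∀ q : Nat.Primes, (q : ℕ) ≠ ℓ → q ∉ S → ∀ σ ∈ inertP q, c σ = 0) ∧
    (∀ σ ∈ inert ℓ, ∀ τ ∈ inert ℓ, CycEig ℓ ρ τ (c σ)) ∧
    ∀ σ ∈ unitKer ℓ, c σ = 0}
  zero_mem' := ⟨zero_mem _, ⟨⊥, inferInstance, fun _ _ => rfl⟩, fun _ _ _ _ _ => rfl,
    fun _ _ _ _ => cycEig_zero, fun _ _ => rfl⟩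
  add_mem' := by
    rintro a b ⟨h1, ⟨E, hE, h2⟩, h3, h4, h5⟩ ⟨g1, ⟨E', hE', g2⟩, g3, g4, g5⟩
    refine ⟨add_mem h1 g1, ⟨E ⊔ E', inferInstance, fun σ hσ => ?_⟩, fun q hq hqS σ hσ => ?_,
      fun σ hσ τ hτ => (h4 σ hσ τ hτ).add (g4 σ hσ τ hτ), fun σ hσ => ?_⟩
    · rw [Pi.add_apply, h2 σ (IntermediateField.fixingSubgroup_antitone le_sup_left hσ),
        g2 σ (IntermediateField.fixingSubgroup_antitone le_sup_right hσ), add_zero]
    · rw [Pi.add_apply, h3 q hq hqS σ hσ, g3 q hq hqS σ hσ, add_zero]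
    · rw [Pi.add_apply, h5 σ hσ, g5 σ hσ, add_zero]
  neg_mem' := by
    rintro a ⟨h1, ⟨E, hE, h2⟩, h3, h4, h5⟩
    refine ⟨neg_mem h1, ⟨E, hE, fun σ hσ => ?_⟩, fun q hq hqS σ hσ => ?_,
      fun σ hσ τ hτ => (h4 σ hσ τ hτ).neg, fun σ hσ => ?_⟩
    · rw [Pi.neg_apply, h2 σ hσ, neg_zero]
    · rw [Pi.neg_apply, h3 q hq hqS σ hσ, neg_zero]
    · rw [Pi.neg_apply, h5 σ hσ, neg_zero]

theorem end_one_apply {M : Type} [AddCommGroup M] (x : M) : (1 : AddMonoid.End M) x = x := rfl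

/-- The local conditions as a functorial condition. -/
def cond (S : Finset Nat.Primes) : Cond Gal where
  Dom ρ := LocDom ℓ S ρ
  dom_sub ρ h X hX :=
    { fin := by
        obtain ⟨E, hE, h1⟩ := h.fin
        exact ⟨E, hE, fun σ hσ => AddMonoidHom.ext fun x => Subtype.ext (by
          show ρ σ x.1 = x.1
          rw [h1 σ hσ]; rfl)⟩
      unr := fun q hq hqS σ hσ => AddMonoidHom.ext fun x => Subtype.ext (by
        show ρ σ x.1 = x.1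
        rw [h.unr q hq hqS σ hσ]; rfl)
      prim := by
        obtain ⟨R, hR⟩ := h.prim
        exact ⟨R, fun x => Subtype.ext (hR x.1)⟩
      eig := fun σ hσ τ hτ x =>
        CycEig.comap (ρ' := ρ) X.subtype Subtype.val_injective (fun _ => rfl)
          (h.eig σ hσ τ hτ x.1)
      ker := fun σ hσ => AddMonoidHom.ext fun x => Subtype.ext (by
        show ρ σ x.1 = x.1
        rw [h.ker σ hσ]; rfl) }
  dom_quot ρ h X hX :=
    { fin := by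
        obtain ⟨E, hE, h1⟩ := h.fin
        refine ⟨E, hE, fun σ hσ => AddMonoidHom.ext fun y => ?_⟩
        obtain ⟨m, rfl⟩ := QuotientAddGroup.mk'_surjective X y
        show QuotientAddGroup.mk' X (ρ σ m) = _
        rw [h1 σ hσ]; rfl
      unr := fun q hq hqS σ hσ => by
        refine AddMonoidHom.ext fun y => ?_
        obtain ⟨m, rfl⟩ := QuotientAddGroup.mk'_surjective X y
        show QuotientAddGroup.mk' X (ρ σ m) = _
        rw [h.unr q hq hqS σ hσ]; rfl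
      prim := by
        obtain ⟨R, hR⟩ := h.prim
        refine ⟨R, fun y => ?_⟩
        obtain ⟨m, rfl⟩ := QuotientAddGroup.mk'_surjective X y
        rw [← map_nsmul, hR m, map_zero]
      eig := fun σ hσ τ hτ y => by
        obtain ⟨m, rfl⟩ := QuotientAddGroup.mk'_surjective X y
        exact (h.eig σ hσ τ hτ m).map (ρ' := quotRep ρ X hX) (QuotientAddGroup.mk' X) (fun _ => rfl)
      ker := fun σ hσ => by
        refine AddMonoidHom.ext fun y => ?_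
        obtain ⟨m, rfl⟩ := QuotientAddGroup.mk'_surjective X y
        show QuotientAddGroup.mk' X (ρ σ m) = _
        rw [h.ker σ hσ]; rfl }
  P ρ := locP ℓ S ρ
  le_Z1 ρ := fun c hc => hc.1
  B1_le ρ h := by
    rintro _ ⟨m, rfl⟩
    obtain ⟨E, hE, h1⟩ := h.fin
    refine ⟨dB_mem_Z1 ρ m, ⟨E, hE, fun σ hσ => ?_⟩, fun q hq hqS σ hσ => ?_,
      fun σ hσ τ hτ => h.eig σ hσ τ hτ m, fun σ hσ => ?_⟩
    · rw [dB_apply, h1 σ hσ, end_one_apply, sub_self]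
    · rw [dB_apply, h.unr q hq hqS σ hσ, end_one_apply, sub_self]
    · rw [dB_apply, h.ker σ hσ, end_one_apply, sub_self]
  map ρ ρ' f _ _ hf c hc := by
    obtain ⟨h1, ⟨E, hE, h2⟩, h3, h4, h5⟩ := hc
    refine ⟨fun g g' => ?_, ⟨E, hE, fun σ hσ => ?_⟩, fun q hq hqS σ hσ => ?_,
      fun σ hσ τ hτ => (h4 σ hσ τ hτ).map f (fun m => hf τ m), fun σ hσ => ?_⟩
    · show f (c (g * g')) = f (c g) + ρ' g (f (c g'))
      rw [h1 g g', map_add, hf]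
    · show f (c σ) = 0
      rw [h2 σ hσ, map_zero]
    · show f (c σ) = 0
      rw [h3 q hq hqS σ hσ, map_zero]
    · show f (c σ) = 0
      rw [h5 σ hσ, map_zero]
  comap ρ ρ' f _ _ hinj hf d hd hfd := by
    obtain ⟨-, ⟨E, hE, h2⟩, h3, h4, h5⟩ := hfd
    exact ⟨hd, ⟨E, hE, fun σ hσ => hinj ((h2 σ hσ).trans f.map_zero.symm)⟩,
      fun q hq hqS σ hσ => hinj ((h3 q hq hqS σ hσ).trans f.map_zero.symm),
      fun σ hσ τ hτ => (h4 σ hσ τ hτ).comap f hinj (fun m => hf τ m),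
      fun σ hσ => hinj ((h5 σ hσ).trans f.map_zero.symm)⟩

end Fermat.Agent.Mazur.Descent
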