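import Fermat.Agent.Mazur.Descent.Basic
import Mathlib.Algebra.BigOperators.Group.Finset.Basic
import Mathlib.Algebra.Order.BigOperators.Group.Finset
import Mathlib.SetTheory.Cardinal.Finite
import Mathlib.Algebra.Module.LinearMap.Defs
import Mathlib.Algebra.Module.Pi
import Mathlib.Tactic.Group

/-!
# The counting inequality of the Eisenstein descent

For a finite module `M` filtered by simple pieces `X` without Selmer classes,
`#Sel(M) * #M^{c} * ∏ #(M_{F_i=1} ∩ M^{I_i}) ≤ (∏ #M_{F_i=1}) * #M^Γ`.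
-/

set_option autoImplicit false

namespace Fermat.Agent.Mazur.Descent

variable {Γ : Type*} [Group Γ] {ι : Type*} [Fintype ι]

/-- The inequality. -/
def Bound (C : Cond Γ) (I : ι → Subgroup Γ) (F : ι → Γ) (c₀ : Γ) {M : Type} [AddCommGroup M]
    (ρ : Γ →* AddMonoid.End M) : Prop :=
  (B1 ρ).relIndex (sel C I ρ) ≠ 0 ∧
    (B1 ρ).relIndex (sel C I ρ) * Nat.card ↥(fixOne ρ c₀) *
        ∏ i, Nat.card ↥(unitPart ρ (F i) ⊓ fix ρ (I i)) ≤
      (∏ i, Nat.card ↥(unitPart ρ (F i))) * Nat.card ↥(fix ρ ⊤)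

theorem card_mul_relIndex {A : Type*} [AddGroup A] {H K : AddSubgroup A} (h : H ≤ K) :
    Nat.card H * H.relIndex K = Nat.card K := by
  rw [AddSubgroup.relIndex,
    ← Nat.card_congr (AddSubgroup.addSubgroupOfEquivOfLe h).toEquiv]
  exact AddSubgroup.card_mul_index _

theorem bound_of_subsingleton (C : Cond Γ) (I : ι → Subgroup Γ) (F : ι → Γ) (c₀ : Γ)
    {M : Type} [AddCommGroup M] [Subsingleton M] (ρ : Γ →* AddMonoid.End M) :
    Bound C I F c₀ ρ := by
  have h1 : (B1 ρ).relIndex (sel C I ρ) = 1 := by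
    rw [AddSubgroup.relIndex_eq_one]
    exact fun c _ => ⟨0, funext fun σ => Subsingleton.elim _ _⟩
  have h2 : ∀ S : AddSubgroup M, Nat.card S = 1 := fun S => Nat.card_unique
  refine ⟨by rw [h1]; exact one_ne_zero, ?_⟩
  rw [h1, Finset.prod_eq_one fun i _ => h2 _, Finset.prod_eq_one fun i _ => h2 _, h2, h2]
  norm_num

variable (C : Cond Γ) (I : ι → Subgroup Γ) (F : ι → Γ) (c₀ : Γ)

/-- The dévissage step. -/
theorem bound_step (hF : ∀ i, ∀ σ ∈ I i, (F i)⁻¹ * σ * F i ∈ I i) {M : Type} [AddCommGroup M]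
    [Finite M] (ρ : Γ →* AddMonoid.End M) (hdm : C.Dom ρ) (X : AddSubgroup M) (hX : IsStable ρ X)
    (hsel : sel C I (subRep ρ X hX) ≤ B1 (subRep ρ X hX))
    (hc : Nat.card ↥(fixOne (subRep ρ X hX) c₀) ≤
      Nat.card ↥(fix (subRep ρ X hX) ⊤))
    (hY : Bound C I F c₀ (quotRep ρ X hX)) : Bound C I F c₀ ρ := by
  classical
  set ρX := subRep ρ X hX with hρX
  set ρY := quotRep ρ X hX with hρY
  set π : M →+ M ⧸ X := QuotientAddGroup.mk' X with hπdef
  have hπs : Function.Surjective π := QuotientAddGroup.mk'_surjective X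
  have hπ0 : ∀ {m}, π m = 0 ↔ m ∈ X := fun {m} => QuotientAddGroup.eq_zero_iff m
  have hπker : π.ker = X := QuotientAddGroup.ker_mk' X
  have hπρ : ∀ σ m, π (ρ σ m) = ρY σ (π m) := fun σ m => rfl
  set iS : (Γ → X) →+ (Γ → M) := X.subtype.compLeft Γ with hiS
  set πS : (Γ → M) →+ (Γ → M ⧸ X) := π.compLeft Γ with hπS
  have hiSinj : Function.Injective iS := fun d d' h =>
    funext fun σ => Subtype.ext (congrFun h σ)
  have hiZ : ∀ d, iS d ∈ Z1 ρ → d ∈ Z1 ρX := fun d hd g h => Subtype.ext (hd g h)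
  have hiP : ∀ d, iS d ∈ sel C I ρ → d ∈ C.P ρX := fun d hd =>
    C.comap ρX ρ X.subtype (C.dom_sub ρ hdm X hX) hdm Subtype.val_injective (fun σ x => rfl) d
      (hiZ d (C.le_Z1 ρ (mem_sel.mp hd).1)) (mem_sel.mp hd).1
  have hmapY : ∀ c ∈ sel C I ρ, πS c ∈ sel C I ρY := fun c hcs => by
    obtain ⟨hP, hloc⟩ := mem_sel.mp hcs
    refine mem_sel.mpr ⟨C.map ρ ρY π hdm (C.dom_quot ρ hdm X hX) hπρ c hP, fun i => ?_⟩
    obtain ⟨m, hm⟩ := hloc i
    exact ⟨π m, fun σ hσ => (congrArg π (hm σ hσ)).trans (by rw [map_sub, hπρ])⟩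
  -- the three indices
  set L := sel C I ρ ⊓ (B1 ρY).comap πS with hL
  have hB1L : B1 ρ ≤ L := by
    rintro _ ⟨m, rfl⟩
    exact ⟨B1_le_sel C I ρ hdm ⟨m, rfl⟩, π m, funext fun σ => by
      simp [hπS, map_sub, hπρ]⟩
  have hLsel : L.relIndex (sel C I ρ) ≠ 0 ∧
      L.relIndex (sel C I ρ) ≤ (B1 ρY).relIndex (sel C I ρY) := by
    rw [hL, AddSubgroup.inf_relIndex_left, AddSubgroup.relIndex_comap]
    have hle : (sel C I ρ).map πS ≤ sel C I ρY := by
      rintro _ ⟨c, hcs, rfl⟩; exact hmapY c hcs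
    exact ⟨fun h0 => hY.1 (AddSubgroup.relIndex_eq_zero_of_le_right hle h0),
      AddSubgroup.relIndex_le_of_le_right hle hY.1⟩
  set D := (sel C I ρ).comap iS with hD
  have hLeq : L = D.map iS ⊔ B1 ρ := by
    refine le_antisymm ?_ (sup_le ?_ hB1L)
    · rintro c ⟨hcs, y, hy⟩
      obtain ⟨m, rfl⟩ := hπs y
      have hmem : ∀ σ, c σ - (ρ σ m - m) ∈ X := fun σ => by
        rw [← hπ0, map_sub, map_sub, hπρ]
        exact sub_eq_zero.mpr (congrFun hy σ).symm
      set d : Γ → X := fun σ => ⟨_, hmem σ⟩ with hd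
      have he : iS d = c - dB ρ m := funext fun σ => rfl
      rw [show c = iS d + dB ρ m by rw [he, sub_add_cancel]]
      refine AddSubgroup.add_mem_sup (AddSubgroup.mem_map_of_mem iS ?_) ⟨m, rfl⟩
      show iS d ∈ sel C I ρ
      rw [he]
      exact sub_mem hcs (B1_le_sel C I ρ hdm ⟨m, rfl⟩)
    · rintro _ ⟨d, hd, rfl⟩
      exact ⟨hd, 0, funext fun σ => by simp [hπS, hiS, hπ0.mpr (d σ).2]⟩
  set R := (B1 ρ).comap iS with hR
  have hB1L' : (B1 ρ).relIndex L = R.relIndex D := by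
    rw [hLeq, AddSubgroup.relIndex_sup_right, hR, AddSubgroup.relIndex_comap]
  have hRD : R ≤ D := AddSubgroup.comap_mono (B1_le_sel C I ρ hdm)
  have hXR : B1 ρX ≤ R := by
    rintro _ ⟨x, rfl⟩; exact ⟨(x : M), funext fun σ => rfl⟩
  -- global connecting map
  have hXfix : X ⊓ fix ρ ⊤ = (fix ρX ⊤).map X.subtype := by
    ext m
    constructor
    · rintro ⟨h1, h2⟩; exact ⟨⟨m, h1⟩, fun σ hσ => Subtype.ext (h2 σ hσ), rfl⟩
    · rintro ⟨x, hx, rfl⟩; exact ⟨x.2, fun σ hσ => congrArg Subtype.val (hx σ hσ)⟩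
  set T := (fix ρY ⊤).comap π with hT
  have hfixT : fix ρ ⊤ ≤ T := fun m hm σ hσ => by rw [← hπρ, hm σ hσ]
  have hXT : X ≤ T := fun m hm => by
    show π m ∈ fix ρY ⊤; rw [hπ0.mpr hm]; exact zero_mem _
  have hcardcomap : ∀ S : AddSubgroup (M ⧸ X), Nat.card ↥(S.comap π) = Nat.card X * Nat.card S := by
    intro S
    rw [← card_inf_ker_mul_card_map π (S.comap π), AddSubgroup.map_comap_eq_self_of_surjective hπs,
      hπker, inf_eq_right.mpr (show X ≤ S.comap π from fun m hm => by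
        rw [AddSubgroup.mem_comap, hπ0.mpr hm]; exact zero_mem _)]
  set r := (B1 ρX).relIndex R with hr
  have hr1 : r * Nat.card ↥(fix ρ ⊤) = Nat.card ↥(fix ρY ⊤) * Nat.card ↥(fix ρX ⊤) := by
    have e1 : (B1 ρX).map iS = X.map (dB ρ) := by
      ext c; constructor
      · rintro ⟨_, ⟨x, rfl⟩, rfl⟩; exact ⟨x, x.2, funext fun σ => rfl⟩
      · rintro ⟨x, hx, rfl⟩; exact ⟨_, ⟨⟨x, hx⟩, rfl⟩, funext fun σ => rfl⟩
    have e2 : R.map iS = T.map (dB ρ) := by
      ext c; constructor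
      · rintro ⟨d, ⟨m, hm⟩, rfl⟩
        refine ⟨m, fun σ _ => ?_, hm⟩
        rw [← hπρ, ← sub_eq_zero, ← map_sub, hπ0]
        have := congrFun hm σ
        rw [dB_apply] at this
        rw [this]; exact (d σ).2
      · rintro ⟨m, hm, rfl⟩
        refine ⟨fun σ => ⟨ρ σ m - m, hπ0.mp ?_⟩, ⟨m, funext fun σ => rfl⟩, funext fun σ => rfl⟩
        rw [map_sub, hπρ, hm σ trivial, sub_self]
    have e3 : r = (X.map (dB ρ)).relIndex (T.map (dB ρ)) := by
      rw [hr, ← e1, ← e2, AddSubgroup.relIndex_map_map_of_injective _ _ hiSinj]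
    have hX' := card_inf_ker_mul_card_map (dB ρ) X
    have hT' := card_inf_ker_mul_card_map (dB ρ) T
    rw [ker_dB, hXfix, Nat.card_congr
      ((fix ρX ⊤).equivMapOfInjective X.subtype Subtype.val_injective).symm.toEquiv] at hX'
    rw [ker_dB, inf_eq_right.mpr hfixT, hcardcomap] at hT'
    have hmul : Nat.card ↥(X.map (dB ρ)) * r = Nat.card ↥(T.map (dB ρ)) := by
      rw [e3]; exact card_mul_relIndex (AddSubgroup.map_mono hXT)
    refine Nat.eq_of_mul_eq_mul_left (Nat.card_pos (α := X)) ?_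
    calc Nat.card X * (r * Nat.card ↥(fix ρ ⊤))
        = Nat.card ↥(fix ρX ⊤) * (Nat.card ↥(fix ρ ⊤) * (Nat.card ↥(X.map (dB ρ)) * r)) := by
          rw [← hX']; ring
      _ = _ := by rw [hmul, hT']; ring
  have hrpos : 0 < r := by
    refine Nat.pos_of_ne_zero fun h0 => ?_
    rw [h0, zero_mul] at hr1
    exact (Nat.mul_pos Nat.card_pos Nat.card_pos).ne hr1
  -- local connecting maps
  let BI : ∀ i, AddSubgroup (I i → X) := fun i => B1 (ρX.comp (I i).subtype)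
  let Tloc : ι → AddSubgroup M := fun i => (fix ρY (I i) ⊓ unitPart ρY (F i)).comap π
  have hδmem : ∀ i (m : Tloc i) (σ : I i), ρ σ.1 m.1 - m.1 ∈ X := fun i m σ => by
    rw [← hπ0, map_sub, hπρ, m.2.1 σ.1 σ.2, sub_self]
  let δ : ∀ i, Tloc i →+ (I i → X) ⧸ BI i := fun i =>
    (QuotientAddGroup.mk' (BI i)).comp
      { toFun := fun m σ => ⟨_, hδmem i m σ⟩
        map_zero' := funext fun σ => Subtype.ext (by simp)
        map_add' := fun a b => funext fun σ => Subtype.ext (by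
          simp only [AddSubgroup.coe_add, map_add, Pi.add_apply]; abel) }
  let Θ : D →+ ∀ i, (I i → X) ⧸ BI i :=
    { toFun := fun d i => QuotientAddGroup.mk' (BI i) (fun σ => (d : Γ → X) σ.1)
      map_zero' := funext fun i => (QuotientAddGroup.mk' (BI i)).map_zero
      map_add' := fun a b => funext fun i => (QuotientAddGroup.mk' (BI i)).map_add _ _ }
  have hΘker : Θ.ker = (B1 ρX).addSubgroupOf D := by
    ext d
    rw [AddSubgroup.mem_addSubgroupOf, AddMonoidHom.mem_ker]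
    constructor
    · intro h0
      refine hsel (mem_sel.mpr ⟨hiP _ d.2, fun i => ?_⟩)
      obtain ⟨x, hx⟩ := (QuotientAddGroup.eq_zero_iff _).mp (congrFun h0 i)
      exact ⟨x, fun σ hσ => (congrFun hx ⟨σ, hσ⟩).symm⟩
    · rintro ⟨x, hx⟩
      exact funext fun i => (QuotientAddGroup.eq_zero_iff _).mpr
        ⟨x, funext fun σ => congrFun hx σ.1⟩
  have hΘδ : ∀ (d : D) i, Θ d i ∈ (δ i).range := by
    intro d i
    obtain ⟨hP, hloc⟩ := mem_sel.mp d.2
    obtain ⟨m₀, hm₀⟩ := hloc i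
    have hm₀Y : π m₀ ∈ fix ρY (I i) := fun σ hσ => by
      rw [← hπρ, ← sub_eq_zero, ← map_sub, hπ0, ← hm₀ σ hσ]; exact ((d : Γ → X) σ).2
    set f := ρY (F i) - 1 with hf
    set V := (fix ρ (I i)).map π with hV
    have hVst : ∀ v ∈ V, f v ∈ V := by
      rintro _ ⟨m, hm, rfl⟩
      refine ⟨ρ (F i) m - m, sub_mem (fun σ hσ => ?_) hm, by rw [map_sub, hπρ]; rfl⟩
      have := hm _ (hF i σ hσ)
      rw [← rho_mul, show σ * F i = F i * ((F i)⁻¹ * σ * F i) by group, rho_mul, this]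
    have hfy : f (π m₀) ∈ V := by
      refine ⟨ρ (F i) m₀ - m₀ - ((d : Γ → X) (F i) : M), fun σ hσ => ?_, ?_⟩
      · set c : Γ → M := iS (d : Γ → X) with hcdef
        have hcZ := C.le_Z1 ρ hP
        have hτ := hF i σ hσ
        have h1 := hcZ σ (F i)
        have h2 := hcZ (F i) ((F i)⁻¹ * σ * F i)
        rw [show F i * ((F i)⁻¹ * σ * F i) = σ * F i by group, h1, hm₀ σ hσ, hm₀ _ hτ, map_sub,
          ← rho_mul, show F i * ((F i)⁻¹ * σ * F i) = σ * F i by group, rho_mul] at h2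
        show ρ σ (ρ (F i) m₀ - m₀ - c (F i)) = ρ (F i) m₀ - m₀ - c (F i)
        rw [map_sub, map_sub, ← sub_eq_zero]
        rw [← sub_eq_zero] at h2
        rw [← neg_eq_zero, ← h2]
        abel
      · rw [map_sub, map_sub, hπρ, hπ0.mpr ((d : Γ → X) (F i)).2, sub_zero]; rfl
    obtain ⟨_, ⟨a, ha, rfl⟩, hva⟩ := exists_sub_mem_nilPart f V hVst hfy
    refine ⟨⟨m₀ - a, ⟨?_, by rwa [map_sub]⟩⟩, ?_⟩
    · rw [map_sub]; exact (fix ρY (I i)).sub_mem hm₀Y fun σ hσ => by rw [← hπρ, ha σ hσ]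
    · refine congrArg (QuotientAddGroup.mk' (BI i)) (funext fun σ => Subtype.ext ?_)
      show ρ σ.1 (m₀ - a) - (m₀ - a) = ((d : Γ → X) σ.1 : M)
      have h := hm₀ σ.1 σ.2
      rw [map_sub, ha σ.1 σ.2]
      rw [show ((d : Γ → X) σ.1 : M) = ρ σ.1 m₀ - m₀ from h]
      abel
  have hfinr : ∀ i, Finite (δ i).range := fun i => Finite.of_surjective (δ i).rangeRestrict
    (δ i).rangeRestrict_surjective
  have hinj : Function.Injective fun (y : Θ.range) (i : ι) =>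
      (⟨y.1 i, by obtain ⟨d, hd⟩ := y.2; rw [← hd]; exact hΘδ d i⟩ : (δ i).range) :=
    fun y y' h => Subtype.ext (funext fun i => congrArg Subtype.val (congrFun h i))
  have hfinΘ : Finite Θ.range := Finite.of_injective _ hinj
  have hrD : (B1 ρX).relIndex D = Nat.card Θ.range := by
    rw [AddSubgroup.relIndex, ← hΘker, AddSubgroup.index_ker]
  have hrDle : (B1 ρX).relIndex D ≤ ∏ i, Nat.card (δ i).range := by
    rw [hrD, ← Nat.card_pi]; exact Nat.card_le_card_of_injective _ hinj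
  -- per prime estimates
  have hXu : ∀ i, X ⊓ unitPart ρ (F i) = (unitPart ρX (F i)).map X.subtype := by
    intro i; ext m
    have hcomm : ∀ x : X, X.subtype ((ρX (F i) - 1) x) = (ρ (F i) - 1) (X.subtype x) :=
      fun x => rfl
    constructor
    · rintro ⟨h1, n, hn⟩
      refine ⟨⟨m, h1⟩, ⟨n, Subtype.ext ?_⟩, rfl⟩
      exact (map_pow_apply X.subtype _ _ hcomm n ⟨m, h1⟩).trans hn
    · rintro ⟨x, hx, rfl⟩; exact ⟨x.2, map_mem_nilPart X.subtype _ _ hcomm hx⟩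
  have hcommπ : ∀ i m, π ((ρ (F i) - 1) m) = (ρY (F i) - 1) (π m) :=
    fun i m => map_sub π _ _
  have hM1 : ∀ i, Nat.card ↥(unitPart ρ (F i)) =
      Nat.card ↥(unitPart ρX (F i)) * Nat.card ↥(unitPart ρY (F i)) := fun i => by
    rw [← card_inf_ker_mul_card_map π (unitPart ρ (F i)), hπker, inf_comm, hXu i,
      ← Nat.card_congr
        ((unitPart ρX (F i)).equivMapOfInjective X.subtype Subtype.val_injective).toEquiv]
    suffices heq : (unitPart ρ (F i)).map π = unitPart ρY (F i) by rw [heq]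
    ext y; constructor
    · rintro ⟨m, hm, rfl⟩; exact map_mem_nilPart π _ _ (hcommπ i) hm
    · intro hy
      obtain ⟨m, hm, rfl⟩ := exists_mem_nilPart π hπs _ _ (hcommπ i) hy
      exact ⟨m, hm, rfl⟩
  have hloc : ∀ i, Nat.card (δ i).range * Nat.card ↥(unitPart ρ (F i) ⊓ fix ρ (I i)) ≤
      Nat.card ↥(unitPart ρY (F i) ⊓ fix ρY (I i)) * Nat.card ↥(unitPart ρX (F i)) := by
    intro i
    set A := unitPart ρ (F i) ⊓ fix ρ (I i) with hA
    have hAT : X ⊔ A ≤ Tloc i := by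
      refine sup_le (fun m hm => ?_) fun m hm => ⟨?_, map_mem_nilPart π _ _ (hcommπ i) hm.1⟩
      · rw [AddSubgroup.mem_comap, hπ0.mpr hm]; exact zero_mem _
      · intro σ hσ; rw [← hπρ, hm.2 σ hσ]
    have hker : (X ⊔ A).addSubgroupOf (Tloc i) ≤ (δ i).ker := by
      intro m hm
      rw [AddSubgroup.mem_addSubgroupOf] at hm
      obtain ⟨x, hx, a, ha, hxa⟩ := AddSubgroup.mem_sup.mp hm
      refine (QuotientAddGroup.eq_zero_iff _).mpr ⟨⟨x, hx⟩, funext fun σ => Subtype.ext ?_⟩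
      show ρ σ.1 x - x = ρ σ.1 m.1 - m.1
      rw [← hxa, map_add, ha.2 σ.1 σ.2]; abel
    have h1 : Nat.card (δ i).range * Nat.card ↥(X ⊔ A) ≤ Nat.card (Tloc i) := by
      rw [← Nat.card_congr (AddSubgroup.addSubgroupOfEquivOfLe hAT).toEquiv,
        ← (δ i).ker.card_mul_index, AddSubgroup.index_ker, mul_comm]
      exact Nat.mul_le_mul_right _ (AddSubgroup.card_le_of_le hker)
    have hXA : Nat.card ↥(X ⊓ A) ≤ Nat.card ↥(unitPart ρX (F i)) := by
      rw [Nat.card_congr ((unitPart ρX (F i)).equivMapOfInjective X.subtype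
        Subtype.val_injective).toEquiv, ← hXu i]
      exact AddSubgroup.card_le_of_le (inf_le_inf_left X inf_le_left)
    refine Nat.le_of_mul_le_mul_left ?_ (Nat.card_pos (α := X))
    calc Nat.card X * (Nat.card (δ i).range * Nat.card A)
        = Nat.card (δ i).range * Nat.card ↥(X ⊔ A) * Nat.card ↥(X ⊓ A) := by
          rw [mul_assoc, card_sup_mul_card_inf]; ring
      _ ≤ Nat.card (Tloc i) * Nat.card ↥(unitPart ρX (F i)) := Nat.mul_le_mul h1 hXA
      _ = _ := by rw [hcardcomap, inf_comm]; ring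
  have hMc : Nat.card ↥(fixOne ρ c₀) ≤
      Nat.card ↥(fixOne ρX c₀) * Nat.card ↥(fixOne ρY c₀) := by
    rw [← card_inf_ker_mul_card_map π (fixOne ρ c₀), hπker]
    refine Nat.mul_le_mul ?_ (AddSubgroup.card_le_of_le ?_)
    · rw [Nat.card_congr ((fixOne ρX c₀).equivMapOfInjective X.subtype
        Subtype.val_injective).toEquiv]
      refine AddSubgroup.card_le_of_le fun m hm =>
        ⟨⟨m, hm.2⟩, Subtype.ext hm.1, rfl⟩
    · rintro _ ⟨m, hm, rfl⟩
      exact (congrArg π hm : _)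
  -- conclusion
  have hrR : r * R.relIndex D = (B1 ρX).relIndex D :=
    AddSubgroup.relIndex_mul_relIndex _ _ _ hXR hRD
  have hRD0 : R.relIndex D ≠ 0 := fun h0 => by
    rw [h0, mul_zero, hrD] at hrR; exact Nat.card_pos.ne hrR
  have htot : (B1 ρ).relIndex (sel C I ρ) = R.relIndex D * L.relIndex (sel C I ρ) := by
    rw [← hB1L', AddSubgroup.relIndex_mul_relIndex _ _ _ hB1L inf_le_left]
  refine ⟨htot ▸ Nat.mul_ne_zero hRD0 hLsel.1, Nat.le_of_mul_le_mul_left ?_ hrpos⟩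
  obtain ⟨hY0, hYle⟩ := hY
  set rY := (B1 ρY).relIndex (sel C I ρY)
  calc r * ((B1 ρ).relIndex (sel C I ρ) * Nat.card ↥(fixOne ρ c₀) *
        ∏ i, Nat.card ↥(unitPart ρ (F i) ⊓ fix ρ (I i)))
      = (B1 ρX).relIndex D * L.relIndex (sel C I ρ) * Nat.card ↥(fixOne ρ c₀) *
        ∏ i, Nat.card ↥(unitPart ρ (F i) ⊓ fix ρ (I i)) := by rw [htot, ← hrR]; ring
    _ ≤ (∏ i, Nat.card (δ i).range) * rY *
        (Nat.card ↥(fix ρX ⊤) * Nat.card ↥(fixOne ρY c₀)) *
        ∏ i, Nat.card ↥(unitPart ρ (F i) ⊓ fix ρ (I i)) :=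
        Nat.mul_le_mul_right _ (Nat.mul_le_mul (Nat.mul_le_mul hrDle hLsel.2)
          (hMc.trans (Nat.mul_le_mul_right _ hc)))
    _ = (∏ i, Nat.card (δ i).range * Nat.card ↥(unitPart ρ (F i) ⊓ fix ρ (I i))) *
        Nat.card ↥(fix ρX ⊤) * (rY * Nat.card ↥(fixOne ρY c₀)) := by
          rw [Finset.prod_mul_distrib]; ring
    _ ≤ (∏ i, Nat.card ↥(unitPart ρY (F i) ⊓ fix ρY (I i)) * Nat.card ↥(unitPart ρX (F i))) *
        Nat.card ↥(fix ρX ⊤) * (rY * Nat.card ↥(fixOne ρY c₀)) :=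
        Nat.mul_le_mul_right _ (Nat.mul_le_mul_right _
          (Finset.prod_le_prod' fun i _ => hloc i))
    _ = (∏ i, Nat.card ↥(unitPart ρX (F i))) * Nat.card ↥(fix ρX ⊤) *
        (rY * Nat.card ↥(fixOne ρY c₀) *
          ∏ i, Nat.card ↥(unitPart ρY (F i) ⊓ fix ρY (I i))) := by
          rw [Finset.prod_mul_distrib]; ring
    _ ≤ (∏ i, Nat.card ↥(unitPart ρX (F i))) * Nat.card ↥(fix ρX ⊤) *
        ((∏ i, Nat.card ↥(unitPart ρY (F i))) * Nat.card ↥(fix ρY ⊤)) :=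
        Nat.mul_le_mul_left _ hYle
    _ = (∏ i, Nat.card ↥(unitPart ρX (F i)) * Nat.card ↥(unitPart ρY (F i))) *
        (r * Nat.card ↥(fix ρ ⊤)) := by rw [Finset.prod_mul_distrib, hr1]; ring
    _ = r * ((∏ i, Nat.card ↥(unitPart ρ (F i))) * Nat.card ↥(fix ρ ⊤)) := by
        simp only [hM1]; ring

/-- The inequality for every module in a class `Adm` closed under quotients in which every
non-zero module has a non-zero stable subgroup without Selmer classes. -/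
theorem bound_of_adm (hF : ∀ i, ∀ σ ∈ I i, (F i)⁻¹ * σ * F i ∈ I i)
    (Adm : ∀ {M : Type} [AddCommGroup M], (Γ →* AddMonoid.End M) → Prop)
    (hquot : ∀ {M : Type} [AddCommGroup M] (ρ : Γ →* AddMonoid.End M), Adm ρ →
      ∀ (X : AddSubgroup M) (hX : IsStable ρ X), Adm (quotRep ρ X hX))
    (hdom : ∀ {M : Type} [AddCommGroup M] (ρ : Γ →* AddMonoid.End M), Adm ρ → C.Dom ρ)
    (hpiece : ∀ {M : Type} [AddCommGroup M] [Finite M] [Nontrivial M]
      (ρ : Γ →* AddMonoid.End M), Adm ρ → ∃ (X : AddSubgroup M) (hX : IsStable ρ X), X ≠ ⊥ ∧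
        sel C I (subRep ρ X hX) ≤ B1 (subRep ρ X hX) ∧
        Nat.card ↥(fixOne (subRep ρ X hX) c₀) ≤
          Nat.card ↥(fix (subRep ρ X hX) ⊤))
    {M : Type} [AddCommGroup M] [Finite M] (ρ : Γ →* AddMonoid.End M) (hρ : Adm ρ) :
    Bound C I F c₀ ρ := by
  suffices h : ∀ (n : ℕ) (M : Type) [AddCommGroup M] [Finite M] (ρ : Γ →* AddMonoid.End M),
      Adm ρ → Nat.card M ≤ n → Bound C I F c₀ ρ from h _ M ρ hρ le_rfl
  intro n
  induction n with
  | zero =>
    intro M _ _ ρ _ hn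
    exact absurd hn (not_le.mpr Nat.card_pos)
  | succ n ih =>
    intro M _ _ ρ hρ hn
    rcases subsingleton_or_nontrivial M with h | h
    · exact bound_of_subsingleton C I F c₀ ρ
    obtain ⟨X, hX, hXne, hsel, hc⟩ := hpiece ρ hρ
    refine bound_step C I F c₀ hF ρ (hdom ρ hρ) X hX hsel hc (ih _ _ (hquot ρ hρ X hX) ?_)
    have hlt : 1 < Nat.card X := (AddSubgroup.one_lt_card_iff_ne_bot X).mpr hXne
    have := AddSubgroup.card_eq_card_quotient_mul_card_addSubgroup X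
    have h2 : Nat.card (M ⧸ X) * 2 ≤ Nat.card M := this ▸ Nat.mul_le_mul_left _ hlt
    have h3 : 0 < Nat.card (M ⧸ X) := Nat.card_pos
    omega

end Fermat.Agent.Mazur.Descent
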