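import Fermat.Agent.Mazur.Descent.Concrete

/-!
# From the counting inequality to the divisibility of rational points

If the modules `G r` of a family satisfy the hypotheses of `descent_bound`, their counts are bounded
and the classes of the rational points lie in the Selmer groups up to a constant, then the images of the
rational points are, up to a constant, divisible by `ℓ ^ r`.
-/

set_option autoImplicit false

noncomputable section

namespace Fermat.Agent.Mazur.Descent

open Fermat.Agent.FlatTangent ExtCitation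

variable (J : Type) [AddCommGroup J] [DistribMulAction Gal J]

/-- The Galois action as endomorphisms. -/
def galAct : Gal →* AddMonoid.End J := DistribMulAction.toAddMonoidEnd Gal J

@[simp] theorem galAct_apply (σ : Gal) (z : J) : galAct J σ z = σ • z := rfl

variable {J}

/-- The data of the descent for one family of torsion modules. -/
structure Family (J : Type) [AddCommGroup J] [DistribMulAction Gal J] (ℓ : ℕ) [Fact ℓ.Prime]
    (S : Finset Nat.Primes) where
  /-- The modules. -/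
  G : ℕ → AddSubgroup J
  stable : ∀ r, IsStable (galAct J) (G r)
  killed : ∀ r, ∀ z ∈ G r, ℓ ^ r • z = 0
  finite : ∀ r, Finite (G r)
  /-- The operators. -/
  op : ℕ → J →+ J
  op_smul : ∀ r (σ : Gal) (x : J), op r (σ • x) = σ • op r x
  op_mem : ∀ r z, ℓ ^ r • z = 0 → op r z ∈ G r

namespace Family

variable {ℓ : ℕ} [Fact ℓ.Prime] {S : Finset Nat.Primes} (D : Family J ℓ S)

/-- The action on one of the modules. -/
def rep (r : ℕ) : Gal →* AddMonoid.End (D.G r) := subRep (galAct J) (D.G r) (D.stable r)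

theorem classFun_mem (r : ℕ) {y : J} (hy : ∀ σ : Gal, σ • (ℓ ^ r • y) = ℓ ^ r • y) (σ : Gal) :
    σ • D.op r y - D.op r y ∈ D.G r := by
  rw [← D.op_smul, ← map_sub]
  refine D.op_mem r _ ?_
  rw [nsmul_sub, ← show σ • (ℓ ^ r • y) = ℓ ^ r • σ • y from
    map_nsmul (DistribSMul.toAddMonoidHom J σ) (ℓ ^ r) y]
  exact sub_eq_zero.mpr (hy σ)

/-- The class of a rational point. -/
def classFun (r : ℕ) (y : J) (hy : ∀ σ : Gal, σ • (ℓ ^ r • y) = ℓ ^ r • y) : Gal → D.G r :=
  fun σ => ⟨σ • D.op r y - D.op r y, D.classFun_mem r hy σ⟩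

/-- The counting hypothesis. -/
def CountLE (c₀ : Gal) (B : ℕ) : Prop :=
  ∀ r, (∏ i, Nat.card ↥(unitPart (D.rep r) (frobS S i))) * Nat.card ↥(fix (D.rep r) ⊤) ≤
    B * (Nat.card ↥(fixOne (D.rep r) c₀) *
      ∏ i, Nat.card ↥(unitPart (D.rep r) (frobS S i) ⊓ fix (D.rep r) (inertS S i)))

/-- The descent. -/
theorem exists_dvd_op (hdiv : ∀ r (x : J), ∃ y, ℓ ^ r • y = x)
    {c₀ : Gal} (hbound : ∀ r, Bound (cond ℓ S) (inertS S) (frobS S) c₀ (D.rep r))
    {B : ℕ} (hB : D.CountLE c₀ B) {K : ℕ} (hK : 0 < K)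
    (hcls : ∀ r (y : J) (hy : ∀ σ : Gal, σ • (ℓ ^ r • y) = ℓ ^ r • y),
      K • D.classFun r y hy ∈ sel (cond ℓ S) (inertS S) (D.rep r)) :
    ∃ C, 0 < C ∧ ∀ r (x : J), (∀ σ : Gal, σ • x = x) →
      ∃ z, (∀ σ : Gal, σ • z = z) ∧ C • D.op r x = ℓ ^ r • z := by
  refine ⟨B.factorial * K, Nat.mul_pos B.factorial_pos hK, fun r x hx => ?_⟩
  haveI := D.finite r
  obtain ⟨y, rfl⟩ := hdiv r x
  obtain ⟨hne, hle⟩ := hbound r
  have hpos : 0 < Nat.card ↥(fixOne (D.rep r) c₀) *
      ∏ i, Nat.card ↥(unitPart (D.rep r) (frobS S i) ⊓ fix (D.rep r) (inertS S i)) :=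
    Nat.mul_pos Nat.card_pos (Finset.prod_pos fun i _ => Nat.card_pos)
  have hrel : (B1 (D.rep r)).relIndex (sel (cond ℓ S) (inertS S) (D.rep r)) ≤ B := by
    refine Nat.le_of_mul_le_mul_right ?_ hpos
    rw [← mul_assoc]
    exact le_trans hle (hB r)
  have hcs := hcls r y hx
  have hmem : B.factorial • (K • D.classFun r y hx) ∈ B1 (D.rep r) := by
    obtain ⟨k, hk⟩ := Nat.dvd_factorial (Nat.pos_of_ne_zero hne) hrel
    rw [hk, mul_comm, mul_nsmul']
    refine AddSubgroup.nsmul_mem _ ?_ k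
    have h1 := AddSubgroup.nsmul_index_mem ((B1 (D.rep r)).addSubgroupOf
      (sel (cond ℓ S) (inertS S) (D.rep r))) ⟨_, hcs⟩
    exact h1
  obtain ⟨m, hm⟩ := hmem
  refine ⟨(B.factorial * K) • D.op r y - (m : J), fun σ => ?_, ?_⟩
  · have h2 : σ • (m : J) - m = B.factorial • (K • (σ • D.op r y - D.op r y)) :=
      congrArg Subtype.val (congrFun hm σ)
    rw [smul_sub, ← sub_eq_zero, show σ • ((B.factorial * K) • D.op r y) =
      (B.factorial * K) • (σ • D.op r y) from map_nsmul (DistribSMul.toAddMonoidHom J σ) _ _,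
      sub_sub_sub_comm, ← nsmul_sub, h2, mul_nsmul', sub_self]
  · rw [nsmul_sub, D.killed r m m.2, sub_zero, map_nsmul, smul_comm]

end Family

end Fermat.Agent.Mazur.Descent
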