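import Fermat.Agent.Mazur.Descent.OrdinaryDom
import Fermat.Agent.Mazur.Descent.Concrete

/-!
# The descent at an odd prime: one level

A module `M` inside `J`, ordinary at `ℓ`, ramified only at `ℓ` and `p`, with residual eigenvalues
`1, χ`: the Kummer classes of the fixed points, moved by the operators killing valuations and local
classes, are killed by a constant, so their images are divisible by `ℓ ^ R`.
-/

set_option autoImplicit false
set_option linter.style.haveILetI false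

noncomputable section

namespace Fermat.Agent.Mazur.Descent

open Fermat.Agent.FlatTangent ExtCitation

variable {ℓ : ℕ} [hℓ : Fact ℓ.Prime]

/-- Hypotheses on a group of points: divisible by `ℓ`, with open stabilisers, with a subset
(the kernel of reduction at `ℓ`) containing the differences under inertia. -/
structure PointSetting (J : Type) [AddCommGroup J] [DistribMulAction Gal J] (ℓ : ℕ) [Fact ℓ.Prime]
    (p : Nat.Primes) (red : Set J) : Prop where
  divisible : ∀ R (x : J), ∃ y, ℓ ^ R • y = x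
  level : ∀ y : J, ∃ E : IntermediateField ℚ Qb, FiniteDimensional ℚ E ∧
    ∀ σ ∈ E.fixingSubgroup, σ • y = y
  red_inert : ∀ σ ∈ inert ℓ, ∀ y : J, σ • y - y ∈ red
  unr : ∀ R (y : J), (∀ σ : Gal, σ • (ℓ ^ R • y) = ℓ ^ R • y) → ∀ q : Nat.Primes,
    (q : ℕ) ≠ ℓ → q ≠ p → ∀ σ ∈ inertP q, σ • y = y

/-- One level of the descent. -/
structure OddLevel {J : Type} [AddCommGroup J] [DistribMulAction Gal J] (red : Set J)
    (Tj e : J →+ J) (p : Nat.Primes) (ℓ : ℕ) [Fact ℓ.Prime] (c₀ : Gal) (R d w k B : ℕ) where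
  M : Type
  [add : AddCommGroup M]
  [fin : Finite M]
  ρ : Gal →* AddMonoid.End M
  C : AddSubgroup M
  F : Gal
  T : M →+ M
  ι : M →+ J
  loc : OrdData ℓ ρ C F T R
  unr : ∀ q : Nat.Primes, (q : ℕ) ≠ ℓ → q ≠ p → ∀ σ ∈ inertP q, ρ σ = 1
  eig : Eig (cycloChar ℓ) ρ
  inj : Function.Injective ι
  equiv : ∀ g m, ι (ρ g m) = g • ι m
  hecke : ∀ m, ι (T m) = Tj (ι m)
  proj : ∀ x : J, ℓ ^ R • x = 0 → ∃ m, ι m = e x
  conn : ∀ m, ι m ∈ red → ℓ ^ d • m ∈ C
  index_sub : loc.killExt.range.index ≤ k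
  fixed : Nat.card ↥(fix ρ ⊤) ≤ B
  count : Nat.card M ≤ B * (Nat.card ↥(fixOne ρ c₀) * Nat.card ↥(fix ρ (inertP p)))
  local_p : ∀ c ∈ Z1 ρ, (∃ E : IntermediateField ℚ Qb, FiniteDimensional ℚ E ∧
      ∀ σ ∈ E.fixingSubgroup, c σ = 0) → ∃ m, ∀ σ ∈ inertP p, w • c σ = ρ σ m - m

attribute [instance] OddLevel.add OddLevel.fin

theorem eig_subRep {χ : Gal →* (ZMod ℓ)ˣ} {M : Type} [AddCommGroup M] {ρ : Gal →* AddMonoid.End M}
    (h : Eig χ ρ) (X : AddSubgroup M) (hX : IsStable ρ X) : Eig χ (subRep ρ X hX) := by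
  obtain ⟨r, a, h⟩ := h
  refine ⟨r, a, fun x => ⟨Subtype.ext (h x.1).1, fun g => Subtype.ext ?_⟩⟩
  rw [ZeroMemClass.coe_zero, ← X.subtype_apply,
    map_pow_apply X.subtype _ (ρ g - 1) (fun _ => rfl),
    map_pow_apply X.subtype _ (ρ g - ((χ g : ZMod ℓ).val : AddMonoid.End M)) (fun _ => by
      show ((_ : X) : M) = _
      rfl)]
  exact (h x.1).2 g

namespace OddLevel

variable {J : Type} [AddCommGroup J] [DistribMulAction Gal J] {red : Set J} {Tj e : J →+ J}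
  {p : Nat.Primes} {c₀ : Gal} {R d w k B : ℕ} (L : OddLevel red Tj e p ℓ c₀ R d w k B)

/-- The module of the descent. -/
def subρ : Gal →* AddMonoid.End L.loc.sub := subRep L.ρ L.loc.sub L.loc.sub_stable

/-- The Selmer group of the module of the descent is bounded. -/
theorem relIndex_le (hℓ2 : ℓ ≠ 2) (hc₀ : (cycloChar ℓ c₀ : ZMod ℓ) = -1) :
    (B1 L.subρ).relIndex (sel (cond ℓ {p}) (inertS {p}) L.subρ) ≠ 0 ∧
      (B1 L.subρ).relIndex (sel (cond ℓ {p}) (inertS {p}) L.subρ) ≤ k * k * B * B := by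
  classical
  have hdom : LocDom ℓ {p} L.subρ :=
    L.loc.locDom_sub fun q hq hqS => L.unr q hq (fun h => hqS (Finset.mem_singleton.mpr h))
  obtain ⟨hne, hle⟩ := descent_bound_of_conj hℓ2 {p} hc₀ L.subρ hdom
    (eig_subRep L.eig _ L.loc.sub_stable)
  refine ⟨hne, ?_⟩
  let i₀ : {q : Nat.Primes // q ∈ ({p} : Finset Nat.Primes)} := ⟨p, Finset.mem_singleton_self p⟩
  haveI : Unique {q : Nat.Primes // q ∈ ({p} : Finset Nat.Primes)} :=
    ⟨⟨i₀⟩, fun i => Subtype.ext (Finset.mem_singleton.mp i.2)⟩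
  rw [Fintype.prod_unique, Fintype.prod_unique] at hle
  rw [show (default : {q : Nat.Primes // q ∈ ({p} : Finset Nat.Primes)}) = i₀ from
    Subsingleton.elim _ _] at hle
  set rel := (B1 L.subρ).relIndex (sel (cond ℓ {p}) (inertS {p}) L.subρ)
  set u := unitPart L.subρ (frobS {p} i₀)
  set fI := fix L.subρ (inertS {p} i₀)
  set fc := fixOne L.subρ c₀
  have hpos : 0 < Nat.card ↥(u ⊓ fI) := Nat.card_pos
  have h1 : Nat.card u * Nat.card fI ≤ Nat.card L.M * Nat.card ↥(u ⊓ fI) := by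
    rw [← card_sup_mul_card_inf u fI]
    exact Nat.mul_le_mul_right _ ((Nat.card_le_card_of_injective _ Subtype.val_injective).trans
      (Nat.card_le_card_of_injective _ Subtype.val_injective))
  have h2 : Nat.card ↥(fix L.subρ ⊤) ≤ B := le_trans
    (Nat.card_le_card_of_injective
      (fun x => (⟨(x.1 : L.M), fun σ hσ => congrArg Subtype.val (x.2 σ hσ)⟩ : fix L.ρ ⊤))
      fun x y h => Subtype.ext (Subtype.ext (congrArg (fun z : fix L.ρ ⊤ => (z : L.M)) h))) L.fixed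
  have hidx : L.loc.sub.index ≤ k := L.index_sub
  have hpart : ∀ (A : AddSubgroup L.M) (A' : AddSubgroup L.loc.sub),
      (∀ x : L.loc.sub, (x : L.M) ∈ A → x ∈ A') → Nat.card A ≤ k * Nat.card A' := by
    intro A A' h
    have h3 := card_mul_relIndex (inf_le_left : A ⊓ L.loc.sub ≤ A)
    rw [AddSubgroup.inf_relIndex_left] at h3
    rw [← h3, mul_comm]
    refine Nat.mul_le_mul (le_trans ?_ hidx) ?_
    · rw [← AddSubgroup.relIndex_top_right L.loc.sub]
      exact AddSubgroup.relIndex_le_of_le_right le_top AddSubgroup.index_ne_zero_of_finite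
    · exact Nat.card_le_card_of_injective
        (fun x => (⟨⟨x.1, x.2.2⟩, h _ x.2.1⟩ : A'))
        fun x y hxy => Subtype.ext (congrArg (fun z : A' => ((z : L.loc.sub) : L.M)) hxy)
  have hc : Nat.card ↥(fixOne L.ρ c₀) ≤ k * Nat.card fc :=
    hpart _ _ fun x hx => Subtype.ext hx
  have hI : Nat.card ↥(fix L.ρ (inertP p)) ≤ k * Nat.card fI :=
    hpart _ _ fun x hx σ hσ => Subtype.ext (hx σ hσ)
  have hM : Nat.card L.M ≤ B * (k * k) * (Nat.card fc * Nat.card fI) :=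
    le_trans L.count (by
      rw [show B * (k * k) * (Nat.card fc * Nat.card fI) =
        B * ((k * Nat.card fc) * (k * Nat.card fI)) by ring]
      exact Nat.mul_le_mul_left B (Nat.mul_le_mul hc hI))
  refine Nat.le_of_mul_le_mul_right ?_
    (Nat.mul_pos (Nat.mul_pos (Nat.card_pos (α := fc)) hpos) (Nat.card_pos (α := fI)))
  calc rel * (Nat.card fc * Nat.card ↥(u ⊓ fI) * Nat.card fI)
      = rel * Nat.card fc * Nat.card ↥(u ⊓ fI) * Nat.card fI := by ring
    _ ≤ Nat.card u * Nat.card ↥(fix L.subρ ⊤) * Nat.card fI := Nat.mul_le_mul_right _ hle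
    _ = Nat.card u * Nat.card fI * Nat.card ↥(fix L.subρ ⊤) := by ring
    _ ≤ B * (k * k) * (Nat.card fc * Nat.card fI) * Nat.card ↥(u ⊓ fI) * B :=
        Nat.mul_le_mul (le_trans h1 (Nat.mul_le_mul_right _ hM)) h2
    _ = _ := by ring

/-- The operator on `J`. -/
def opJ (Tj : J →+ J) (ℓ : ℕ) : J →+ J :=
  (Tj - (ℓ + 1 : ℕ) • AddMonoidHom.id J).comp (Tj.comp Tj - ((ℓ + 1) ^ 2 : ℕ) • AddMonoidHom.id J)

theorem ι_killPt (m : L.M) : L.ι (L.loc.killPt m) = opJ Tj ℓ (L.ι m) := by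
  simp [opJ, OrdData.killPt_apply, OrdData.killExt_apply, map_sub, map_nsmul, L.hecke]
  rw [nsmul_sub, smul_comm]
  abel

include L in
/-- The descent at one level. -/
theorem exists_dvd (hℓ2 : ℓ ≠ 2) (hc₀ : (cycloChar ℓ c₀ : ZMod ℓ) = -1)
    (hJ : PointSetting J ℓ p red) (hTj : ∀ (σ : Gal) x, Tj (σ • x) = σ • Tj x)
    (he : ∀ (σ : Gal) x, e (σ • x) = σ • e x)
    (x : J) (hx : ∀ σ : Gal, σ • x = x) :
    ∃ z : J, (∀ σ : Gal, σ • z = z) ∧
      ((k * k * B * B).factorial * (ℓ ^ d * w)) • opJ Tj ℓ (e x) = ℓ ^ R • z := by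
  classical
  obtain ⟨y, rfl⟩ := hJ.divisible R x
  have hkill : ∀ σ : Gal, ℓ ^ R • (σ • y - y) = 0 := fun σ => by
    rw [nsmul_sub, ← show σ • (ℓ ^ R • y) = ℓ ^ R • σ • y from
      map_nsmul (DistribSMul.toAddMonoidHom J σ) (ℓ ^ R) y, hx, sub_self]
  choose c hc using fun σ => L.proj _ (hkill σ)
  have hcy : ∀ σ, L.ι (c σ) = σ • e y - e y := fun σ => by rw [hc, map_sub, he]
  have hZ : c ∈ Z1 L.ρ := fun g h => L.inj (by
    rw [map_add, L.equiv, hcy, hcy, hcy, mul_smul, smul_sub]; abel)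
  obtain ⟨E, hE, hEy⟩ := hJ.level (e y)
  have hlev : ∀ σ ∈ E.fixingSubgroup, c σ = 0 := fun σ hσ => L.inj (by
    rw [hcy, hEy σ hσ, sub_self, map_zero])
  obtain ⟨mp, hmp⟩ := L.local_p c hZ ⟨E, hE, hlev⟩
  set c₁ : Gal → L.M := fun σ => (ℓ ^ d * w) • c σ with hc₁
  have hadm : OrdData.Adm ℓ L.ρ L.C c₁ := by
    refine ⟨fun g h => ?_, fun σ hσ => ?_, E, hE, fun σ hσ => ?_⟩
    · show _ • c (g * h) = _ • c g + L.ρ g (_ • c h)
      rw [hZ g h, nsmul_add, map_nsmul]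
    · show (ℓ ^ d * w) • c σ ∈ L.C
      rw [mul_comm, mul_nsmul']
      refine L.C.nsmul_mem (L.conn _ ?_) w
      rw [hcy]
      exact hJ.red_inert σ hσ (e y)
    · show _ • c σ = 0
      rw [hlev σ hσ, nsmul_zero]
  set cs : Gal → L.loc.sub := fun σ => ⟨L.loc.killPt (c₁ σ), L.loc.killPt_mem _⟩ with hcs
  have hcomm : ∀ g m, L.loc.killPt (L.ρ g m) = L.ρ g (L.loc.killPt m) := fun g m => by
    simp only [OrdData.killPt_apply, OrdData.killExt_comm, L.loc.comm, map_sub, map_nsmul]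
  have hsel : cs ∈ sel (cond ℓ {p}) (inertS {p}) L.subρ := by
    refine mem_sel.mpr ⟨L.loc.killPt_mem_locP hadm fun q hq hqS σ hσ => ?_, fun i => ?_⟩
    · show _ • c σ = 0
      rw [L.inj (a₁ := c σ) (a₂ := 0) (by
        rw [hc, map_zero, hJ.unr R y hx q hq (fun h => hqS (Finset.mem_singleton.mpr h)) σ hσ,
          sub_self, map_zero]), nsmul_zero]
    · refine ⟨⟨L.loc.killPt (ℓ ^ d • mp), L.loc.killPt_mem _⟩, fun σ hσ => Subtype.ext ?_⟩
      have hσ' : σ ∈ inertP p := by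
        have hi : i.1 = p := Finset.mem_singleton.mp i.2
        rw [← hi]; exact hσ
      show L.loc.killPt ((ℓ ^ d * w) • c σ) =
        L.ρ σ (L.loc.killPt (ℓ ^ d • mp)) - L.loc.killPt (ℓ ^ d • mp)
      rw [← hcomm, ← map_sub, map_nsmul (L.ρ σ), ← nsmul_sub, ← hmp σ hσ', mul_nsmul']
  obtain ⟨hne, hle⟩ := L.relIndex_le hℓ2 hc₀
  have hmem : (k * k * B * B).factorial • cs ∈ B1 L.subρ := by
    obtain ⟨j, hj⟩ := Nat.dvd_factorial (Nat.pos_of_ne_zero hne) hle
    rw [hj, mul_comm, mul_nsmul']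
    refine AddSubgroup.nsmul_mem _ ?_ j
    exact AddSubgroup.nsmul_index_mem ((B1 L.subρ).addSubgroupOf
      (sel (cond ℓ {p}) (inertS {p}) L.subρ)) ⟨_, hsel⟩
  obtain ⟨m, hm⟩ := hmem
  have hop : ∀ (σ : Gal) x, opJ Tj ℓ (σ • x) = σ • opJ Tj ℓ x := fun σ x => by
    simp only [opJ, AddMonoidHom.comp_apply, AddMonoidHom.sub_apply, AddMonoidHom.smul_apply,
      AddMonoidHom.id_apply, smul_sub, hTj, map_sub, map_nsmul, smul_comm σ]
  set N := (k * k * B * B).factorial * (ℓ ^ d * w)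
  refine ⟨N • opJ Tj ℓ (e y) - L.ι m, fun σ => ?_, ?_⟩
  · have h2 : L.ρ σ m - (m : L.M) = (k * k * B * B).factorial • L.loc.killPt ((ℓ ^ d * w) • c σ) :=
      congrArg Subtype.val (congrFun hm σ)
    have h3 := congrArg L.ι h2
    rw [map_sub, map_nsmul, map_nsmul (L.loc.killPt), map_nsmul L.ι, L.ι_killPt, hcy, map_sub, hop,
      L.equiv] at h3
    rw [← sub_eq_zero, smul_sub, show σ • (N • opJ Tj ℓ (e y)) = N • σ • opJ Tj ℓ (e y) from
      map_nsmul (DistribSMul.toAddMonoidHom J σ) _ _, sub_sub_sub_comm, ← nsmul_sub, h3,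
      mul_nsmul', sub_self]
  · have hm0 : ℓ ^ R • L.ι (m : L.M) = 0 := by rw [← map_nsmul, L.loc.kill, map_zero]
    rw [nsmul_sub, hm0, sub_zero, map_nsmul, map_nsmul, smul_comm]

end OddLevel

end Fermat.Agent.Mazur.Descent
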