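import Fermat.Agent.Mazur.Two.Valuation
import Fermat.Agent.Mazur.Descent.Conditions

/-!
# The connected-étale sequence at an ordinary prime

The Frobenius trick of `Two/Valuation` at an arbitrary prime `ℓ`: `T² - (ℓ + 1)²` kills the
valuations of the extension and `(T - (ℓ + 1))(T² - (ℓ + 1)²)` those of points.
-/

set_option autoImplicit false
set_option linter.style.haveILetI false

noncomputable section

namespace Fermat.Agent.Mazur.Descent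

open FlatTangent
open Two (KVal kv kv_eq chVal UnitKummer chVal_add chVal_sub chVal_nsmul chVal_neg chVal_zero exists_cycExp_pow)

variable {ℓ : ℕ} [hℓ : Fact ℓ.Prime]

/-- A finite level of the connected-étale sequence at an ordinary prime: inertia is cyclotomic on `C` and trivial
modulo `C`; the Frobenius element `F` fixes the roots of unity of the level, satisfies
`F² - T F + ℓ` modulo `C`, and its inverse satisfies the same relation on `C`. -/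
structure OrdData (ℓ : ℕ) [Fact ℓ.Prime] {M : Type} [AddCommGroup M]
    (ρ : Gal →* AddMonoid.End M) (C : AddSubgroup M) (F : Gal) (T : M →+ M) (R : ℕ) : Prop where
  kill : ∀ m : M, ℓ ^ R • m = 0
  level : ∃ E : IntermediateField ℚ Qb, FiniteDimensional ℚ E ∧ ∀ σ ∈ E.fixingSubgroup, ρ σ = 1
  unip : ∀ σ ∈ inert ℓ, ∀ m, ρ σ m - m ∈ C
  cyc : ∀ σ ∈ inert ℓ, ∀ x ∈ C, ∀ k : ℕ, (∀ ζ : Qb, ζ ^ ℓ ^ R = 1 → σ ζ = ζ ^ k) → ρ σ x = k • x
  mem_dec : F ∈ dec ℓ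
  frob_fix : ∀ ζ : Qb, ζ ^ ℓ ^ R = 1 → F ζ = ζ
  comm : ∀ g m, T (ρ g m) = ρ g (T m)
  stab_T : ∀ x ∈ C, T x ∈ C
  stab : ∀ x ∈ C, ρ F⁻¹ x ∈ C
  onC : ∀ x ∈ C, ρ F⁻¹ (ρ F⁻¹ x) - T (ρ F⁻¹ x) + ℓ • x = 0
  onQuot : ∀ m, ρ F (ρ F m) - T (ρ F m) + ℓ • m ∈ C


namespace OrdData

variable {M : Type} [AddCommGroup M] {ρ : Gal →* AddMonoid.End M} {C : AddSubgroup M} {F : Gal}
  {T : M →+ M} {R : ℕ} (D : OrdData ℓ ρ C F T R)

include D

theorem conj_mem {σ : Gal} (hσ : σ ∈ inert ℓ) : F⁻¹ * σ * F ∈ inert ℓ := by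
  have := Galois.inertia_normal_in_decomposition (A := plc ℓ) hσ (inv_mem D.mem_dec)
  rwa [inv_inv] at this

theorem chVal_pow (φ : M →+ Additive Qbˣ) (m : M) : chVal φ m ^ ℓ ^ R = 1 := by
  rw [← chVal_nsmul, D.kill, chVal_zero]

theorem chVal_rho (φ : M →+ Additive Qbˣ) {σ : Gal} (hσ : σ ∈ inert ℓ) {x : M} (hx : x ∈ C) :
    chVal φ (ρ σ x) = σ (chVal φ x) := by
  obtain ⟨k, hk⟩ := exists_cycExp_pow (ℓ := ℓ) R σ
  rw [D.cyc σ hσ x hx k hk, chVal_nsmul, hk _ (D.chVal_pow φ x)]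

omit D in
/-- A cocycle with values in `C` on inertia, of finite level. -/
def Adm (ℓ : ℕ) [Fact ℓ.Prime] (ρ : Gal →* AddMonoid.End M) (C : AddSubgroup M) (c : Gal → M) : Prop :=
  c ∈ Z1 ρ ∧ (∀ σ ∈ inert ℓ, c σ ∈ C) ∧
    ∃ L : IntermediateField ℚ Qb, FiniteDimensional ℚ L ∧ ∀ σ ∈ L.fixingSubgroup, c σ = 0

theorem exists_kVal (φ : M →+ Additive Qbˣ) {c : Gal → M} (hc : Adm ℓ ρ C c) :
    ∃ a, KVal ℓ R (fun σ => chVal φ (c σ)) a := by
  obtain ⟨hZ, hC, L, hL, hcL⟩ := hc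
  exact KVal.exists_of_cocycle (fun s _ => D.chVal_pow φ _)
    (fun s hs t ht => by rw [hZ s t, chVal_add, D.chVal_rho φ hs (hC t ht), mul_comm]) L
    (fun g _ s _ hs => by rw [hZ g s, hcL s hs, map_zero, add_zero])

theorem adm_dB (m : M) : Adm ℓ ρ C (dB ρ m) := by
  obtain ⟨E, hE, h1⟩ := D.level
  exact ⟨dB_mem_Z1 ρ m, fun σ hσ => D.unip σ hσ m, E, hE, fun σ hσ => by
    rw [dB_apply, h1 σ hσ]; exact sub_self m⟩

omit D in
theorem adm_comp {c : Gal → M} (hc : Adm ℓ ρ C c) (f : M →+ M) (hf : ∀ g m, f (ρ g m) = ρ g (f m))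
    (hfC : ∀ x ∈ C, f x ∈ C) : Adm ℓ ρ C fun σ => f (c σ) := by
  obtain ⟨hZ, hC, L, hL, hcL⟩ := hc
  exact ⟨fun g h => by show f (c (g * h)) = _; rw [hZ g h, map_add, hf],
    fun σ hσ => hfC _ (hC σ hσ), L, hL, fun σ hσ => by simp [hcL σ hσ]⟩

/-- The valuation attached to a character and a cocycle. -/
def val (_D : OrdData ℓ ρ C F T R) (φ : M →+ Additive Qbˣ) (c : Gal → M) : ZMod (ℓ ^ R) :=
  kv ℓ R fun σ => chVal φ (c σ)

theorem val_congr {φ ψ : M →+ Additive Qbˣ} {c d : Gal → M} (hc : Adm ℓ ρ C c)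
    (h : ∀ σ ∈ inert ℓ, chVal φ (c σ) = chVal ψ (d σ)) : D.val φ c = D.val ψ d := by
  obtain ⟨a, ha⟩ := D.exists_kVal φ hc
  rw [val, val, kv_eq ha, kv_eq (ha.congr h)]

theorem val_add (φ : M →+ Additive Qbˣ) {c d : Gal → M} (hc : Adm ℓ ρ C c) (hd : Adm ℓ ρ C d) :
    D.val φ (fun σ => c σ + d σ) = D.val φ c + D.val φ d := by
  obtain ⟨a, ha⟩ := D.exists_kVal φ hc
  obtain ⟨b, hb⟩ := D.exists_kVal φ hd
  rw [val, val, val, kv_eq ha, kv_eq hb, ← Int.cast_add,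
    kv_eq ((ha.mul hb).congr fun σ _ => (chVal_add φ _ _).symm)]

theorem val_sub (φ : M →+ Additive Qbˣ) {c d : Gal → M} (hc : Adm ℓ ρ C c) (hd : Adm ℓ ρ C d) :
    D.val φ (fun σ => c σ - d σ) = D.val φ c - D.val φ d := by
  obtain ⟨a, ha⟩ := D.exists_kVal φ hc
  obtain ⟨b, hb⟩ := D.exists_kVal φ hd
  rw [val, val, val, kv_eq ha, kv_eq hb, ← Int.cast_sub,
    kv_eq ((ha.div hb).congr fun σ _ => (chVal_sub φ _ _).symm)]

/-- The valuation attached to a character and a point of the extension. -/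
def ext (D : OrdData ℓ ρ C F T R) (φ : M →+ Additive Qbˣ) (m : M) : ZMod (ℓ ^ R) := D.val φ (dB ρ m)

theorem ext_add (φ : M →+ Additive Qbˣ) (m n : M) :
    D.ext φ (m + n) = D.ext φ m + D.ext φ n := by
  rw [ext, ext, ext, map_add, ← D.val_add φ (D.adm_dB m) (D.adm_dB n)]
  rfl

theorem ext_sub (φ : M →+ Additive Qbˣ) (m n : M) :
    D.ext φ (m - n) = D.ext φ m - D.ext φ n := by
  rw [ext, ext, ext, map_sub, ← D.val_sub φ (D.adm_dB m) (D.adm_dB n)]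
  rfl

theorem ext_eq_zero (φ : M →+ Additive Qbˣ) {e : M} (he : e ∈ C) : D.ext φ e = 0 := by
  have h : KVal ℓ R (fun σ => chVal φ (dB ρ e σ)) 0 :=
    KVal.of_coboundary (D.chVal_pow φ e) fun σ hσ => by
      rw [← chVal_add, dB_apply, sub_add_cancel, D.chVal_rho φ hσ he]
  rw [ext, val, kv_eq h, Int.cast_zero]

/-- Invariance of the valuation under Frobenius. -/
theorem val_transport (φ : M →+ Additive Qbˣ) {c : Gal → M} (hc : Adm ℓ ρ C c) :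
    D.val φ c = D.val (φ.comp (ρ F⁻¹)) fun σ => c σ + dB ρ (c F) σ := by
  obtain ⟨a, ha⟩ := D.exists_kVal φ hc
  rw [val, val, kv_eq ha, kv_eq ((ha.dec D.mem_dec fun σ hσ => D.conj_mem hσ).congr fun σ hσ => ?_)]
  have h2 : ρ F (c (F⁻¹ * σ * F)) = c σ + dB ρ (c F) σ := by
    have h3 := hc.1 F (F⁻¹ * σ * F)
    rw [show F * (F⁻¹ * σ * F) = σ * F by group, hc.1 σ F] at h3
    rw [dB_apply, ← add_sub_assoc, h3, add_sub_cancel_left]
  show F (chVal φ (c (F⁻¹ * σ * F))) = chVal φ (ρ F⁻¹ (c σ + dB ρ (c F) σ))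
  rw [D.frob_fix _ (D.chVal_pow φ _), ← h2, ← rho_mul, inv_mul_cancel, rho_one]

theorem exists_kVal_nsmul (φ : M →+ Additive Qbˣ) {c : Gal → M} (hc : Adm ℓ ρ C c) (k : ℕ) :
    ∃ b : ℤ, D.val φ c = (b : ZMod (ℓ ^ R)) ∧
      KVal ℓ R (fun σ => chVal φ (k • c σ)) ((k : ℤ) * b) := by
  obtain ⟨b, hb⟩ := D.exists_kVal φ hc
  refine ⟨b, kv_eq hb, ?_⟩
  induction k with
  | zero =>
    rw [Nat.cast_zero, zero_mul]
    exact KVal.of_coboundary (w := 1) (one_pow _) fun σ _ => by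
      rw [map_one, zero_nsmul, chVal_zero, one_mul]
  | succ k ih =>
    rw [Nat.cast_succ, add_mul, one_mul]
    exact (ih.mul hb).congr fun σ _ => by rw [succ_nsmul, chVal_add]

theorem val_nsmul (φ : M →+ Additive Qbˣ) {c : Gal → M} (hc : Adm ℓ ρ C c) (k : ℕ) :
    D.val φ (fun σ => k • c σ) = (k : ZMod (ℓ ^ R)) * D.val φ c := by
  obtain ⟨b, hb, hk⟩ := D.exists_kVal_nsmul φ hc k
  rw [hb, val, kv_eq hk, Int.cast_mul, Int.cast_natCast]

theorem val_frobInv_sq (φ : M →+ Additive Qbˣ) {c : Gal → M} (hc : Adm ℓ ρ C c) :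
    D.val ((φ.comp (ρ F⁻¹)).comp (ρ F⁻¹)) c =
      D.val (φ.comp (ρ F⁻¹)) (fun σ => T (c σ)) - (ℓ : ZMod (ℓ ^ R)) * D.val φ c := by
  obtain ⟨a, ha⟩ := D.exists_kVal (φ.comp (ρ F⁻¹)) (adm_comp hc T D.comm D.stab_T)
  obtain ⟨b, hb, hbℓ⟩ := D.exists_kVal_nsmul φ hc ℓ
  refine (show D.val ((φ.comp (ρ F⁻¹)).comp (ρ F⁻¹)) c = ((a - (ℓ : ℤ) * b : ℤ) : ZMod (ℓ ^ R)) from
    kv_eq ((ha.div hbℓ).congr fun σ hσ => ?_)).trans ?_
  · show chVal φ (ρ F⁻¹ (T (c σ))) / chVal φ (ℓ • c σ) =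
      chVal φ (ρ F⁻¹ (ρ F⁻¹ (c σ)))
    rw [← chVal_sub, ← D.comm]
    congr 1
    have := D.onC (c σ) (hc.2.1 σ hσ)
    rw [sub_eq_iff_eq_add, eq_comm, ← sub_eq_zero, ← this]
    abel
  · rw [hb, val, kv_eq ha]
    push_cast
    rfl

theorem val_comp_T (φ : M →+ Additive Qbˣ) (m : M) :
    D.val φ (fun σ => T (dB ρ m σ)) = D.ext φ (T m) := by
  rw [ext]
  exact congrArg (D.val φ) (funext fun σ => by simp only [dB_apply, map_sub, D.comm])

theorem ext_nsmul (φ : M →+ Additive Qbˣ) (n : ℕ) (m : M) :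
    D.ext φ (n • m) = (n : ZMod (ℓ ^ R)) * D.ext φ m := by
  induction n with
  | zero => rw [zero_nsmul, D.ext_eq_zero φ C.zero_mem, Nat.cast_zero, zero_mul]
  | succ n ih => rw [succ_nsmul, D.ext_add, ih, Nat.cast_succ, add_mul, one_mul]

/-- `T² - (ℓ + 1)²` kills the valuations of the extension. -/
theorem ext_sq_sub_sq (φ : M →+ Additive Qbˣ) (m : M) :
    D.ext φ (T (T m)) = ((ℓ : ZMod (ℓ ^ R)) + 1) ^ 2 * D.ext φ m := by
  have htr : ∀ (ψ : M →+ Additive Qbˣ) (x : M),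
      D.ext ψ x = D.ext (ψ.comp (ρ F⁻¹)) (ρ F x) := by
    intro ψ x
    rw [ext, ext, D.val_transport ψ (D.adm_dB x)]
    refine congrArg (D.val _) (funext fun σ => ?_)
    simp only [dB_apply, map_sub]
    abel
  set a := D.ext φ with ha
  have h1 : ∀ x, D.ext (φ.comp (ρ F⁻¹)) x = a (T x) - (ℓ : ZMod (ℓ ^ R)) * a (ρ F x) := by
    intro x
    rw [htr (φ.comp (ρ F⁻¹)) x, ha, ext, D.val_frobInv_sq φ (D.adm_dB _), D.val_comp_T, D.comm]
    exact congrArg (· - (ℓ : ZMod (ℓ ^ R)) * D.ext φ (ρ F x)) (htr φ (T x)).symm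
  have h2 : ∀ x, a (T (ρ F x)) = ((ℓ : ZMod (ℓ ^ R)) + 1) * a x := by
    intro x
    have h3 := (htr φ x).trans (h1 _)
    rw [← ha] at h3
    have h4 : a (ρ F (ρ F x)) = a (T (ρ F x)) - (ℓ : ZMod (ℓ ^ R)) * a x := by
      rw [ha, ← D.ext_nsmul, ← D.ext_sub, ← sub_eq_zero, ← D.ext_sub]
      convert D.ext_eq_zero φ (D.onQuot x) using 2
      abel
    rw [h4] at h3
    -- h3 : a x = a (T (F x)) - ℓ * (a (T (F x)) - ℓ * a x)
    have hu : IsUnit (1 - (ℓ : ZMod (ℓ ^ R))) :=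
      (IsNilpotent.isUnit_one_sub ⟨R, by rw [← Nat.cast_pow, ZMod.natCast_self]⟩)
    refine hu.mul_left_cancel ?_
    linear_combination -h3
  have h5 : ∀ x, a (T x) = ((ℓ : ZMod (ℓ ^ R)) + 1) * a (ρ F x) := by
    intro x
    have h6 := h2 (ρ F x)
    have h4' : a (ρ F (ρ F x)) = a (T (ρ F x)) - (ℓ : ZMod (ℓ ^ R)) * a x := by
      rw [ha, ← D.ext_nsmul, ← D.ext_sub, ← sub_eq_zero, ← D.ext_sub]
      convert D.ext_eq_zero φ (D.onQuot x) using 2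
      abel
    have h7 : a (T (ρ F (ρ F x))) = a (T (T (ρ F x))) - (ℓ : ZMod (ℓ ^ R)) * a (T x) := by
      rw [ha, ← D.ext_nsmul, ← D.ext_sub, ← map_nsmul, ← map_sub, ← sub_eq_zero, ← D.ext_sub,
        ← map_sub]
      convert D.ext_eq_zero φ (D.stab_T _ (D.onQuot x)) using 3
      abel
    rw [h7, show T (T (ρ F x)) = T (ρ F (T x)) by rw [D.comm], h2] at h6
    linear_combination h6
  rw [h5, ← D.comm, h2]
  ring

/-- The operator killing the valuations of the extension. -/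
def killExt (_D : OrdData ℓ ρ C F T R) : M →+ M :=
  T.comp T - ((ℓ + 1) ^ 2 : ℕ) • AddMonoidHom.id M

theorem killExt_apply (m : M) : D.killExt m = T (T m) - ((ℓ + 1) ^ 2) • m := rfl

theorem killExt_comm (g : Gal) (m : M) : D.killExt (ρ g m) = ρ g (D.killExt m) := by
  simp only [killExt_apply, D.comm, map_sub, map_nsmul]

theorem killExt_mem {x : M} (hx : x ∈ C) : D.killExt x ∈ C :=
  C.sub_mem (D.stab_T _ (D.stab_T _ hx)) (C.nsmul_mem hx _)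

theorem ext_killExt (φ : M →+ Additive Qbˣ) (m : M) : D.ext φ (D.killExt m) = 0 := by
  rw [killExt_apply, D.ext_sub, D.ext_sq_sub_sq, D.ext_nsmul, Nat.cast_pow, Nat.cast_succ, sub_self]

theorem unitKummer_of_val {φ : M →+ Additive Qbˣ} {c : Gal → M} (hc : Adm ℓ ρ C c)
    (h : D.val φ c = 0) : UnitKummer ℓ fun σ => chVal φ (c σ) := by
  obtain ⟨a, ha⟩ := D.exists_kVal φ hc
  rw [val, kv_eq ha] at h
  exact ha.unitKummer ((ZMod.intCast_zmod_eq_zero_iff_dvd a _).mp h)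

/-- `T² - (ℓ + 1)²` kills the valuations of the extension. -/
theorem unitKummer_dB (φ : M →+ Additive Qbˣ) (m : M) :
    UnitKummer ℓ fun σ => chVal φ (dB ρ (D.killExt m) σ) :=
  D.unitKummer_of_val (D.adm_dB _) (D.ext_killExt φ m)

/-- `(T - (ℓ + 1))(T² - (ℓ + 1)²)` kills the valuations of a cocycle with values in `C` on
inertia. -/
theorem unitKummer_cocycle (φ : M →+ Additive Qbˣ) {c : Gal → M} (hc : Adm ℓ ρ C c) :
    UnitKummer ℓ fun σ => chVal φ (T (D.killExt (c σ)) - (ℓ + 1) • D.killExt (c σ)) := by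
  set c₁ : Gal → M := fun σ => D.killExt (c σ) with hc₁def
  have hc₁ : Adm ℓ ρ C c₁ := adm_comp hc _ D.killExt_comm fun x hx => D.killExt_mem hx
  have hT : Adm ℓ ρ C fun σ => T (c₁ σ) := adm_comp hc₁ T D.comm D.stab_T
  have hTw : ∀ x, T (D.killExt x) = D.killExt (T x) := fun x => by
    simp only [killExt_apply, map_sub, map_nsmul]
  have key : ∀ (ψ : M →+ Additive Qbˣ) (d : Gal → M), Adm ℓ ρ C d → (∃ x, d F = D.killExt x) →
      D.val ψ d = D.val (ψ.comp (ρ F⁻¹)) d := by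
    intro ψ d hd ⟨x, hx⟩
    rw [D.val_transport ψ hd, D.val_add _ hd (D.adm_dB _), hx]
    exact add_eq_left.mpr (D.ext_killExt (ψ.comp (ρ F⁻¹)) x)
  have h1 : ∀ ψ, D.val ψ c₁ = D.val (ψ.comp (ρ F⁻¹)) c₁ := fun ψ => key ψ c₁ hc₁ ⟨_, rfl⟩
  have h2 : D.val φ (fun σ => T (c₁ σ)) = ((ℓ : ZMod (ℓ ^ R)) + 1) * D.val φ c₁ := by
    rw [key φ _ hT ⟨T (c F), hTw _⟩]
    have h := (h1 φ).trans ((h1 _).trans (D.val_frobInv_sq φ hc₁))
    linear_combination -h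
  have h3 : D.val φ (fun σ => T (c₁ σ) - (ℓ + 1) • c₁ σ) = 0 := by
    rw [D.val_sub φ (d := fun σ => (ℓ + 1) • c₁ σ) hT (adm_comp hc₁ ((ℓ + 1 : ℕ) • AddMonoidHom.id M)
        (fun g m => by simp [map_nsmul]) fun x hx => C.nsmul_mem hx _), h2,
      D.val_nsmul φ hc₁, Nat.cast_succ, sub_self]
  exact D.unitKummer_of_val (adm_comp hc₁ (T - (ℓ + 1 : ℕ) • AddMonoidHom.id M)
    (fun g m => by simp [D.comm, map_sub, map_nsmul])
    fun x hx => C.sub_mem (D.stab_T x hx) (C.nsmul_mem hx _)) h3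

end OrdData

end Fermat.Agent.Mazur.Descent
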