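import Fermat.Agent.Mazur.Descent.Ordinary

/-!
# The local conditions at `ℓ` from the connected-étale sequence

After applying the operators killing the valuations, a module and a cocycle satisfy the conditions
`LocDom` and `locP`.
-/

set_option autoImplicit false

noncomputable section

namespace Fermat.Agent.Mazur.Descent

open FlatTangent
open Two (chVal chVal_zero UnitKummer)

variable {ℓ : ℕ} [hℓ : Fact ℓ.Prime] {M : Type} [AddCommGroup M]

omit hℓ in
theorem exists_chVal_ne_one {m : M} {n : ℕ} (hn : 0 < n) (hm : n • m = 0) (hm0 : m ≠ 0) :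
    ∃ φ : M →+ Additive Qbˣ, chVal φ m ≠ 1 := by
  set o := addOrderOf m with hodef
  have ho : 0 < o :=
    addOrderOf_pos_iff.mpr (isOfFinAddOrder_iff_nsmul_eq_zero.mpr ⟨n, hn, hm⟩)
  haveI : NeZero o := ⟨ho.ne'⟩
  obtain ⟨ζ, hζ⟩ := HasEnoughRootsOfUnity.exists_primitiveRoot Qb o
  set u : Qbˣ := (hζ.isUnit ho.ne').unit with hu
  let ι : ZMod o →+ M := ZMod.lift o ⟨zmultiplesHom M m, by
    show (o : ℤ) • m = 0
    rw [natCast_zsmul]
    exact addOrderOf_nsmul_eq_zero m⟩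
  have hι : ∀ k : ℤ, ι (k : ZMod o) = k • m := fun k => ZMod.lift_coe o _ k
  have hinj : Function.Injective ι := by
    refine (ZMod.lift_injective _).mpr fun k hk => ?_
    rw [ZMod.intCast_zmod_eq_zero_iff_dvd]
    exact addOrderOf_dvd_iff_zsmul_eq_zero.mpr hk
  let g : ZMod o →+ Additive Qbˣ := ZMod.lift o ⟨zmultiplesHom _ (Additive.ofMul u), by
    show (o : ℤ) • Additive.ofMul u = 0
    rw [natCast_zsmul, ← ofMul_pow]
    have h1 : u ^ o = 1 := Units.ext (by rw [Units.val_pow_eq_pow_val, hu, IsUnit.unit_spec,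
      hζ.pow_eq_one, Units.val_one])
    rw [h1, ofMul_one]⟩
  obtain ⟨φ, hφ⟩ := Two.exists_character_extension ι hinj g
  refine ⟨φ, fun h1 => ?_⟩
  have h2 : φ m = Additive.ofMul u := by
    have h3 : ι ((1 : ℤ) : ZMod o) = m := by rw [hι, one_zsmul]
    rw [← h3]
    refine (DFunLike.congr_fun hφ _).trans ?_
    show ZMod.lift o _ ((1 : ℤ) : ZMod o) = _
    rw [ZMod.lift_coe]
    exact one_zsmul _
  have h3 : ζ = 1 := by
    rw [chVal, h2, toMul_ofMul, hu, IsUnit.unit_spec] at h1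
    exact h1
  have h4 : o = 1 := by
    rw [h3] at hζ
    exact hζ.unique IsPrimitiveRoot.one
  exact hm0 (AddMonoid.addOrderOf_eq_one_iff.mp h4)

/-- A map whose characters are Kummer cocycles of units vanishes on the unit kernel. -/
theorem eq_zero_of_unitKummer {n : ℕ} (hn : 0 < n) (hM : ∀ m : M, n • m = 0) {f : Gal → M}
    (h : ∀ φ : M →+ Additive Qbˣ, UnitKummer ℓ fun σ => chVal φ (f σ)) {σ : Gal}
    (hσ : σ ∈ unitKer ℓ) : f σ = 0 := by
  by_contra hne
  obtain ⟨φ, hφ⟩ := exists_chVal_ne_one hn (hM (f σ)) hne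
  obtain ⟨z, hz, hz'⟩ := h φ
  refine hφ ?_
  have h1 : σ z = chVal φ (f σ) * z := hz' σ hσ.1
  rw [hσ.2 z hz] at h1
  obtain ⟨k, hk, hv⟩ := hz
  exact (mul_eq_right₀ hv.ne_zero).mp h1.symm

namespace OrdData

variable {ρ : Gal →* AddMonoid.End M} {C : AddSubgroup M} {F : Gal} {T : M →+ M} {R : ℕ}
  (D : OrdData ℓ ρ C F T R)

include D

theorem cycEig_of_mem {τ : Gal} (hτ : τ ∈ inert ℓ) {x : M} (hx : x ∈ C) :
    CycEig ℓ ρ τ x := by
  refine ⟨⟨R, D.kill x⟩, fun R' hR' k hk => ?_⟩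
  obtain ⟨k₀, hk₀⟩ := exists_cycExp ℓ (max R' R) τ
  rw [D.cyc τ hτ x hx k₀ fun ζ hζ => hk₀ ζ (by
    obtain ⟨j, hj⟩ := Nat.exists_eq_add_of_le (le_max_right R' R)
    rw [hj, pow_add, pow_mul, hζ, one_pow])]
  exact cycExp_smul_congr (le_max_left _ _) hk hk₀ hR'

/-- The submodule of the descent. -/
def sub : AddSubgroup M := D.killExt.range

theorem sub_stable : IsStable ρ D.sub := by
  rintro g _ ⟨m, rfl⟩
  exact ⟨ρ g m, D.killExt_comm g m⟩

theorem rho_unitKer {σ : Gal} (hσ : σ ∈ unitKer ℓ) {x : M} (hx : x ∈ D.sub) : ρ σ x = x := by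
  obtain ⟨m, rfl⟩ := hx
  exact sub_eq_zero.mp (eq_zero_of_unitKummer (f := dB ρ (D.killExt m))
    (pow_pos hℓ.out.pos R) D.kill (fun φ => D.unitKummer_dB φ m) hσ)

/-- The submodule of the descent satisfies the conditions. -/
theorem locDom_sub {S : Finset Nat.Primes}
    (hunr : ∀ q : Nat.Primes, (q : ℕ) ≠ ℓ → q ∉ S → ∀ σ ∈ inertP q, ρ σ = 1) :
    LocDom ℓ S (subRep ρ D.sub D.sub_stable) where
  fin := by
    obtain ⟨E, hE, h1⟩ := D.level
    exact ⟨E, hE, fun σ hσ => AddMonoidHom.ext fun x => Subtype.ext (by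
      show ρ σ x.1 = x.1
      rw [h1 σ hσ]; rfl)⟩
  unr := fun q hq hqS σ hσ => AddMonoidHom.ext fun x => Subtype.ext (by
    show ρ σ x.1 = x.1
    rw [hunr q hq hqS σ hσ]; rfl)
  prim := ⟨R, fun x => Subtype.ext (D.kill x.1)⟩
  eig := fun σ hσ τ hτ x =>
    (D.cycEig_of_mem hτ (D.unip σ hσ x.1)).comap (ρ := subRep ρ D.sub D.sub_stable)
      (ρ' := ρ) D.sub.subtype Subtype.val_injective (fun _ => rfl)
  ker := fun σ hσ => AddMonoidHom.ext fun x => Subtype.ext (D.rho_unitKer hσ x.2)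

omit D in
/-- The operator killing the valuations of the classes of points. -/
def killPt (D : OrdData ℓ ρ C F T R) : M →+ M :=
  (T - (ℓ + 1 : ℕ) • AddMonoidHom.id M).comp D.killExt

theorem killPt_apply (m : M) : D.killPt m = T (D.killExt m) - (ℓ + 1) • D.killExt m := rfl

theorem killPt_mem (m : M) : D.killPt m ∈ D.sub := by
  rw [killPt_apply]
  refine D.sub.sub_mem ⟨T m, ?_⟩ (D.sub.nsmul_mem ⟨m, rfl⟩ _)
  simp only [killExt_apply, map_sub, map_nsmul]

/-- A cocycle, moved by `killPt`, satisfies the conditions. -/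
theorem killPt_mem_locP {S : Finset Nat.Primes} {c : Gal → M} (hc : Adm ℓ ρ C c)
    (hunr : ∀ q : Nat.Primes, (q : ℕ) ≠ ℓ → q ∉ S → ∀ σ ∈ inertP q, c σ = 0) :
    (fun σ => (⟨D.killPt (c σ), D.killPt_mem _⟩ : D.sub)) ∈
      locP ℓ S (subRep ρ D.sub D.sub_stable) := by
  obtain ⟨hZ, hC, E, hE, hcE⟩ := hc
  have hcomm : ∀ g m, D.killPt (ρ g m) = ρ g (D.killPt m) := fun g m => by
    simp only [killPt_apply, D.killExt_comm, D.comm, map_sub, map_nsmul]
  refine ⟨fun g h => Subtype.ext ?_, ⟨E, hE, fun σ hσ => Subtype.ext ?_⟩,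
    fun q hq hqS σ hσ => Subtype.ext ?_, fun σ hσ τ hτ => ?_, fun σ hσ => Subtype.ext ?_⟩
  · show D.killPt (c (g * h)) = D.killPt (c g) + ρ g (D.killPt (c h))
    rw [hZ g h, map_add, hcomm]
  · show D.killPt (c σ) = 0
    rw [hcE σ hσ, map_zero]
  · show D.killPt (c σ) = 0
    rw [hunr q hq hqS σ hσ, map_zero]
  · refine CycEig.comap (ρ' := ρ) D.sub.subtype Subtype.val_injective (fun _ => rfl) ?_
    exact D.cycEig_of_mem hτ (C.sub_mem (D.stab_T _ (D.killExt_mem (hC σ hσ)))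
      (C.nsmul_mem (D.killExt_mem (hC σ hσ)) _))
  · exact eq_zero_of_unitKummer (f := fun σ => D.killPt (c σ)) (pow_pos hℓ.out.pos R) D.kill
      (fun φ => D.unitKummer_cocycle φ ⟨hZ, hC, E, hE, hcE⟩) hσ

end OrdData

end Fermat.Agent.Mazur.Descent
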