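import Fermat.Agent.Mazur.Defs
import Fermat.Agent.Mazur.Descent.Approx
import Fermat.Agent.Mazur.Descent.Kummer
import Fermat.Agent.MW.DivisibleJZero
import Fermat.Agent.HK.HeckeFinal

/-!
# A rank zero element from a descent family on `J₀(N)`
-/

set_option autoImplicit false

noncomputable section

open ModularCurve

namespace Fermat.Agent.Mazur

open Fermat.Agent.FlatTangent

variable (N : ℕ) [NeZero N]

/-- The operator attached to a formal Hecke element. -/
def heckeOp (t : HeckeAlg) : JZero N →+ JZero N :=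
  letI := heckeModuleBar N
  DistribSMul.toAddMonoidHom (JZero N) t

theorem heckeOp_apply (t : HeckeAlg) (x : JZero N) :
    heckeOp N t x = (letI := heckeModuleBar N; t • x) := rfl

theorem heckeOp_smul (t : HeckeAlg) (σ : Gal) (x : JZero N) :
    heckeOp N t (σ • x) = σ • heckeOp N t x :=
  letI := heckeModuleBar N
  haveI := HK.Corr.smulCommClass_heckeModuleBar N
  (smul_comm σ t x).symm

/-- The divisibility of the images of the rational points gives a rank zero element. -/
theorem rankZeroElement_of_dvd {ℓ : ℕ} (hℓ : ℓ.Prime) (e : ℕ → HeckeAlg) {C : ℕ} (hC : 0 < C)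
    (hfg : AddGroup.FG ↥(FixedPoints.addSubgroup Gal (JZero N)))
    (hdvd : ∀ r (x : JZero N), (∀ σ : Gal, σ • x = x) →
      ∃ z, (∀ σ : Gal, σ • z = z) ∧ C • heckeOp N (e r) x = ℓ ^ r • z)
    (hne : ∃ b, ∀ r, b ≤ r → ¬ ∃ s, latticeEval N (e r) = ℓ ^ b • s) :
    RankZeroElement N := by
  letI := heckeModuleBar N
  haveI := HK.Corr.smulCommClass_heckeModuleBar N
  let M : Submodule HeckeAlg (JZero N) :=
    { FixedPoints.addSubgroup Gal (JZero N) with
      smul_mem' := fun t x hx σ => by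
        rw [smul_comm, show σ • x = x from hx σ] }
  haveI : Module.Finite ℤ M := Module.Finite.iff_addGroup_fg.mpr hfg
  obtain ⟨t, ht, htor⟩ := Descent.exists_smul_torsion_of_approx (R := HeckeAlg) (M := M)
    (latticeEval N).toAddMonoidHom hℓ e hC
    (fun r x => by
      obtain ⟨z, hz, hzx⟩ := hdvd r x.1 x.2
      exact ⟨⟨z, hz⟩, Subtype.ext hzx⟩) hne
  refine ⟨t, ht, fun x hx => ?_⟩
  obtain ⟨m, hm, hmx⟩ := htor ⟨x, hx⟩
  exact ⟨m, hm, congrArg Subtype.val hmx⟩

/-- A descent family with bounded counts gives a rank zero element. -/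
theorem rankZeroElement_of_family {ℓ : ℕ} [Fact ℓ.Prime] {S : Finset Nat.Primes}
    (D : Descent.Family (JZero N) ℓ S) (e : ℕ → HeckeAlg) (he : ∀ r, D.op r = heckeOp N (e r))
    (hfg : AddGroup.FG ↥(FixedPoints.addSubgroup Gal (JZero N))) {c₀ : Gal}
    (hbound : ∀ r, Descent.Bound (Descent.cond ℓ S) (Descent.inertS S) (Descent.frobS S) c₀
      (D.rep r))
    {B : ℕ} (hB : D.CountLE c₀ B) {K : ℕ} (hK : 0 < K)
    (hcls : ∀ r (y : JZero N) (hy : ∀ σ : Gal, σ • (ℓ ^ r • y) = ℓ ^ r • y),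
      K • D.classFun r y hy ∈ Descent.sel (Descent.cond ℓ S) (Descent.inertS S) (D.rep r))
    (hne : ∃ b, ∀ r, b ≤ r → ¬ ∃ s, latticeEval N (e r) = ℓ ^ b • s) :
    RankZeroElement N := by
  obtain ⟨C, hC, h⟩ := D.exists_dvd_op
    (fun r x => MW.exists_nsmul_eq_jzero N (pow_ne_zero r (Fact.out : ℓ.Prime).ne_zero) x)
    hbound hB hK hcls
  refine rankZeroElement_of_dvd N Fact.out e hC hfg (fun r x hx => ?_) hne
  obtain ⟨z, hz, hzx⟩ := h r x hx
  exact ⟨z, hz, by rw [← he]; exact hzx⟩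

end Fermat.Agent.Mazur
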